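/-
S19, geometry core in ABSTRACT form (helper5516).  Note: origin/helper5516:notes/S19_GC_abstract_helper5516.md
Definitions for "Deuring data": a constant reduction `(O, red)` of a function field `F/K` onto `Fb/k`
(`Fermat.Agent.RIN.IsConstRed`, helper1601) together with a place map `r` satisfying conservation.
This file has no open statements; Mathlib + Prelude + `Fermat.Agent.RIN` only.
-/
import Fermat.Agent.RIN.Main
import Fermat.Prelude.Def_AlgebraicCurve_BaseChangeGalois

set_option autoImplicit false

namespace Fermat.Agent.S19.Abs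

open AlgebraicCurve Fermat.Agent.RIN

noncomputable section

variable {K F k Fb : Type*} [Field K] [Field F] [Algebra K F] [Field k] [Field Fb] [Algebra k Fb]

/-- The valuation ring `A = K ∩ O` of constants. -/
def constRing (K : Type*) {F : Type*} [Field K] [Field F] [Algebra K F] (O : ValuationSubring F) :
    ValuationSubring K :=
  O.comap (algebraMap K F)

theorem mem_constRing {O : ValuationSubring F} {a : K} :
    a ∈ constRing K O ↔ algebraMap K F a ∈ O := Iff.rfl

/-- Conservation: `r_* div(y) = div(red y)` for `y ∈ O` with nonzero reduction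
(the conclusion of `Fermat.Agent.RIN.exists_placeReduction`). -/
def Conserves {O : ValuationSubring F} (red : O →+* Fb) (r : Place K F → Place k Fb) : Prop :=
  ∀ (y : F) (hy : y ∈ O), red ⟨y, hy⟩ ≠ 0 → ∀ D : Divisor K F, (∀ P, D P = P.ord y) →
    ∀ Q, Finsupp.mapDomain r D Q = Q.ord (red ⟨y, hy⟩)

/-- `c` is the value of `f` at the place `P`: `f - c` lies in the maximal ideal of `P`. -/
def HasValue (P : Place K F) (f : F) (c : K) : Prop :=
  f - algebraMap K F c ∈ P.toValuationSubring.nonunits

/-- The value `f(P)` (junk value `0` if `f` has no value at `P`). -/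
def evalAt (P : Place K F) (f : F) : K :=
  open Classical in if h : ∃ c : K, HasValue P f c then h.choose else 0

/-- `f` has no pole on the residue disc `r⁻¹(Q)`. -/
def RegOn (r : Place K F → Place k Fb) (Q : Place k Fb) (f : F) : Prop :=
  ∀ P, r P = Q → f ∈ P.toValuationSubring

/-- `τ` is a coordinate of the residue disc of `Q`: integral, without poles on the disc, and its
reduction is a uniformiser at `Q`. -/
structure IsCoord {O : ValuationSubring F} (red : O →+* Fb) (r : Place K F → Place k Fb)
    (Q : Place k Fb) (τ : F) : Prop where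
  mem : τ ∈ O
  reg : RegOn r Q τ
  ord : ∀ h : τ ∈ O, Q.ord (red ⟨τ, h⟩) = 1

/-- The reduced divisor `P_1 + ⋯ + P_n`. -/
def sumDiv {n : ℕ} (P : Fin n → Place K F) : Divisor K F :=
  ∑ i, Finsupp.single (P i) (1 : ℤ)

/-- Linear equivalence of divisors: `D - E = div h`. -/
def LinEquiv (D E : Divisor K F) : Prop :=
  ∃ h : F, h ≠ 0 ∧ ∀ P : Place K F, D P - E P = P.ord h

/-- The kernel of reduction on `Pic0`: classes of divisors whose push-forward is principal. -/
def InKer (r : Place K F → Place k Fb) (u : Pic0 K F) : Prop :=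
  ∃ D : Divisor.degZero (K := K) (F := F), Pic0.mk D = u ∧
    Finsupp.mapDomain r (D : Divisor K F) ∈ Divisor.principal (K := k) (F := Fb)

/-- The numerical and rank-one hypotheses of the abstract theorem, bundled. -/
structure Setup {O : ValuationSubring F} {red : O →+* Fb} (hO : IsConstRed K k O red) (g : ℕ)
    (r : Place K F → Place k Fb) (ϖ : K) : Prop where
  hyp : Hyp hO (g : ℤ)
  cons : Conserves red r
  unif_mem : ϖ ∈ constRing K O
  unif_ne : ϖ ≠ 0
  dvd_pow : ∀ a : K, a ≠ 0 → ∃ n : ℕ, ϖ ^ n * a⁻¹ ∈ constRing K O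
  pow_dvd : ∀ b ∈ (constRing K O).nonunits, ∃ n : ℕ, b ^ n * ϖ⁻¹ ∈ constRing K O

/-- A chart: a reduced non-special divisor `Q_1 + ⋯ + Q_g` on the special fibre, a base divisor `E0`
of degree `g` on the generic fibre whose reduction is linearly equivalent to it and whose support
avoids the discs of the `Q_i`, and coordinates of these discs. -/
structure Chart {O : ValuationSubring F} (red : O →+* Fb) (r : Place K F → Place k Fb) (g : ℕ) where
  Q : Fin g → Place k Fb
  Q_inj : Function.Injective Q
  nonspecial : ∀ f ∈ riemannRochSpace (sumDiv Q), ∃ c : k, f = algebraMap k Fb c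
  E0 : Divisor K F
  deg_E0 : Divisor.degree E0 = g
  red_E0 : LinEquiv (Finsupp.mapDomain r E0) (sumDiv Q)
  supp_E0 : ∀ P, E0 P ≠ 0 → ∀ i, r P ≠ Q i
  τ : Fin g → F
  coord : ∀ i, IsCoord red r (Q i) (τ i)

/-- `P_1, …, P_g` are the points of the class `u` in the chart `c`: `P_i` lies in the disc of `Q_i` and
`P_1 + ⋯ + P_g - E0` represents `u`. -/
def Chart.Pts {O : ValuationSubring F} {red : O →+* Fb} {r : Place K F → Place k Fb} {g : ℕ}
    (c : Chart red r g) (u : Pic0 K F) (P : Fin g → Place K F) : Prop :=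
  (∀ i, r (P i) = c.Q i) ∧ ∃ D : Divisor.degZero (K := K) (F := F), Pic0.mk D = u ∧
    (D : Divisor K F) = sumDiv P - c.E0

/-- The coordinates `t_i(u) = τ_i(P_i(u))` of a class `u` in the chart `c`
(junk value `0` if `u` has no points in the chart). -/
def Chart.t {O : ValuationSubring F} {red : O →+* Fb} {r : Place K F → Place k Fb} {g : ℕ}
    (c : Chart red r g) (u : Pic0 K F) : Fin g → K :=
  open Classical in
  if h : ∃ P : Fin g → Place K F, c.Pts u P then fun i => evalAt (h.choose i) (c.τ i) else 0

/-- Riemann's theorem with constant `g` for a function field `E/k`. -/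
structure Riemann (k E : Type*) [Field k] [Field E] [Algebra k E] (g : ℕ) : Prop where
  deg_one : ∀ Q : Place k E, Q.deg = 1
  ineq : ∀ D : Divisor k E,
    Divisor.degree D + 1 - g ≤ (Module.finrank k (riemannRochSpace D) : ℤ)
  eq_large : ∃ c : ℤ, ∀ D : Divisor k E, c ≤ Divisor.degree D →
    (Module.finrank k (riemannRochSpace D) : ℤ) ≤ Divisor.degree D + 1 - g

/-- The special fibre satisfies Riemann's theorem. -/
theorem Setup.riemann {O : ValuationSubring F} {red : O →+* Fb} {hO : IsConstRed K k O red} {g : ℕ}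
    {r : Place K F → Place k Fb} {ϖ : K} (H : Setup hO g r ϖ) : Riemann k Fb g :=
  ⟨H.hyp.degFb, H.hyp.RFb, H.hyp.RFb'⟩

/-- A subgroup of semilinear automorphisms acting like an inertia group: it preserves `O` and acts
trivially on reductions. -/
def InertiaLike {O : ValuationSubring F} (red : O →+* Fb) (I : Subgroup (SemilinearAut K F)) :
    Prop :=
  ∀ σ ∈ I, ∀ (f : F) (hf : f ∈ O), ∃ hσ : σ • f ∈ O, red ⟨σ • f, hσ⟩ = red ⟨f, hf⟩

/-- (HI) Off a finite set, the residue discs have inertia-fixed coordinates. -/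
def FixedCoords {O : ValuationSubring F} (red : O →+* Fb) (r : Place K F → Place k Fb)
    (I : Subgroup (SemilinearAut K F)) : Prop :=
  ∃ T₀ : Finset (Place k Fb), ∀ Q ∉ T₀, ∃ τ : F, IsCoord red r Q τ ∧ ∀ σ ∈ I, σ • τ = τ

/-- A chart whose base divisor and coordinates are fixed by `I`. -/
def Chart.IsFixed {O : ValuationSubring F} {red : O →+* Fb} {r : Place K F → Place k Fb} {g : ℕ}
    (c : Chart red r g) (I : Subgroup (SemilinearAut K F)) : Prop :=
  (∀ σ ∈ I, σ • c.E0 = c.E0) ∧ ∀ σ ∈ I, ∀ i, σ • c.τ i = c.τ i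

/-- An `A`-subalgebra `C` of functions `S → K` is GOOD if its elements are `A`-valued and it contains
`ϖ ^ m • (all A-valued functions)` for some `m`. -/
def IsGood (A : ValuationSubring K) (ϖ : K) {S : Type*} (C : Subalgebra A (S → K)) : Prop :=
  (∀ f ∈ C, ∀ s, f s ∈ A) ∧ ∃ m : ℕ, ∀ f : S → K, (∀ s, f s ∈ A) → (fun s => ϖ ^ m * f s) ∈ C

end

end Fermat.Agent.S19.Abs
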