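/-
S19 Abs, piece FSC-A (pure Mathlib): good subalgebras of functions on a finite set; Lagrange, inverses.
FROZEN STATEMENTS (helper5516 skeleton of the abstract geometry core of S19) — all PROVED here.
Proof sketches: origin/helper5516:notes/S19_GC_abstract_helper5516.md; protocol: notes/S19_ABS_BOARD_helper5516.md
-/
import Fermat.Agent.S19.Abs.Defs

set_option autoImplicit false

namespace Fermat.Agent.S19.Abs


variable {K : Type*} [Field K] (A : ValuationSubring K) (ϖ : K) {S : Type*} [Finite S]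

omit [Finite S] in
/-- The scalar action of `A` on functions, pointwise. -/
theorem smul_fun_apply (a : A) (f : S → K) (s : S) : (a • f) s = (a : K) * f s := rfl

omit [Finite S] in
theorem algebraMap_fun_apply (a : A) (s : S) : (algebraMap A (S → K) a) s = (a : K) := rfl

omit [Finite S] in
/-- Constant functions with value in `A` lie in every subalgebra. -/
theorem const_mem (C : Subalgebra A (S → K)) {a : K} (ha : a ∈ A) : (fun _ : S => a) ∈ C :=
  C.algebraMap_mem ⟨a, ha⟩

omit [Finite S] in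
/-- Elements of an adjoin of `A`-valued functions are `A`-valued. -/
theorem adjoin_valued {ι : Type*} (x : ι → S → K) (hxA : ∀ i s, x i s ∈ A) {f : S → K}
    (hf : f ∈ Algebra.adjoin A (Set.range x)) (s : S) : f s ∈ A := by
  induction hf using Algebra.adjoin_induction with
  | mem f hf =>
    obtain ⟨i, rfl⟩ := hf
    exact hxA i s
  | algebraMap a => exact a.2
  | add f g _ _ hf hg => exact A.add_mem _ _ hf hg
  | mul f g _ _ hf hg => exact A.mul_mem _ _ hf hg

/-- (F1) Lagrange: the polynomial functions in a jointly injective family of `A`-valued functions form a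
good subalgebra. -/
theorem isGood_adjoin (hϖ : ∀ a : K, a ≠ 0 → ∃ n : ℕ, ϖ ^ n * a⁻¹ ∈ A) (hϖA : ϖ ∈ A)
    {ι : Type*} [Finite ι] (x : ι → S → K) (hxA : ∀ i s, x i s ∈ A)
    (hinj : ∀ s s' : S, (∀ i, x i s = x i s') → s = s') :
    IsGood A ϖ (Algebra.adjoin A (Set.range x)) := by
  classical
  cases nonempty_fintype S
  refine ⟨fun f hf s => adjoin_valued A x hxA hf s, ?_⟩
  set C := Algebra.adjoin A (Set.range x) with hC
  have key : ∀ s₀ s' : S, ∃ h ∈ C, (s' ≠ s₀ → h s' = 0 ∧ h s₀ ≠ 0) := by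
    intro s₀ s'
    by_cases hs : s' = s₀
    · exact ⟨1, C.one_mem, fun h => absurd hs h⟩
    · have hex : ∃ i, x i s₀ ≠ x i s' := by
        by_contra hcon
        push Not at hcon
        exact hs (hinj s₀ s' hcon).symm
      obtain ⟨i, hi⟩ := hex
      refine ⟨x i - (fun _ => x i s'), ?_, fun _ => ?_⟩
      · exact C.sub_mem (Algebra.subset_adjoin ⟨i, rfl⟩) (const_mem A C (hxA i s'))
      · exact ⟨by simp, by simpa [sub_eq_zero] using hi⟩
  choose h hhC hh using key
  set δ : S → S → K := fun s₀ => ∏ s' ∈ Finset.univ.erase s₀, h s₀ s' with hδ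
  have hδC : ∀ s₀, δ s₀ ∈ C := fun s₀ => C.prod_mem fun s' _ => hhC s₀ s'
  have hδ0 : ∀ s₀ s, s ≠ s₀ → δ s₀ s = 0 := by
    intro s₀ s hs
    show (∏ s' ∈ Finset.univ.erase s₀, h s₀ s') s = 0
    rw [Finset.prod_apply]
    exact Finset.prod_eq_zero (Finset.mem_erase.mpr ⟨hs, Finset.mem_univ _⟩) (hh s₀ s hs).1
  have hδ1 : ∀ s₀, δ s₀ s₀ ≠ 0 := by
    intro s₀
    show (∏ s' ∈ Finset.univ.erase s₀, h s₀ s') s₀ ≠ 0
    rw [Finset.prod_apply, Finset.prod_ne_zero_iff]
    intro s' hs'
    exact (hh s₀ s' (Finset.mem_erase.mp hs').1).2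
  have hδA : ∀ s₀ s, δ s₀ s ∈ A := fun s₀ s => adjoin_valued A x hxA (hδC s₀) s
  choose n hn using fun s₀ => hϖ (δ s₀ s₀) (hδ1 s₀)
  obtain ⟨m, hm⟩ : ∃ m : ℕ, m = ∑ s₀, n s₀ := ⟨_, rfl⟩
  refine ⟨m, fun f hf => ?_⟩
  have hcoef : ∀ s₀, ϖ ^ m * (δ s₀ s₀)⁻¹ * f s₀ ∈ A := by
    intro s₀
    have hle : n s₀ ≤ m := by
      rw [hm]
      exact Finset.single_le_sum (fun _ _ => Nat.zero_le _) (Finset.mem_univ s₀)
    have e : ϖ ^ m * (δ s₀ s₀)⁻¹ * f s₀
        = ϖ ^ (m - n s₀) * (ϖ ^ n s₀ * (δ s₀ s₀)⁻¹) * f s₀ := by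
      rw [← mul_assoc, ← pow_add, Nat.sub_add_cancel hle]
    rw [e]
    exact A.mul_mem _ _ (A.mul_mem _ _ (pow_mem hϖA _) (hn s₀)) (hf s₀)
  have heq : (fun s => ϖ ^ m * f s)
      = ∑ s₀, (⟨_, hcoef s₀⟩ : A) • δ s₀ := by
    funext s
    rw [Finset.sum_apply, Finset.sum_eq_single s]
    · rw [smul_fun_apply]
      have := hδ1 s
      field_simp
    · intro s₀ _ hs₀
      rw [smul_fun_apply, hδ0 s₀ s (Ne.symm hs₀), mul_zero]
    · intro hs
      exact absurd (Finset.mem_univ s) hs
  rw [heq]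
  exact C.sum_mem fun s₀ _ => C.smul_mem (hδC s₀) _

omit [Finite S] in
/-- Elements of the adjoin are polynomial expressions (used to transport analyticity). -/
theorem adjoin_mono_of_mem {ι ι' : Type*} (x : ι → S → K) (y : ι' → S → K)
    (h : ∀ i, x i ∈ Algebra.adjoin A (Set.range y)) :
    Algebra.adjoin A (Set.range x) ≤ Algebra.adjoin A (Set.range y) := by
  apply Algebra.adjoin_le
  rintro _ ⟨i, rfl⟩
  exact h i

omit [Finite S] in
/-- Functoriality: composing with a map `φ : S' → S` sends `adjoin (x)` into `adjoin (x ∘ φ)`. -/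
theorem comp_mem_adjoin {S' : Type*} {ι : Type*} (x : ι → S → K) (φ : S' → S) {f : S → K}
    (hf : f ∈ Algebra.adjoin A (Set.range x)) :
    (fun s' => f (φ s')) ∈ Algebra.adjoin A (Set.range fun i => fun s' => x i (φ s')) := by
  induction hf using Algebra.adjoin_induction with
  | mem f hf =>
    obtain ⟨i, rfl⟩ := hf
    exact Algebra.subset_adjoin ⟨i, rfl⟩
  | algebraMap a => exact Subalgebra.algebraMap_mem _ a
  | add f g _ _ hf hg => exact add_mem hf hg
  | mul f g _ _ hf hg => exact mul_mem hf hg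

/-- (F2) A pointwise unit of an `A`-valued subalgebra has its inverse in the subalgebra. -/
theorem inv_mem_of_pointwise_unit (C : Subalgebra A (S → K)) (hC : ∀ f ∈ C, ∀ s, f s ∈ A)
    {c : S → K} (hc : c ∈ C) (hu : ∀ s, ∃ v ∈ A, c s * v = 1) : (fun s => (c s)⁻¹) ∈ C := by
  classical
  cases nonempty_fintype S
  have key : ∀ T : Finset S, ∃ q ∈ C, ∃ a ∈ A, ∃ v ∈ A, a * v = 1 ∧
      ∀ s', ∏ s ∈ T, (c s' - c s) = c s' * q s' + a := by
    intro T
    induction T using Finset.induction_on with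
    | empty =>
      exact ⟨0, C.zero_mem, 1, A.one_mem, 1, A.one_mem, by simp, fun s' => by simp⟩
    | insert t T ht ih =>
      obtain ⟨q, hq, a, ha, v, hv, hav, hprod⟩ := ih
      obtain ⟨w, hw, hcw⟩ := hu t
      have hct : c t ∈ A := hC c hc t
      refine ⟨q * (c - fun _ => c t) + (fun _ => a), ?_, -(a * c t), ?_, -(v * w), ?_, ?_, ?_⟩
      · exact C.add_mem (C.mul_mem hq (C.sub_mem hc (const_mem A C hct))) (const_mem A C ha)
      · exact neg_mem (A.mul_mem _ _ ha hct)
      · exact neg_mem (A.mul_mem _ _ hv hw)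
      · calc -(a * c t) * -(v * w) = (a * v) * (c t * w) := by ring
          _ = 1 := by rw [hav, hcw, mul_one]
      · intro s'
        rw [Finset.prod_insert ht, hprod s']
        simp only [Pi.add_apply, Pi.mul_apply, Pi.sub_apply]
        ring
  obtain ⟨q, hq, a, ha, v, hv, hav, hprod⟩ := key Finset.univ
  have hzero : ∀ s', c s' * q s' + a = 0 := by
    intro s'
    rw [← hprod s']
    exact Finset.prod_eq_zero (Finset.mem_univ s') (sub_self _)
  have heq : (fun s => (c s)⁻¹) = (⟨-v, neg_mem hv⟩ : A) • q := by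
    funext s'
    rw [smul_fun_apply]
    obtain ⟨w, hw, hcw⟩ := hu s'
    have hc0 : c s' ≠ 0 := by
      intro h0; rw [h0, zero_mul] at hcw; exact zero_ne_one hcw
    have h1 := hzero s'
    have h2 : c s' * q s' = -a := by linear_combination h1
    show (c s')⁻¹ = -v * q s'
    have h3 : c s' * (-v * q s') = 1 := by
      calc c s' * (-v * q s') = -(c s' * q s') * v := by ring
        _ = a * v := by rw [h2, neg_neg]
        _ = 1 := hav
    exact (eq_inv_of_mul_eq_one_right h3).symm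
  rw [heq]
  exact C.smul_mem hq _

omit [Finite S] in
/-- A polynomial with coefficients in `A`, evaluated at an element of `C`, stays in `C`. -/
theorem polyEval_mem (C : Subalgebra A (S → K)) (p : Polynomial K) (hp : ∀ n, p.coeff n ∈ A)
    {f : S → K} (hf : f ∈ C) : (fun s => p.eval (f s)) ∈ C := by
  have heq : (fun s => p.eval (f s))
      = ∑ n ∈ Finset.range (p.natDegree + 1), (⟨p.coeff n, hp n⟩ : A) • f ^ n := by
    funext s
    rw [Polynomial.eval_eq_sum_range, Finset.sum_apply]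
    refine Finset.sum_congr rfl fun n _ => ?_
    rw [smul_fun_apply, Pi.pow_apply]
  rw [heq]
  exact C.sum_mem fun n _ => C.smul_mem (C.pow_mem hf n) _

end Fermat.Agent.S19.Abs
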