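/-
S19 Abs, piece RT-VAL: values of functions at places (elementary valuation theory).
FROZEN STATEMENTS (helper5516 skeleton of the abstract geometry core of S19) — all PROVED here.
Proof sketches: origin/helper5516:notes/S19_GC_abstract_helper5516.md; protocol: notes/S19_ABS_BOARD_helper5516.md
-/
import Fermat.Agent.S19.Abs.Defs

set_option autoImplicit false

namespace Fermat.Agent.S19.Abs

open AlgebraicCurve Fermat.Agent.RIN

variable {K F : Type*} [Field K] [Field F] [Algebra K F]

/-- The nonunits of a valuation subring are closed under addition. -/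
theorem nonunits_add_mem {E : Type*} [Field E] (A : ValuationSubring E) {a b : E}
    (ha : a ∈ A.nonunits) (hb : b ∈ A.nonunits) : a + b ∈ A.nonunits := by
  rw [ValuationSubring.mem_nonunits_iff] at ha hb ⊢
  exact lt_of_le_of_lt (Valuation.map_add _ _ _) (max_lt ha hb)

theorem nonunits_neg_mem {E : Type*} [Field E] (A : ValuationSubring E) {a : E}
    (ha : a ∈ A.nonunits) : -a ∈ A.nonunits := by
  rw [ValuationSubring.mem_nonunits_iff] at ha ⊢
  rwa [Valuation.map_neg]

theorem nonunits_sub_mem {E : Type*} [Field E] (A : ValuationSubring E) {a b : E}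
    (ha : a ∈ A.nonunits) (hb : b ∈ A.nonunits) : a - b ∈ A.nonunits := by
  rw [sub_eq_add_neg]
  exact nonunits_add_mem A ha (nonunits_neg_mem A hb)

theorem nonunits_mul_mem {E : Type*} [Field E] (A : ValuationSubring E) {a b : E}
    (ha : a ∈ A.nonunits) (hb : b ∈ A) : a * b ∈ A.nonunits := by
  rw [ValuationSubring.mem_nonunits_iff] at ha ⊢
  rw [← ValuationSubring.valuation_le_one_iff] at hb
  rw [map_mul]
  exact mul_lt_one_of_lt_of_le ha hb

theorem mul_nonunits_mem {E : Type*} [Field E] (A : ValuationSubring E) {a b : E}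
    (ha : a ∈ A) (hb : b ∈ A.nonunits) : a * b ∈ A.nonunits := by
  rw [mul_comm]
  exact nonunits_mul_mem A hb ha

theorem zero_mem_nonunits {E : Type*} [Field E] (A : ValuationSubring E) :
    (0 : E) ∈ A.nonunits := by
  rw [ValuationSubring.mem_nonunits_iff, map_zero]
  exact zero_lt_one

theorem mem_of_mem_nonunits {E : Type*} [Field E] (A : ValuationSubring E) {a : E}
    (ha : a ∈ A.nonunits) : a ∈ A := by
  rw [ValuationSubring.mem_nonunits_iff] at ha
  rw [← ValuationSubring.valuation_le_one_iff]
  exact ha.le

/-- A nonzero element whose inverse lies in `A` is not a nonunit. -/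
theorem not_mem_nonunits_of_inv_mem {E : Type*} [Field E] (A : ValuationSubring E) {a : E}
    (ha0 : a ≠ 0) (hinv : a⁻¹ ∈ A) : a ∉ A.nonunits := by
  intro ha
  have h1 := nonunits_mul_mem A ha hinv
  rw [mul_inv_cancel₀ ha0, ValuationSubring.mem_nonunits_iff, map_one] at h1
  exact lt_irrefl _ h1

/-- An element of `A` which is not a nonunit has its inverse in `A`. -/
theorem inv_mem_of_not_mem_nonunits {E : Type*} [Field E] (A : ValuationSubring E) {a : E}
    (ha : a ∉ A.nonunits) : a⁻¹ ∈ A := by
  rw [ValuationSubring.mem_nonunits_iff, not_lt] at ha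
  rw [← ValuationSubring.valuation_le_one_iff, map_inv₀]
  exact inv_le_one_of_one_le₀ ha

/-- Elements of positive order are nonunits. -/
theorem mem_nonunits_of_ord_pos (P : Place K F) {f : F} (h : 0 < P.ord f) :
    f ∈ P.toValuationSubring.nonunits := by
  have hf0 : f ≠ 0 := by
    rintro rfl
    simp at h
  have hmem : f ∈ P.toValuationSubring := mem_of_ord_nonneg P h.le
  by_contra hnon
  have hinv := inv_mem_of_not_mem_nonunits _ hnon
  have h2 := ord_nonneg_of_mem P hinv
  rw [P.ord_inv] at h2
  omega

/-- Nonzero nonunits have positive order. -/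
theorem ord_pos_of_mem_nonunits (P : Place K F) {f : F} (hf0 : f ≠ 0)
    (h : f ∈ P.toValuationSubring.nonunits) : 0 < P.ord f := by
  have hmem := mem_of_mem_nonunits _ h
  have h0 := ord_nonneg_of_mem P hmem
  rcases h0.lt_or_eq with h1 | h1
  · exact h1
  exfalso
  have hinv : f⁻¹ ∈ P.toValuationSubring := by
    apply mem_of_ord_nonneg
    rw [P.ord_inv]
    omega
  exact not_mem_nonunits_of_inv_mem _ hf0 hinv h

theorem mem_nonunits_iff_ord_pos (P : Place K F) {f : F} :
    f ∈ P.toValuationSubring.nonunits ↔ f = 0 ∨ 0 < P.ord f := by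
  constructor
  · intro h
    by_cases hf0 : f = 0
    · exact Or.inl hf0
    · exact Or.inr (ord_pos_of_mem_nonunits P hf0 h)
  · rintro (rfl | h)
    · exact zero_mem_nonunits _
    · exact mem_nonunits_of_ord_pos P h

/-- A nonzero constant is not a nonunit at any place. -/
theorem algebraMap_not_mem_nonunits (P : Place K F) {c : K} (hc : c ≠ 0) :
    algebraMap K F c ∉ P.toValuationSubring.nonunits := by
  apply not_mem_nonunits_of_inv_mem
  · exact (map_ne_zero_iff _ (algebraMap K F).injective).mpr hc
  · rw [← map_inv₀]
    exact P.algebraMap_mem' _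

/-- A function with a value at `P` has no pole at `P`. -/
theorem HasValue.mem {P : Place K F} {f : F} {c : K} (h : HasValue P f c) :
    f ∈ P.toValuationSubring := by
  have h1 := mem_of_mem_nonunits _ h
  have h2 := P.toValuationSubring.add_mem _ _ h1 (P.algebraMap_mem' c)
  simpa using h2

/-- A function has at most one value at a place. -/
theorem HasValue.unique {P : Place K F} {f : F} {c c' : K} (h : HasValue P f c)
    (h' : HasValue P f c') : c = c' := by
  by_contra hne
  have h1 : algebraMap K F (c' - c) ∈ P.toValuationSubring.nonunits := by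
    have := nonunits_sub_mem _ h h'
    have e : f - algebraMap K F c - (f - algebraMap K F c') = algebraMap K F (c' - c) := by
      rw [map_sub]; ring
    rwa [e] at this
  exact algebraMap_not_mem_nonunits P (sub_ne_zero.mpr (Ne.symm hne)) h1

/-- At a place of degree one every function without pole has a value. -/
theorem exists_hasValue {P : Place K F} (hP : P.deg = 1) {f : F}
    (hf : f ∈ P.toValuationSubring) : ∃ c : K, HasValue P f c := by
  obtain ⟨c, hc⟩ := exists_const_sub P hP hf
  exact ⟨c, (mem_nonunits_iff_ord_pos P).mpr hc⟩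

theorem HasValue.evalAt_eq {P : Place K F} {f : F} {c : K} (h : HasValue P f c) :
    evalAt P f = c := by
  have hex : ∃ c : K, HasValue P f c := ⟨c, h⟩
  unfold evalAt
  rw [dif_pos hex]
  exact HasValue.unique hex.choose_spec h

theorem hasValue_evalAt {P : Place K F} (hP : P.deg = 1) {f : F}
    (hf : f ∈ P.toValuationSubring) : HasValue P f (evalAt P f) := by
  obtain ⟨c, hc⟩ := exists_hasValue hP hf
  rw [hc.evalAt_eq]
  exact hc

/-- Values are additive and multiplicative. -/
theorem HasValue.add {P : Place K F} {f f' : F} {c c' : K} (h : HasValue P f c)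
    (h' : HasValue P f' c') : HasValue P (f + f') (c + c') := by
  have := nonunits_add_mem _ h h'
  have e : f - algebraMap K F c + (f' - algebraMap K F c') = f + f' - algebraMap K F (c + c') := by
    rw [map_add]; ring
  unfold HasValue
  rwa [← e]

theorem HasValue.mul {P : Place K F} {f f' : F} {c c' : K} (h : HasValue P f c)
    (h' : HasValue P f' c') : HasValue P (f * f') (c * c') := by
  have h1 := nonunits_mul_mem _ h h'.mem
  have h2 := mul_nonunits_mem _ (P.algebraMap_mem' c) h'
  have := nonunits_add_mem _ h1 h2
  have e : (f - algebraMap K F c) * f' + algebraMap K F c * (f' - algebraMap K F c')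
      = f * f' - algebraMap K F (c * c') := by
    rw [map_mul]; ring
  unfold HasValue
  rwa [← e]

theorem hasValue_algebraMap (P : Place K F) (c : K) : HasValue P (algebraMap K F c) c := by
  unfold HasValue
  rw [sub_self]
  exact zero_mem_nonunits _

theorem HasValue.neg {P : Place K F} {f : F} {c : K} (h : HasValue P f c) :
    HasValue P (-f) (-c) := by
  have := nonunits_neg_mem _ h
  unfold HasValue
  have e : -(f - algebraMap K F c) = -f - algebraMap K F (-c) := by
    rw [map_neg]; ring
  rwa [← e]

theorem HasValue.sub {P : Place K F} {f f' : F} {c c' : K} (h : HasValue P f c)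
    (h' : HasValue P f' c') : HasValue P (f - f') (c - c') := by
  rw [sub_eq_add_neg, sub_eq_add_neg]
  exact h.add h'.neg

theorem HasValue.pow {P : Place K F} {f : F} {c : K} (h : HasValue P f c) (n : ℕ) :
    HasValue P (f ^ n) (c ^ n) := by
  induction n with
  | zero =>
    have := hasValue_algebraMap P (1 : K)
    simpa using this
  | succ n ih =>
    rw [pow_succ, pow_succ]
    exact ih.mul h

theorem evalAt_algebraMap (P : Place K F) (c : K) : evalAt P (algebraMap K F c) = c :=
  (hasValue_algebraMap P c).evalAt_eq

/-- `f` has value `0` at `P` iff `f` vanishes at `P`. -/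
theorem hasValue_zero_iff {P : Place K F} {f : F} :
    HasValue P f 0 ↔ f ∈ P.toValuationSubring.nonunits := by
  unfold HasValue
  rw [map_zero, sub_zero]

/-- Membership in the nonunits via the inverse. -/
theorem mem_nonunits_iff_inv {E : Type*} [Field E] (A : ValuationSubring E) {a : E} :
    a ∈ A.nonunits ↔ a = 0 ∨ a⁻¹ ∉ A := by
  constructor
  · intro h
    by_cases ha : a = 0
    · exact Or.inl ha
    · exact Or.inr fun hinv => not_mem_nonunits_of_inv_mem A ha hinv h
  · rintro (rfl | h)
    · exact zero_mem_nonunits A
    · by_contra hnon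
      exact h (inv_mem_of_not_mem_nonunits A hnon)

/-- The maximal ideal of the ring of constants `A = K ∩ O`. -/
theorem mem_constRing_nonunits {O : ValuationSubring F} {a : K} :
    a ∈ (constRing K O).nonunits ↔ algebraMap K F a ∈ O.nonunits := by
  rw [mem_nonunits_iff_inv, mem_nonunits_iff_inv, mem_constRing, map_inv₀,
    map_eq_zero_iff _ (algebraMap K F).injective]

/-- The kernel of the reduction map is the set of nonunits of `O`. -/
theorem red_eq_zero_iff {k Fb : Type*} [Field k] [Field Fb] [Algebra k Fb]
    {O : ValuationSubring F} {red : O →+* Fb} (hO : IsConstRed K k O red) {x : F} (hx : x ∈ O) :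
    red ⟨x, hx⟩ = 0 ↔ x ∈ O.nonunits := by
  rw [hO.ker, ValuationSubring.valuation_eq_one_iff, ValuationSubring.mem_nonunits_iff]
  have h1 : O.valuation x ≤ 1 := (ValuationSubring.valuation_le_one_iff _ _).mpr hx
  constructor
  · intro h
    exact lt_of_le_of_ne h1 h
  · intro h
    exact h.ne

/-- Reduction of a constant of the maximal ideal of `A`. -/
theorem red_const_of_mem_nonunits {k Fb : Type*} [Field k] [Field Fb] [Algebra k Fb]
    {O : ValuationSubring F} {red : O →+* Fb} (hO : IsConstRed K k O red) {ρ : K}
    (hρ : ρ ∈ (constRing K O).nonunits) (h : algebraMap K F ρ ∈ O) :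
    red ⟨algebraMap K F ρ, h⟩ = 0 :=
  (red_eq_zero_iff hO h).mpr (mem_constRing_nonunits.mp hρ)

end Fermat.Agent.S19.Abs
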