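/-
S19 Abs, piece FSC-B (pure Mathlib): Newton iteration on a finite set.
F_0 := 0, F_{n+1} := F_n - P(F_n)/P'(F_n) stays in C (`inv_mem_of_pointwise_unit`); F_{n+1} - F = (F_n - F)^2 * w with w A-valued, so F - F_n ∈ ϖ^m A^S ⊆ C for n large (`hb`), hence F ∈ C.
FROZEN STATEMENTS (helper5516 skeleton of the abstract geometry core of S19) — all PROVED here.
Proof sketches: origin/helper5516:notes/S19_GC_abstract_helper5516.md; protocol: notes/S19_ABS_BOARD_helper5516.md
-/
import Fermat.Agent.S19.Abs.FSCa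
import Fermat.Agent.S19.Abs.RTVal

set_option autoImplicit false

namespace Fermat.Agent.S19.Abs

/-- One Newton step: quadratic convergence as a polynomial identity. -/
theorem newton_step {R : Type*} [CommRing R] (P : Polynomial R) (x y w : R)
    (hy : P.eval y = 0) (hw : P.derivative.eval x * w = 1) :
    ∃ k : R, x - P.eval x * w - y = (x - y) ^ 2 * (k * w) := by
  obtain ⟨k, hk⟩ := P.binomExpansion x (y - x)
  refine ⟨k, ?_⟩
  have e : x + (y - x) = y := by ring
  rw [e, hy] at hk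
  linear_combination w * hk + (y - x) * hw

variable {K : Type*} [Field K] (A : ValuationSubring K) (ϖ : K) {S : Type*} [Finite S]

/-- (F3) NEWTON on a finite set.  `G i` (`i ≤ d`) are the coefficient functions of a polynomial with
coefficients in a good subalgebra `C`; `F : S → K` is pointwise a root lying in the maximal ideal, and
the derivative at the root is pointwise a unit of `A`.  Then `F ∈ C`. -/
theorem newton_mem (hb : ∀ b ∈ A.nonunits, ∃ n : ℕ, b ^ n * ϖ⁻¹ ∈ A) (hϖ0 : ϖ ≠ 0)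
    (C : Subalgebra A (S → K)) (hC : IsGood A ϖ C) (d : ℕ) (G : Fin (d + 1) → S → K)
    (hG : ∀ i, G i ∈ C) (F : S → K) (hF : ∀ s, F s ∈ A.nonunits)
    (hroot : ∀ s, ∑ i : Fin (d + 1), G i s * F s ^ (i : ℕ) = 0)
    (hder : ∀ s, ∃ v ∈ A, (∑ i : Fin (d + 1), (i : ℕ) * G i s * F s ^ ((i : ℕ) - 1)) * v = 1) :
    F ∈ C := by
  classical
  cases nonempty_fintype S
  have hCA := hC.1
  obtain ⟨m, hm⟩ := hC.2
  have hGA : ∀ i s, G i s ∈ A := fun i s => hCA _ (hG i) s
  have hFA : ∀ s, F s ∈ A := fun s => mem_of_mem_nonunits A (hF s)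
  -- the polynomials over `A`
  set P : S → Polynomial A := fun s =>
    ∑ i : Fin (d + 1), Polynomial.C (⟨G i s, hGA i s⟩ : A) * Polynomial.X ^ (i : ℕ) with hP
  have hE : ∀ s (x : A), (((P s).eval x : A) : K) = ∑ i : Fin (d + 1), G i s * (x : K) ^ (i : ℕ) := by
    intro s x
    simp [hP, Polynomial.eval_finset_sum]
  have hE' : ∀ s (x : A), (((P s).derivative.eval x : A) : K)
      = ∑ i : Fin (d + 1), (i : ℕ) * G i s * (x : K) ^ ((i : ℕ) - 1) := by
    intro s x
    simp only [hP, Polynomial.derivative_sum, Polynomial.eval_finset_sum,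
      Polynomial.derivative_C_mul, Polynomial.derivative_X_pow, Polynomial.eval_mul,
      Polynomial.eval_C, Polynomial.eval_pow, Polynomial.eval_X, Polynomial.eval_natCast]
    push_cast
    refine Finset.sum_congr rfl fun i _ => ?_
    ring
  have hy0 : ∀ s, (P s).eval (⟨F s, hFA s⟩ : A) = 0 := by
    intro s
    apply Subtype.ext
    rw [hE]
    exact hroot s
  -- the derivative is a unit near the root
  have hunit : ∀ s (x : A), (x : K) - F s ∈ A.nonunits →
      (∑ i : Fin (d + 1), (i : ℕ) * G i s * (x : K) ^ ((i : ℕ) - 1)) ∉ A.nonunits := by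
    intro s x hx hcon
    obtain ⟨z, hz⟩ := (P s).derivative.evalSubFactor x ⟨F s, hFA s⟩
    have hz' := congrArg (Subtype.val : A → K) hz
    push_cast at hz'
    rw [hE', hE'] at hz'
    obtain ⟨v, hv, hDv⟩ := hder s
    have h1 : (∑ i : Fin (d + 1), (i : ℕ) * G i s * F s ^ ((i : ℕ) - 1)) ∈ A.nonunits := by
      have h2 : (z : K) * ((x : K) - F s) ∈ A.nonunits := mul_nonunits_mem A z.2 hx
      have h3 := nonunits_sub_mem A hcon h2
      have e : (∑ i : Fin (d + 1), (i : ℕ) * G i s * (x : K) ^ ((i : ℕ) - 1))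
          - (z : K) * ((x : K) - F s)
          = ∑ i : Fin (d + 1), (i : ℕ) * G i s * F s ^ ((i : ℕ) - 1) := by
        linear_combination hz'
      rwa [e] at h3
    have h4 := nonunits_mul_mem A h1 hv
    rw [hDv, ValuationSubring.mem_nonunits_iff, map_one] at h4
    exact lt_irrefl _ h4
  -- the iteration
  set step : (S → K) → (S → K) := fun f s =>
    f s - (∑ i : Fin (d + 1), G i s * f s ^ (i : ℕ))
      * (∑ i : Fin (d + 1), (i : ℕ) * G i s * f s ^ ((i : ℕ) - 1))⁻¹ with hstep
  have hinv : ∀ n : ℕ, ∃ f : S → K, f ∈ C ∧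
      ∀ s, ∃ t ∈ A, f s - F s = F s ^ (2 ^ n) * t := by
    intro n
    induction n with
    | zero =>
      exact ⟨0, C.zero_mem, fun s => ⟨-1, neg_mem A.one_mem, by simp⟩⟩
    | succ n ih =>
      obtain ⟨f, hfC, hf⟩ := ih
      have hfA : ∀ s, f s ∈ A := hCA f hfC
      have hclose : ∀ s, f s - F s ∈ A.nonunits := by
        intro s
        obtain ⟨t, ht, he⟩ := hf s
        rw [he]
        have hpow : F s ^ (2 ^ n) ∈ A.nonunits := by
          have h2 : 2 ^ n = (2 ^ n - 1) + 1 := by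
            have := Nat.one_le_two_pow (n := n); omega
          rw [h2, pow_succ]
          exact mul_nonunits_mem A (pow_mem (hFA s) _) (hF s)
        exact nonunits_mul_mem A hpow ht
      have hDu : ∀ s, (∑ i : Fin (d + 1), (i : ℕ) * G i s * f s ^ ((i : ℕ) - 1)) ∉ A.nonunits :=
        fun s => hunit s ⟨f s, hfA s⟩ (hclose s)
      -- membership of the step in `C`
      have hnum : (fun s => ∑ i : Fin (d + 1), G i s * f s ^ (i : ℕ)) ∈ C := by
        have e : (fun s => ∑ i : Fin (d + 1), G i s * f s ^ (i : ℕ))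
            = ∑ i : Fin (d + 1), G i * f ^ (i : ℕ) := by
          funext s; simp [Finset.sum_apply]
        rw [e]
        exact C.sum_mem fun i _ => C.mul_mem (hG i) (C.pow_mem hfC _)
      have hden : (fun s => ∑ i : Fin (d + 1), (i : ℕ) * G i s * f s ^ ((i : ℕ) - 1)) ∈ C := by
        have e : (fun s => ∑ i : Fin (d + 1), (i : ℕ) * G i s * f s ^ ((i : ℕ) - 1))
            = ∑ i : Fin (d + 1), ((i : ℕ) : S → K) * G i * f ^ ((i : ℕ) - 1) := by
          funext s; simp [Finset.sum_apply]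
        rw [e]
        exact C.sum_mem fun i _ => C.mul_mem (C.mul_mem (natCast_mem C _) (hG i)) (C.pow_mem hfC _)
      have hdeninv := inv_mem_of_pointwise_unit A C hCA hden (fun s =>
        ⟨_, inv_mem_of_not_mem_nonunits A (hDu s), mul_inv_cancel₀ (fun h0 => hDu s (by
          rw [h0]; exact zero_mem_nonunits A))⟩)
      refine ⟨step f, ?_, ?_⟩
      · have e : step f = f - (fun s => ∑ i : Fin (d + 1), G i s * f s ^ (i : ℕ))
            * (fun s => (∑ i : Fin (d + 1), (i : ℕ) * G i s * f s ^ ((i : ℕ) - 1))⁻¹) := by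
          funext s; rfl
        rw [e]
        exact C.sub_mem hfC (C.mul_mem hnum hdeninv)
      · intro s
        obtain ⟨t, ht, he⟩ := hf s
        have hwA := inv_mem_of_not_mem_nonunits A (hDu s)
        have hD0 : (∑ i : Fin (d + 1), (i : ℕ) * G i s * f s ^ ((i : ℕ) - 1)) ≠ 0 := fun h0 =>
          hDu s (by rw [h0]; exact zero_mem_nonunits A)
        have hw1 : (P s).derivative.eval (⟨f s, hfA s⟩ : A) * ⟨_, hwA⟩ = 1 := by
          apply Subtype.ext
          push_cast
          rw [hE']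
          exact mul_inv_cancel₀ hD0
        obtain ⟨k, hk⟩ := newton_step (P s) ⟨f s, hfA s⟩ ⟨F s, hFA s⟩ ⟨_, hwA⟩ (hy0 s) hw1
        have hk' := congrArg (Subtype.val : A → K) hk
        push_cast at hk'
        rw [hE] at hk'
        refine ⟨t ^ 2 * ((k : K)
          * (∑ i : Fin (d + 1), (i : ℕ) * G i s * f s ^ ((i : ℕ) - 1))⁻¹), ?_, ?_⟩
        · exact A.mul_mem _ _ (pow_mem ht 2) (A.mul_mem _ _ k.2 hwA)
        · show f s - (∑ i : Fin (d + 1), G i s * f s ^ (i : ℕ))
              * (∑ i : Fin (d + 1), (i : ℕ) * G i s * f s ^ ((i : ℕ) - 1))⁻¹ - F s = _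
          rw [hk', he, pow_succ 2 n]
          ring
  -- choose the number of steps
  choose N hN using fun s => hb (F s) (hF s)
  obtain ⟨n, hn⟩ : ∃ n : ℕ, ∀ s, m * N s ≤ 2 ^ n := by
    refine ⟨m * ∑ s, N s, fun s => ?_⟩
    have h1 : N s ≤ ∑ s, N s :=
      Finset.single_le_sum (fun _ _ => Nat.zero_le _) (Finset.mem_univ s)
    have h2 : m * ∑ s, N s < 2 ^ (m * ∑ s, N s) := Nat.lt_two_pow_self
    have h3 : m * N s ≤ m * ∑ s, N s := Nat.mul_le_mul_left m h1
    omega
  obtain ⟨f, hfC, hf⟩ := hinv n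
  have hdiff : ∀ s, ∃ h ∈ A, f s - F s = ϖ ^ m * h := by
    intro s
    obtain ⟨t, ht, he⟩ := hf s
    refine ⟨(F s ^ N s * ϖ⁻¹) ^ m * F s ^ (2 ^ n - m * N s) * t, ?_, ?_⟩
    · exact A.mul_mem _ _ (A.mul_mem _ _ (pow_mem (hN s) _) (pow_mem (hFA s) _)) ht
    · have e2 : F s ^ (2 ^ n) = (F s ^ N s) ^ m * F s ^ (2 ^ n - m * N s) := by
        rw [← pow_mul, ← pow_add, Nat.mul_comm, Nat.add_sub_cancel' (hn s)]
      have e3 : (F s ^ N s) ^ m = ϖ ^ m * (F s ^ N s * ϖ⁻¹) ^ m := by
        rw [← mul_pow]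
        congr 1
        field_simp
      rw [he, e2, e3]
      ring
  choose h hhA hh using hdiff
  have hmem := hm h hhA
  have e : F = f - fun s => ϖ ^ m * h s := by
    funext s
    have := hh s
    simp only [Pi.sub_apply]
    linear_combination -this
  rw [e]
  exact C.sub_mem hfC hmem

end Fermat.Agent.S19.Abs
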