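/-
S19 Abs, piece FSC-C (pure Mathlib): Cramer.  `cramer_kernel`: Laplace expansion (`Matrix.det_succ_row_zero`) of the matrix with a repeated row.
FROZEN STATEMENTS (helper5516 skeleton of the abstract geometry core of S19) — all PROVED here.
Proof sketches: origin/helper5516:notes/S19_GC_abstract_helper5516.md; protocol: notes/S19_ABS_BOARD_helper5516.md
-/
import Fermat.Agent.S19.Abs.Defs

set_option autoImplicit false

namespace Fermat.Agent.S19.Abs

/-- Laplace expansion of the square matrix obtained by putting a row `w` on top of `M`. -/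
theorem det_cons_row {R : Type*} [CommRing R] {e : ℕ} (M : Matrix (Fin e) (Fin (e + 1)) R)
    (w : Fin (e + 1) → R) :
    (Matrix.of (Fin.cons w M : Fin (e + 1) → Fin (e + 1) → R)).det
      = ∑ i : Fin (e + 1), w i * ((-1) ^ (i : ℕ) * (M.submatrix id i.succAbove).det) := by
  rw [Matrix.det_succ_row_zero]
  refine Finset.sum_congr rfl fun i _ => ?_
  have e1 : (Matrix.of (Fin.cons w M : Fin (e + 1) → Fin (e + 1) → R)).submatrix Fin.succ
      i.succAbove = M.submatrix id i.succAbove := by
    ext a b
    simp [Matrix.submatrix_apply]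
  rw [e1]
  simp only [Matrix.of_apply, Fin.cons_zero]
  ring

/-- (F4) CRAMER: the signed maximal minors of an `e × (e+1)` matrix are in its kernel. -/
theorem cramer_kernel {R : Type*} [CommRing R] {e : ℕ} (M : Matrix (Fin e) (Fin (e + 1)) R)
    (j : Fin e) :
    ∑ i : Fin (e + 1), M j i * ((-1) ^ (i : ℕ) * (M.submatrix id i.succAbove).det) = 0 := by
  rw [← det_cons_row M (M j)]
  apply Matrix.det_zero_of_row_eq (i := 0) (j := j.succ) (Fin.succ_ne_zero j).symm
  funext c
  simp [Matrix.of_apply]

/-- If an `e × (e+1)` matrix over a field has rank `e` (its rows are linearly independent), some maximal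
minor is nonzero, and the vector of signed minors spans the kernel. -/
theorem exists_minor_ne_zero {k : Type*} [Field k] {e : ℕ} (M : Matrix (Fin e) (Fin (e + 1)) k)
    (hM : LinearIndependent k M) : ∃ i : Fin (e + 1), (M.submatrix id i.succAbove).det ≠ 0 := by
  by_contra hcon
  push Not at hcon
  -- a vector outside the span of the rows
  have hspan : Submodule.span k (Set.range M) ≠ ⊤ := by
    intro htop
    have h1 := finrank_span_eq_card hM
    rw [htop, finrank_top, Module.finrank_fin_fun, Fintype.card_fin] at h1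
    omega
  obtain ⟨w, -, hw⟩ := SetLike.exists_of_lt (lt_top_iff_ne_top.mpr hspan)
  have hli : LinearIndependent k (Fin.cons w M : Fin (e + 1) → Fin (e + 1) → k) :=
    linearIndependent_fin_cons.mpr ⟨hM, hw⟩
  have hunit : IsUnit (Matrix.of (Fin.cons w M : Fin (e + 1) → Fin (e + 1) → k)) :=
    Matrix.linearIndependent_rows_iff_isUnit.mp hli
  have hdet := (Matrix.isUnit_iff_isUnit_det _).mp hunit
  rw [det_cons_row] at hdet
  have hz : ∑ i : Fin (e + 1), w i * ((-1) ^ (i : ℕ) * (M.submatrix id i.succAbove).det) = 0 := by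
    apply Finset.sum_eq_zero
    intro i _
    rw [hcon i, mul_zero, mul_zero]
  rw [hz] at hdet
  exact not_isUnit_zero hdet

theorem eq_smul_minors_of_mulVec_eq_zero {k : Type*} [Field k] {e : ℕ}
    (M : Matrix (Fin e) (Fin (e + 1)) k) (hM : LinearIndependent k M) (v : Fin (e + 1) → k)
    (hv : ∀ j, ∑ i, M j i * v i = 0) :
    ∃ a : k, ∀ i, v i = a * ((-1) ^ (i : ℕ) * (M.submatrix id i.succAbove).det) := by
  obtain ⟨i₀, hi₀⟩ := exists_minor_ne_zero M hM
  set c : Fin (e + 1) → k := fun i => (-1) ^ (i : ℕ) * (M.submatrix id i.succAbove).det with hc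
  have hc0 : c i₀ ≠ 0 := by
    rw [hc]
    exact mul_ne_zero (pow_ne_zero _ (neg_ne_zero.mpr one_ne_zero)) hi₀
  set a : k := v i₀ / c i₀ with ha
  set u : Fin (e + 1) → k := fun i => v i - a * c i with hu
  have hu0 : u i₀ = 0 := by
    rw [hu, ha]; field_simp; ring
  have hker : ∀ j, ∑ i, M j i * u i = 0 := by
    intro j
    have h1 := cramer_kernel M j
    have h2 : ∑ i, M j i * u i = ∑ i, M j i * v i - a * ∑ i, M j i * c i := by
      rw [Finset.mul_sum, ← Finset.sum_sub_distrib]
      refine Finset.sum_congr rfl fun i _ => ?_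
      rw [hu]; ring
    rw [h2, hv j, h1, mul_zero, sub_zero]
  have hzero : (fun j => u (i₀.succAbove j)) = 0 := by
    apply Matrix.eq_zero_of_mulVec_eq_zero hi₀
    funext j
    have h3 := hker j
    rw [Fin.sum_univ_succAbove _ i₀, hu0, mul_zero, zero_add] at h3
    simpa [Matrix.mulVec, dotProduct] using h3
  refine ⟨a, fun i => ?_⟩
  have hui : u i = 0 := by
    rcases Fin.eq_self_or_eq_succAbove i₀ i with h | ⟨j, h⟩
    · rw [h]; exact hu0
    · rw [h]; exact congrFun hzero j
  have : v i - a * c i = 0 := hui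
  exact sub_eq_zero.mp this

end Fermat.Agent.S19.Abs
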