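/-
S19 Abs, piece RT-EVAL (RT4): evaluation commutes with reduction.
Proof: c := f(P).  If c ∉ A: 1 - f/c ∈ O reduces to 1, so r_* div(f - c) = 0, but f - c has a zero at P and no pole in the disc.  Then f - c ∈ O has a zero at P: its reduction vanishes at Q.
FROZEN STATEMENTS (helper5516 skeleton of the abstract geometry core of S19) — all PROVED here.
Proof sketches: origin/helper5516:notes/S19_GC_abstract_helper5516.md; protocol: notes/S19_ABS_BOARD_helper5516.md
-/
import Fermat.Agent.S19.Abs.RTVal

set_option autoImplicit false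

namespace Fermat.Agent.S19.Abs

open AlgebraicCurve Fermat.Agent.RIN

variable {K F k Fb : Type*} [Field K] [Field F] [Algebra K F] [Field k] [Field Fb] [Algebra k Fb]
variable {O : ValuationSubring F} {red : O →+* Fb} {hO : IsConstRed K k O red}
variable [Infinite k] [Nonempty (Place K F)] [Nonempty (Place k Fb)]
  [HasPrincipalDivisors K F] [HasPrincipalDivisors k Fb]
variable {g : ℕ} {r : Place K F → Place k Fb} {ϖ : K}

omit [Field k] [Algebra k Fb] [Infinite k] [Nonempty (Place K F)] [Nonempty (Place k Fb)]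
  [HasPrincipalDivisors K F] [HasPrincipalDivisors k Fb] [Field Fb] [Field K] [Field F]
  [Algebra K F] in
/-- The push-forward as a sum over the support. -/
theorem mapDomain_apply_eq_sum {α β : Type*} [DecidableEq β] (r : α → β) (X : α →₀ ℤ) (Q : β) :
    Finsupp.mapDomain r X Q = ∑ P ∈ X.support, if r P = Q then X P else 0 := by
  rw [Finsupp.mapDomain, Finsupp.sum_apply]
  refine Finset.sum_congr rfl fun P _ => ?_
  show (Finsupp.single (r P) (X P)) Q = _
  rw [Finsupp.single_apply]

omit [Field k] [Algebra k Fb] [Infinite k] [Nonempty (Place K F)] [Nonempty (Place k Fb)]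
  [HasPrincipalDivisors K F] [HasPrincipalDivisors k Fb] [Field Fb] [Field K] [Field F]
  [Algebra K F] in
/-- A divisor which is effective on the fibre of `Q` and positive at some point of the fibre has
positive push-forward at `Q`. -/
theorem mapDomain_apply_pos {α β : Type*} (r : α → β) {X : α →₀ ℤ} {Q : β}
    (hX : ∀ P, r P = Q → 0 ≤ X P) {P : α} (hP : r P = Q) (hXP : 0 < X P) :
    0 < Finsupp.mapDomain r X Q := by
  classical
  rw [mapDomain_apply_eq_sum]
  have hPs : P ∈ X.support := by
    rw [Finsupp.mem_support_iff]; exact hXP.ne'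
  apply Finset.sum_pos'
  · intro P' _
    split_ifs with h
    · exact hX P' h
    · exact le_rfl
  · exact ⟨P, hPs, by rw [if_pos hP]; exact hXP⟩

omit [Infinite k] [Nonempty (Place K F)] [Nonempty (Place k Fb)] [HasPrincipalDivisors K F]
  [HasPrincipalDivisors k Fb] in
/-- Reduction of a constant which is a nonunit of `O`. -/
theorem red_const_eq_zero_of_inv_not_mem (hO : IsConstRed K k O red) {c : K}
    (hc : algebraMap K F c ∈ O) (hinv : (algebraMap K F c)⁻¹ ∉ O) :
    red ⟨algebraMap K F c, hc⟩ = 0 := by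
  rw [hO.ker]
  intro hu
  rw [ValuationSubring.valuation_eq_one_iff] at hu
  apply hinv
  rw [← ValuationSubring.valuation_le_one_iff, map_inv₀]
  have hu' : O.valuation (algebraMap K F c) = 1 := hu
  rw [hu', inv_one]

omit [Infinite k] [Nonempty (Place K F)] [Nonempty (Place k Fb)] [HasPrincipalDivisors k Fb] in
/-- RT4. If `f ∈ O` has no pole on the disc of `Q` and `P` is in the disc, then `f(P) ∈ A`, `red f` has no
pole at `Q`, and `red (f(P))` is the value of `red f` at `Q`. -/
theorem eval_red (H : Setup hO g r ϖ) {Q : Place k Fb} {f : F} (hfO : f ∈ O) (hreg : RegOn r Q f)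
    {P : Place K F} (hP : r P = Q) :
    ∃ (c : K) (hc : algebraMap K F c ∈ O), HasValue P f c ∧
      red ⟨f, hfO⟩ ∈ Q.toValuationSubring ∧
      red ⟨f, hfO⟩ - red ⟨algebraMap K F c, hc⟩ ∈ Q.toValuationSubring.nonunits := by
  obtain ⟨c, hval⟩ := exists_hasValue (H.hyp.degF P) (hreg P hP)
  -- the function `f - c` is effective on the disc and vanishes at `P`
  have hdisc : ∀ P' : Place K F, r P' = Q → 0 ≤ P'.ord (f - algebraMap K F c) := fun P' hP' =>
    ord_nonneg_of_mem P' (sub_mem (hreg P' hP') (P'.algebraMap_mem' c))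
  have hpos : f - algebraMap K F c ≠ 0 → 0 < P.ord (f - algebraMap K F c) := fun h0 =>
    ord_pos_of_mem_nonunits P h0 hval
  -- Step A: the value is integral
  have hc : algebraMap K F c ∈ O := by
    by_contra hcO
    have hc0 : c ≠ 0 := by
      rintro rfl
      apply hcO
      rw [map_zero]; exact O.zero_mem
    have hcF : algebraMap K F c ≠ 0 := (map_ne_zero_iff _ (algebraMap K F).injective).mpr hc0
    have hinv : (algebraMap K F c)⁻¹ ∈ O := (O.mem_or_inv_mem _).resolve_left hcO
    have hinv' : algebraMap K F c⁻¹ ∈ O := by rw [map_inv₀]; exact hinv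
    have hne0 : f - algebraMap K F c ≠ 0 := by
      intro h0
      apply hcO
      rw [← sub_eq_zero.mp h0]; exact hfO
    set y : F := 1 - f * algebraMap K F c⁻¹ with hy
    have hyO : y ∈ O := sub_mem O.one_mem (O.mul_mem _ _ hfO hinv')
    have hredy : red ⟨y, hyO⟩ = 1 := by
      have e : (⟨y, hyO⟩ : O) = 1 - ⟨f, hfO⟩ * ⟨algebraMap K F c⁻¹, hinv'⟩ := rfl
      have hz : red ⟨algebraMap K F c⁻¹, hinv'⟩ = 0 := by
        apply red_const_eq_zero_of_inv_not_mem hO
        rw [map_inv₀, inv_inv]
        exact hcO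
      rw [e, map_sub, map_one, map_mul, hz, mul_zero, sub_zero]
    have hyne : red ⟨y, hyO⟩ ≠ 0 := by rw [hredy]; exact one_ne_zero
    have hyeq : y = -(algebraMap K F c⁻¹) * (f - algebraMap K F c) := by
      rw [hy, map_inv₀]; field_simp; ring
    have hcinvF : -(algebraMap K F c⁻¹) ≠ 0 :=
      neg_ne_zero.mpr ((map_ne_zero_iff _ (algebraMap K F).injective).mpr (inv_ne_zero hc0))
    have hordy : ∀ P' : Place K F, P'.ord y = P'.ord (f - algebraMap K F c) := by
      intro P'
      rw [hyeq, P'.ord_mul hcinvF hne0, ← map_neg, ord_algebraMap, zero_add]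
    have hcons := H.cons y hyO hyne (divOf K y) (fun P' => divOf_apply _ P') Q
    rw [hredy, Place.ord_one] at hcons
    have hp := mapDomain_apply_pos r (X := divOf K y) (Q := Q)
      (fun P' hP' => by rw [divOf_apply, hordy]; exact hdisc P' hP') hP
      (by rw [divOf_apply, hordy]; exact hpos hne0)
    omega
  refine ⟨c, hc, hval, ?_⟩
  -- Step B
  have hyO : f - algebraMap K F c ∈ O := sub_mem hfO hc
  have hsub : red ⟨f, hfO⟩ - red ⟨algebraMap K F c, hc⟩ = red ⟨f - algebraMap K F c, hyO⟩ := by
    rw [← map_sub]; rfl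
  have hnon : red ⟨f - algebraMap K F c, hyO⟩ ∈ Q.toValuationSubring.nonunits := by
    by_cases hy0 : red ⟨f - algebraMap K F c, hyO⟩ = 0
    · rw [hy0]; exact zero_mem_nonunits _
    have hne0 : f - algebraMap K F c ≠ 0 := by
      intro h0
      apply hy0
      have : (⟨f - algebraMap K F c, hyO⟩ : O) = 0 := Subtype.ext h0
      rw [this, map_zero]
    have hcons := H.cons _ hyO hy0 (divOf K (f - algebraMap K F c))
      (fun P' => divOf_apply _ P') Q
    have hp := mapDomain_apply_pos r (X := divOf K (f - algebraMap K F c)) (Q := Q)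
      (fun P' hP' => by rw [divOf_apply]; exact hdisc P' hP') hP
      (by rw [divOf_apply]; exact hpos hne0)
    rw [hcons] at hp
    exact mem_nonunits_of_ord_pos Q hp
  obtain ⟨c', hc'⟩ := hO.const c hc
  refine ⟨?_, by rw [hsub]; exact hnon⟩
  have h1 := mem_of_mem_nonunits _ hnon
  rw [← hsub] at h1
  have h2 : red ⟨algebraMap K F c, hc⟩ ∈ Q.toValuationSubring := by
    rw [hc']; exact Q.algebraMap_mem' c'
  have := Q.toValuationSubring.add_mem _ _ h1 h2
  simpa using this

omit [Infinite k] [Nonempty (Place K F)] [Nonempty (Place k Fb)] [HasPrincipalDivisors k Fb] in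
/-- RT4'. In particular the value is integral. -/
theorem evalAt_mem_constRing (H : Setup hO g r ϖ) {Q : Place k Fb} {f : F} (hfO : f ∈ O)
    (hreg : RegOn r Q f) {P : Place K F} (hP : r P = Q) : evalAt P f ∈ constRing K O := by
  obtain ⟨c, hc, hval, -, -⟩ := eval_red H hfO hreg hP
  rw [hval.evalAt_eq]
  exact hc

omit [Infinite k] [Nonempty (Place K F)] [Nonempty (Place k Fb)] [HasPrincipalDivisors k Fb] in
/-- RT4''. If moreover `red f` is a unit at `Q` (no zero at `Q`), the value is a unit of `A`. -/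
theorem isUnit_evalAt (H : Setup hO g r ϖ) {Q : Place k Fb} {f : F} (hfO : f ∈ O)
    (hreg : RegOn r Q f) (hQ : Q.ord (red ⟨f, hfO⟩) = 0) (hne : red ⟨f, hfO⟩ ≠ 0)
    {P : Place K F} (hP : r P = Q) : ∃ v ∈ constRing K O, evalAt P f * v = 1 := by
  obtain ⟨c, hc, hval, -, hnon⟩ := eval_red H hfO hreg hP
  rw [hval.evalAt_eq]
  have hinv : (algebraMap K F c)⁻¹ ∈ O := by
    by_contra hinv
    rw [red_const_eq_zero_of_inv_not_mem hO hc hinv, sub_zero] at hnon
    have := ord_pos_of_mem_nonunits Q hne hnon
    omega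
  have hc0 : c ≠ 0 := by
    rintro rfl
    have hz : red ⟨algebraMap K F (0 : K), hc⟩ = 0 := by
      have : (⟨algebraMap K F (0 : K), hc⟩ : O) = 0 := Subtype.ext (map_zero _)
      rw [this, map_zero]
    rw [hz, sub_zero] at hnon
    have := ord_pos_of_mem_nonunits Q hne hnon
    omega
  refine ⟨c⁻¹, ?_, mul_inv_cancel₀ hc0⟩
  rw [mem_constRing, map_inv₀]
  exact hinv

end Fermat.Agent.S19.Abs
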