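/-
S19 Abs, piece RT-KER: push-forward of principal divisors, the kernel of reduction, surjectivity of `r`.
RT0: f ≠ 0, Gauss form a • f ∈ O with nonzero reduction, div(a • f) = div f, conservation.
RT1: a uniformiser at Q, lifted to O (IsConstRed.surj); conservation gives a zero in the disc.
FROZEN STATEMENTS (helper5516 skeleton of the abstract geometry core of S19) — all PROVED here.
Proof sketches: origin/helper5516:notes/S19_GC_abstract_helper5516.md; protocol: notes/S19_ABS_BOARD_helper5516.md
-/
import Fermat.Agent.S19.Abs.Defs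

set_option autoImplicit false

namespace Fermat.Agent.S19.Abs

open AlgebraicCurve Fermat.Agent.RIN

variable {K F k Fb : Type*} [Field K] [Field F] [Algebra K F] [Field k] [Field Fb] [Algebra k Fb]
variable {O : ValuationSubring F} {red : O →+* Fb} {hO : IsConstRed K k O red}
variable [Infinite k] [Nonempty (Place K F)] [Nonempty (Place k Fb)]
  [HasPrincipalDivisors K F] [HasPrincipalDivisors k Fb]
variable {g : ℕ} {r : Place K F → Place k Fb} {ϖ : K}

omit [Infinite k] [Nonempty (Place K F)] [Nonempty (Place k Fb)] [HasPrincipalDivisors K F]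
  [HasPrincipalDivisors k Fb] in
/-- RT0, function form: the push-forward of `div f` is `div (red (a f))` for a Gauss form `a f`. -/
theorem exists_red_of_ord (H : Setup hO g r ϖ) {f : F} (hf : f ≠ 0) {D : Divisor K F}
    (hD : ∀ P, D P = P.ord f) :
    ∃ (a : K) (_ : a ≠ 0) (h : algebraMap K F a * f ∈ O), red ⟨_, h⟩ ≠ 0 ∧
      ∀ Q, Finsupp.mapDomain r D Q = Q.ord (red ⟨_, h⟩) := by
  obtain ⟨a, ha, h, hne⟩ := hO.gauss f hf
  refine ⟨a, ha, h, hne, ?_⟩
  refine H.cons _ h hne D ?_
  intro P
  have ha' : algebraMap K F a ≠ 0 := (map_ne_zero_iff _ (algebraMap K F).injective).mpr ha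
  rw [P.ord_mul ha' hf, ord_algebraMap, zero_add, hD P]

omit [Infinite k] [Nonempty (Place K F)] [Nonempty (Place k Fb)] [HasPrincipalDivisors K F]
  [HasPrincipalDivisors k Fb] in
/-- RT0. The push-forward of a principal divisor is principal (Gauss form + conservation). -/
theorem mapDomain_mem_principal (H : Setup hO g r ϖ) {D : Divisor K F}
    (hD : D ∈ Divisor.principal (K := K) (F := F)) :
    Finsupp.mapDomain r D ∈ Divisor.principal (K := k) (F := Fb) := by
  obtain ⟨f, hf, hDf⟩ := hD
  obtain ⟨a, _, h, hne, hQ⟩ := exists_red_of_ord H hf hDf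
  exact ⟨red ⟨_, h⟩, hne, hQ⟩

omit [Infinite k] [Nonempty (Place K F)] [Nonempty (Place k Fb)] [HasPrincipalDivisors K F]
  [HasPrincipalDivisors k Fb] in
theorem inKer_mk_iff (H : Setup hO g r ϖ) (D : Divisor.degZero (K := K) (F := F)) :
    InKer r (Pic0.mk D) ↔
      Finsupp.mapDomain r (D : Divisor K F) ∈ Divisor.principal (K := k) (F := Fb) := by
  constructor
  · rintro ⟨D', hD', hp⟩
    have h1 : D' - D ∈ (Divisor.principal (K := K) (F := F)).addSubgroupOf
        (Divisor.degZero (K := K) (F := F)) := by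
      have := (QuotientAddGroup.eq (s := (Divisor.principal (K := K) (F := F)).addSubgroupOf
        (Divisor.degZero (K := K) (F := F))) (a := D) (b := D')).mp hD'.symm
      rwa [neg_add_eq_sub] at this
    rw [AddSubgroup.mem_addSubgroupOf] at h1
    have h2 := mapDomain_mem_principal H h1
    have e : Finsupp.mapDomain r (D : Divisor K F)
        = Finsupp.mapDomain r (D' : Divisor K F)
          - Finsupp.mapDomain r (((D' - D : Divisor.degZero (K := K) (F := F))) : Divisor K F) := by
      rw [← Finsupp.mapDomain.addMonoidHom_apply, ← Finsupp.mapDomain.addMonoidHom_apply,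
        ← Finsupp.mapDomain.addMonoidHom_apply, ← map_sub]
      congr 1
      push_cast
      abel
    rw [e]
    exact sub_mem hp h2
  · intro h
    exact ⟨D, rfl, h⟩

omit [Infinite k] [Nonempty (Place K F)] [Nonempty (Place k Fb)] [HasPrincipalDivisors K F]
  [HasPrincipalDivisors k Fb] in
theorem inKer_zero (H : Setup hO g r ϖ) : InKer r (0 : Pic0 K F) := by
  refine ⟨0, rfl, ?_⟩
  rw [ZeroMemClass.coe_zero, Finsupp.mapDomain_zero]
  exact zero_mem _

omit [Infinite k] [Nonempty (Place K F)] [Nonempty (Place k Fb)] [HasPrincipalDivisors K F]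
  [HasPrincipalDivisors k Fb] in
theorem InKer.add (H : Setup hO g r ϖ) {u v : Pic0 K F} (hu : InKer r u) (hv : InKer r v) :
    InKer r (u + v) := by
  obtain ⟨D, rfl, hD⟩ := hu
  obtain ⟨E, rfl, hE⟩ := hv
  refine ⟨D + E, rfl, ?_⟩
  rw [AddSubgroup.coe_add, Finsupp.mapDomain_add]
  exact add_mem hD hE

omit [Infinite k] [Nonempty (Place K F)] [Nonempty (Place k Fb)] [HasPrincipalDivisors K F]
  [HasPrincipalDivisors k Fb] in
theorem InKer.neg (H : Setup hO g r ϖ) {u : Pic0 K F} (hu : InKer r u) : InKer r (-u) := by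
  obtain ⟨D, rfl, hD⟩ := hu
  refine ⟨-D, rfl, ?_⟩
  have e : Finsupp.mapDomain r ((-D : Divisor.degZero (K := K) (F := F)) : Divisor K F)
      = -Finsupp.mapDomain r (D : Divisor K F) := by
    rw [← Finsupp.mapDomain.addMonoidHom_apply, ← Finsupp.mapDomain.addMonoidHom_apply, ← map_neg]
    rfl
  rw [e]
  exact neg_mem hD

omit [Infinite k] [Nonempty (Place K F)] [Nonempty (Place k Fb)] [HasPrincipalDivisors K F]
  [HasPrincipalDivisors k Fb] in
theorem InKer.sub (H : Setup hO g r ϖ) {u v : Pic0 K F} (hu : InKer r u) (hv : InKer r v) :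
    InKer r (u - v) := by
  rw [sub_eq_add_neg]
  exact InKer.add H hu (InKer.neg H hv)

omit [Infinite k] [Nonempty (Place K F)] [Nonempty (Place k Fb)] [HasPrincipalDivisors k Fb] in
/-- RT1. -/
theorem r_surjective (H : Setup hO g r ϖ) : Function.Surjective r := by
  intro Q
  by_contra hQ
  obtain ⟨π, hπ⟩ := IsDiscreteValuationRing.exists_irreducible Q.toValuationSubring
  have hord : Q.ord (π : Fb) = 1 := Q.ord_coe_irreducible hπ
  obtain ⟨y, hy⟩ := hO.surj (π : Fb)
  have hne : red ⟨(y : F), y.2⟩ ≠ 0 := by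
    have e : (⟨(y : F), y.2⟩ : O) = y := rfl
    rw [e, hy]
    intro h0
    rw [h0] at hord
    simp at hord
  have hc := H.cons (y : F) y.2 hne (divOf K (y : F)) (fun P => divOf_apply _ P) Q
  have e : (⟨(y : F), y.2⟩ : O) = y := rfl
  rw [e, hy, hord, Finsupp.mapDomain_notin_range _ _ (by simpa using hQ)] at hc
  exact zero_ne_one hc

end Fermat.Agent.S19.Abs
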