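/-
S19 Abs, piece RT-LAT: semicontinuity and lattice bases (RT2, RT3), uniqueness of the place map.
RT2a: conservation + monotonicity of push-forward.  RT2b: `RIN.finrank_redSpace_eq` (hlat).
RT3: hlat + dimension count; coefficients in A by the largest-coefficient trick (as in `RIN.linearIndependent_of_red`).
`conserves_unique`: red(L(m P0) ∩ O) lies in L(m r(P0)) ∩ L(m r'(P0)), of dimension ≤ 1 if r(P0) ≠ r'(P0).
FROZEN STATEMENTS (helper5516 skeleton of the abstract geometry core of S19) — all PROVED here.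
Proof sketches: origin/helper5516:notes/S19_GC_abstract_helper5516.md; protocol: notes/S19_ABS_BOARD_helper5516.md
-/
import Fermat.Agent.S19.Abs.Defs

set_option autoImplicit false

namespace Fermat.Agent.S19.Abs

open AlgebraicCurve Fermat.Agent.RIN

variable {K F k Fb : Type*} [Field K] [Field F] [Algebra K F] [Field k] [Field Fb] [Algebra k Fb]
variable {O : ValuationSubring F} {red : O →+* Fb} {hO : IsConstRed K k O red}
variable [Infinite k] [Nonempty (Place K F)] [Nonempty (Place k Fb)]
  [HasPrincipalDivisors K F] [HasPrincipalDivisors k Fb]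
variable {g : ℕ} {r : Place K F → Place k Fb} {ϖ : K}

omit [Field k] [Algebra k Fb] [Infinite k] [Nonempty (Place K F)] [Nonempty (Place k Fb)]
  [HasPrincipalDivisors K F] [HasPrincipalDivisors k Fb] [Field Fb] in
/-- The push-forward of an effective divisor is effective. -/
theorem mapDomain_nonneg {α β : Type*} (r : α → β) {X : α →₀ ℤ} (hX : ∀ P, 0 ≤ X P) (Q : β) :
    0 ≤ Finsupp.mapDomain r X Q := by
  classical
  rw [Finsupp.mapDomain, Finsupp.sum_apply]
  apply Finset.sum_nonneg
  intro P _
  show 0 ≤ (Finsupp.single (r P) (X P)) Q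
  rw [Finsupp.single_apply]
  split_ifs
  · exact hX P
  · exact le_rfl

omit [Field k] [Algebra k Fb] [Infinite k] [Nonempty (Place K F)] [Nonempty (Place k Fb)]
  [HasPrincipalDivisors K F] [HasPrincipalDivisors k Fb] [Field Fb] in
theorem mapDomain_mono {α β : Type*} (r : α → β) {X Y : α →₀ ℤ} (hXY : ∀ P, X P ≤ Y P) (Q : β) :
    Finsupp.mapDomain r X Q ≤ Finsupp.mapDomain r Y Q := by
  have h := mapDomain_nonneg r (X := Y - X) (fun P => by
    rw [Finsupp.sub_apply]; exact sub_nonneg.mpr (hXY P)) Q
  have e : Finsupp.mapDomain r (Y - X) = Finsupp.mapDomain r Y - Finsupp.mapDomain r X := by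
    rw [← Finsupp.mapDomain.addMonoidHom_apply, map_sub]
    rfl
  rw [e, Finsupp.sub_apply] at h
  linarith

omit [Infinite k] [Nonempty (Place K F)] [Nonempty (Place k Fb)] [HasPrincipalDivisors k Fb] in
/-- RT2a. Reductions of integral elements of `L(D)` lie in `L(r_* D)`. -/
theorem red_mem_L (H : Setup hO g r ϖ) (D : Divisor K F) {f : F} (hf : f ∈ riemannRochSpace D)
    (hfO : f ∈ O) : red ⟨f, hfO⟩ ∈ riemannRochSpace (Finsupp.mapDomain r D) := by
  by_cases hne : red ⟨f, hfO⟩ = 0
  · rw [hne]; exact zero_mem _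
  have hf0 : f ≠ 0 := by
    rintro rfl
    apply hne
    have : (⟨0, hfO⟩ : O) = 0 := rfl
    rw [this, map_zero]
  rw [mem_riemannRochSpace_iff] at hf ⊢
  intro Q
  right
  have hc := H.cons f hfO hne (divOf K f) (fun P => divOf_apply _ P) Q
  have hnn := mapDomain_nonneg r (X := D + divOf K f) (fun P => by
    have := (hf P).resolve_left hf0
    rw [Finsupp.add_apply, divOf_apply]
    omega) Q
  rw [Finsupp.mapDomain_add, Finsupp.add_apply, hc] at hnn
  omega

/-- RT2b. Semicontinuity. -/
theorem finrank_L_le_finrank_L_map (H : Setup hO g r ϖ) (D : Divisor K F) :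
    Module.finrank K (riemannRochSpace D) ≤
      Module.finrank k (riemannRochSpace (Finsupp.mapDomain r D)) := by
  haveI := L_finite H.hyp.degF D
  haveI := L_finite H.hyp.degFb (Finsupp.mapDomain r D)
  have h1 := finrank_redSpace_eq hO (riemannRochSpace D) (H.hyp.lat _ inferInstance)
  rw [← h1]
  apply Submodule.finrank_mono
  rintro _ ⟨f, hfM, hf, rfl⟩
  exact red_mem_L H D hfM hf

omit [Infinite k] [Nonempty (Place K F)] [Nonempty (Place k Fb)] [HasPrincipalDivisors K F]
  [HasPrincipalDivisors k Fb] in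
/-- Largest-coefficient trick: if the reductions of the `φ i` are linearly independent over `k` and
`Σ a_i φ_i` is integral, all coefficients are integral. -/
theorem coeff_mem_of_sum_mem (hO : IsConstRed K k O red) {ι : Type*} [Fintype ι] (φ : ι → F)
    (hφO : ∀ i, φ i ∈ O) (hli : LinearIndependent k (fun i => red ⟨φ i, hφO i⟩)) (a : ι → K)
    (hsum : ∑ i, a i • φ i ∈ O) : ∀ i, a i ∈ constRing K O := by
  classical
  by_contra hcon
  push Not at hcon
  obtain ⟨i₀, hi₀⟩ := hcon
  obtain ⟨i₁, -, hmax⟩ := Finset.exists_max_image Finset.univ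
    (fun i => O.valuation (algebraMap K F (a i))) ⟨i₀, Finset.mem_univ _⟩
  have h0 : 1 < O.valuation (algebraMap K F (a i₀)) := by
    rw [mem_constRing, ← ValuationSubring.valuation_le_one_iff, not_le] at hi₀
    exact hi₀
  have h1 : 1 < O.valuation (algebraMap K F (a i₁)) := lt_of_lt_of_le h0 (hmax i₀ (Finset.mem_univ _))
  have ha1 : a i₁ ≠ 0 := by
    rintro h
    rw [h, map_zero, map_zero] at h1
    exact not_lt.mpr zero_le h1
  have ha1F : algebraMap K F (a i₁) ≠ 0 := (map_ne_zero_iff _ (algebraMap K F).injective).mpr ha1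
  set c : ι → K := fun i => a i / a i₁ with hc
  have hcO : ∀ i, algebraMap K F (c i) ∈ O := by
    intro i
    rw [hc, ← ValuationSubring.valuation_le_one_iff, map_div₀, map_div₀]
    exact div_le_one_of_le₀ (hmax i (Finset.mem_univ _)) zero_le
  -- the sum with normalised coefficients is a nonunit of `O`
  have hx : algebraMap K F (a i₁)⁻¹ * ∑ i, a i • φ i ∈ O.nonunits := by
    rw [ValuationSubring.mem_nonunits_iff, map_mul, map_inv₀, map_inv₀]
    have h2 : O.valuation (∑ i, a i • φ i) ≤ 1 := (ValuationSubring.valuation_le_one_iff _ _).mpr hsum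
    have h3 : (O.valuation (algebraMap K F (a i₁)))⁻¹ < 1 := inv_lt_one_of_one_lt₀ h1
    exact mul_lt_one_of_lt_of_le h3 h2
  have hxO : algebraMap K F (a i₁)⁻¹ * ∑ i, a i • φ i ∈ O := by
    rw [ValuationSubring.mem_nonunits_iff] at hx
    exact (ValuationSubring.valuation_le_one_iff _ _).mp hx.le
  have hred0 : red ⟨_, hxO⟩ = 0 := by
    rw [hO.ker]
    intro hu
    rw [ValuationSubring.valuation_eq_one_iff] at hu
    rw [ValuationSubring.mem_nonunits_iff] at hx
    exact absurd hu hx.ne
  have hsum' : (⟨_, hxO⟩ : O) = ∑ i, (⟨algebraMap K F (c i), hcO i⟩ : O) * ⟨φ i, hφO i⟩ := by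
    apply Subtype.ext
    push_cast
    rw [Finset.mul_sum]
    refine Finset.sum_congr rfl fun i _ => ?_
    simp only [hc, Algebra.smul_def, map_div₀]
    field_simp
  rw [hsum', map_sum] at hred0
  choose c' hc' using fun i => hO.const (c i) (hcO i)
  have hred' : ∑ i, c' i • red ⟨φ i, hφO i⟩ = 0 := by
    rw [← hred0]
    refine Finset.sum_congr rfl fun i _ => ?_
    rw [map_mul, hc' i, Algebra.smul_def]
  have hall := (Fintype.linearIndependent_iff.mp hli) c' hred' i₁
  have hc1 : c i₁ = 1 := by simp [hc, ha1]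
  have hc1' := hc' i₁
  have e1 : (⟨algebraMap K F (c i₁), hcO i₁⟩ : O) = 1 := by
    apply Subtype.ext; simp [hc1]
  rw [e1, map_one, hall, map_zero] at hc1'
  exact one_ne_zero hc1'

/-- RT3. If `L(r_* D)` has the Riemann dimension `n = deg D + 1 - g`, then `L(D) ∩ O` is free over
`A = K ∩ O` on a basis whose reductions form a basis of `L(r_* D)`. -/
theorem exists_lattice_basis (H : Setup hO g r ϖ) (D : Divisor K F) (n : ℕ)
    (hn : (n : ℤ) = Divisor.degree D + 1 - g)
    (hl : Module.finrank k (riemannRochSpace (Finsupp.mapDomain r D)) = n) :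
    ∃ (φ : Fin n → F) (hφO : ∀ i, φ i ∈ O), (∀ i, φ i ∈ riemannRochSpace D) ∧
      LinearIndependent K φ ∧
      LinearIndependent k (fun i => red ⟨φ i, hφO i⟩) ∧
      (∀ f ∈ riemannRochSpace (Finsupp.mapDomain r D),
        ∃ b : Fin n → k, f = ∑ i, b i • red ⟨φ i, hφO i⟩) ∧
      (∀ f ∈ riemannRochSpace D, ∃ a : Fin n → K, f = ∑ i, a i • φ i ∧
        (f ∈ O → ∀ i, a i ∈ constRing K O)) := by
  classical
  haveI := L_finite H.hyp.degF D
  haveI := L_finite H.hyp.degFb (Finsupp.mapDomain r D)
  have hfr : Module.finrank K (riemannRochSpace D) = n := by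
    have h1 := finrank_L_le_finrank_L_map H D
    have h2 := H.hyp.RF D
    rw [hl] at h1
    have h3 : (n : ℤ) ≤ (Module.finrank K (riemannRochSpace D) : ℤ) := by rw [hn]; exact h2
    have h4 : n ≤ Module.finrank K (riemannRochSpace D) := by exact_mod_cast h3
    omega
  subst hfr
  obtain ⟨φ, hφO, hφL, hli⟩ := H.hyp.lat (riemannRochSpace D) inferInstance
  have hliK : LinearIndependent K φ := linearIndependent_of_red hO φ hφO hli
  refine ⟨φ, hφO, hφL, hliK, hli, ?_, ?_⟩
  · have hmemQ : ∀ i, red ⟨φ i, hφO i⟩ ∈ riemannRochSpace (Finsupp.mapDomain r D) :=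
      fun i => red_mem_L H D (hφL i) (hφO i)
    have hv : LinearIndependent k
        (fun i => (⟨red ⟨φ i, hφO i⟩, hmemQ i⟩ : riemannRochSpace (Finsupp.mapDomain r D))) :=
      LinearIndependent.of_comp (Submodule.subtype _) hli
    have hspan := hv.span_eq_top_of_card_eq_finrank' (by rw [Fintype.card_fin, hl])
    intro f hf
    have hmem : (⟨f, hf⟩ : riemannRochSpace (Finsupp.mapDomain r D)) ∈
        Submodule.span k (Set.range fun i =>
          (⟨red ⟨φ i, hφO i⟩, hmemQ i⟩ : riemannRochSpace (Finsupp.mapDomain r D))) := by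
      rw [hspan]; exact Submodule.mem_top
    obtain ⟨b, hb⟩ := (Submodule.mem_span_range_iff_exists_fun k).mp hmem
    refine ⟨b, ?_⟩
    have h2 := congrArg Subtype.val hb
    simpa using h2.symm
  · have hw : LinearIndependent K (fun i => (⟨φ i, hφL i⟩ : riemannRochSpace D)) :=
      LinearIndependent.of_comp (Submodule.subtype _) hliK
    have hspan := hw.span_eq_top_of_card_eq_finrank' (by rw [Fintype.card_fin])
    intro f hf
    have hmem : (⟨f, hf⟩ : riemannRochSpace D) ∈
        Submodule.span K (Set.range fun i => (⟨φ i, hφL i⟩ : riemannRochSpace D)) := by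
      rw [hspan]; exact Submodule.mem_top
    obtain ⟨a, ha⟩ := (Submodule.mem_span_range_iff_exists_fun K).mp hmem
    have h2 := congrArg Subtype.val ha
    have h3 : f = ∑ i, a i • φ i := by simpa using h2.symm
    refine ⟨a, h3, ?_⟩
    intro hfO
    exact coeff_mem_of_sum_mem hO φ hφO hli _ (by rw [← h3]; exact hfO)

/-- Uniqueness of the place map: any map satisfying conservation equals `r`. -/
theorem conserves_unique (H : Setup hO g r ϖ) (r' : Place K F → Place k Fb)
    (h' : Conserves red r') : r' = r := by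
  classical
  funext P₀
  by_contra hne
  have H' : Setup hO g r' ϖ := { H with cons := h' }
  set D : Divisor K F := (g + 1) • Finsupp.single P₀ (1 : ℤ) with hD
  haveI := L_finite H.hyp.degF D
  have hdeg : Divisor.degree D = g + 1 := by
    rw [hD, map_nsmul, degree_single_one H.hyp.degF, nsmul_eq_mul, mul_one]
    push_cast; ring
  have h1 := finrank_redSpace_eq hO (riemannRochSpace D) (H.hyp.lat _ inferInstance)
  have h2 := H.hyp.RF D
  rw [hdeg] at h2
  -- the reduced space lies in `L(0)`
  have hsub : redSpace hO (riemannRochSpace D) ≤ riemannRochSpace (0 : Divisor k Fb) := by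
    rintro _ ⟨f, hfM, hf, rfl⟩
    have m1 := red_mem_L H D hfM hf
    have m2 := red_mem_L H' D hfM hf
    rw [mem_riemannRochSpace_iff] at m1 m2 ⊢
    intro Q
    by_cases h0 : red ⟨f, hf⟩ = 0
    · exact Or.inl h0
    right
    have e1 := (m1 Q).resolve_left h0
    have e2 := (m2 Q).resolve_left h0
    rw [hD, Finsupp.mapDomain_smul, Finsupp.mapDomain_single, Finsupp.smul_apply] at e1 e2
    rw [Finsupp.zero_apply]
    by_cases hQ : Q = r P₀
    · have hQ' : Q ≠ r' P₀ := fun h => hne (h.symm.trans hQ)
      rw [Finsupp.single_eq_of_ne hQ'] at e2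
      simpa using e2
    · rw [Finsupp.single_eq_of_ne hQ] at e1
      simpa using e1
  haveI := L_finite H.hyp.degFb (0 : Divisor k Fb)
  have h3 := Submodule.finrank_mono hsub
  have h4 := finrank_L_le H.hyp.degFb (D := (0 : Divisor k Fb)) (fun _ => le_rfl)
  rw [map_zero] at h4
  have h5 : (Module.finrank k (redSpace hO (riemannRochSpace D)) : ℤ) ≤ 1 := by
    have : (Module.finrank k (redSpace hO (riemannRochSpace D)) : ℤ)
        ≤ (Module.finrank k (riemannRochSpace (0 : Divisor k Fb)) : ℤ) := by exact_mod_cast h3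
    linarith
  rw [h1] at h5
  linarith

end Fermat.Agent.S19.Abs
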