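/-
S19 Abs, piece RT-COORD (RT5): coordinates of residue discs.
τ - ρ (ρ ∈ m_A) reduces to red τ, so by conservation it has exactly one zero in the disc, a simple one.
Existence: lift an element of L(m Q0) with a simple zero at Q (Q0 = r(P0) ≠ Q, m large, Riemann equality), inside L(m P0) ∩ O.
FROZEN STATEMENTS (helper5516 skeleton of the abstract geometry core of S19) — all PROVED here.
Proof sketches: origin/helper5516:notes/S19_GC_abstract_helper5516.md; protocol: notes/S19_ABS_BOARD_helper5516.md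
-/
import Fermat.Agent.S19.Abs.RTEval
import Fermat.Agent.S19.Abs.RTKer
import Fermat.Agent.S19.Abs.RTLat

set_option autoImplicit false

namespace Fermat.Agent.S19.Abs

open AlgebraicCurve Fermat.Agent.RIN

section Fibre

variable {α β : Type*}

/-- A divisor which is effective on the fibre of `Q` has nonnegative push-forward at `Q`. -/
theorem mapDomain_nonneg_fibre (r : α → β) {X : α →₀ ℤ} {Q : β} (hX : ∀ P, r P = Q → 0 ≤ X P) :
    0 ≤ Finsupp.mapDomain r X Q := by
  classical
  rw [mapDomain_apply_eq_sum]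
  apply Finset.sum_nonneg
  intro P _
  split_ifs with h
  · exact hX P h
  · exact le_rfl

theorem mapDomain_apply_split (r : α → β) (X : α →₀ ℤ) {Q : β} {P : α} (hP : r P = Q) :
    Finsupp.mapDomain r X Q = Finsupp.mapDomain r (X - Finsupp.single P (X P)) Q + X P := by
  classical
  have e : X = (X - Finsupp.single P (X P)) + Finsupp.single P (X P) := by abel
  conv_lhs => rw [e]
  rw [Finsupp.mapDomain_add, Finsupp.add_apply, Finsupp.mapDomain_single, hP,
    Finsupp.single_eq_same]

theorem sub_single_nonneg_fibre (r : α → β) {X : α →₀ ℤ} {Q : β} (hX : ∀ P, r P = Q → 0 ≤ X P)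
    (P : α) : ∀ P', r P' = Q → 0 ≤ (X - Finsupp.single P (X P)) P' := by
  classical
  intro P' hP'
  rw [Finsupp.sub_apply]
  by_cases hPP : P' = P
  · subst hPP; simp
  · rw [Finsupp.single_eq_of_ne hPP, sub_zero]; exact hX P' hP'

theorem le_mapDomain_apply (r : α → β) {X : α →₀ ℤ} {Q : β} (hX : ∀ P, r P = Q → 0 ≤ X P)
    {P : α} (hP : r P = Q) : X P ≤ Finsupp.mapDomain r X Q := by
  have h := mapDomain_nonneg_fibre r (sub_single_nonneg_fibre r hX P)
  rw [mapDomain_apply_split r X hP]
  linarith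

theorem add_le_mapDomain_apply (r : α → β) {X : α →₀ ℤ} {Q : β} (hX : ∀ P, r P = Q → 0 ≤ X P)
    {P₁ P₂ : α} (h₁ : r P₁ = Q) (h₂ : r P₂ = Q) (hne : P₁ ≠ P₂) :
    X P₁ + X P₂ ≤ Finsupp.mapDomain r X Q := by
  classical
  have h3 := le_mapDomain_apply r (sub_single_nonneg_fibre r hX P₁) h₂
  have hY2 : (X - Finsupp.single P₁ (X P₁)) P₂ = X P₂ := by
    rw [Finsupp.sub_apply, Finsupp.single_eq_of_ne hne.symm, sub_zero]
  rw [mapDomain_apply_split r X h₁]
  linarith

theorem exists_pos_of_mapDomain_pos (r : α → β) {X : α →₀ ℤ} {Q : β}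
    (h : 0 < Finsupp.mapDomain r X Q) : ∃ P, r P = Q ∧ 0 < X P := by
  classical
  by_contra hcon
  push Not at hcon
  rw [mapDomain_apply_eq_sum] at h
  have : ∑ P ∈ X.support, (if r P = Q then X P else 0) ≤ 0 := by
    apply Finset.sum_nonpos
    intro P _
    split_ifs with hP
    · exact hcon P hP
    · exact le_rfl
  omega

end Fibre

variable {K F k Fb : Type*} [Field K] [Field F] [Algebra K F] [Field k] [Field Fb] [Algebra k Fb]
variable {O : ValuationSubring F} {red : O →+* Fb} {hO : IsConstRed K k O red}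
variable [Infinite k] [Nonempty (Place K F)] [Nonempty (Place k Fb)]
  [HasPrincipalDivisors K F] [HasPrincipalDivisors k Fb]
variable {g : ℕ} {r : Place K F → Place k Fb} {ϖ : K}

omit [Infinite k] [Nonempty (Place K F)] [Nonempty (Place k Fb)] [HasPrincipalDivisors k Fb] in
/-- The function `τ - ρ` (`ρ` in the maximal ideal of `A`): nonzero, regular on the disc, and the
push-forward of its divisor has multiplicity one at `Q`. -/
theorem IsCoord.fibre_sum (H : Setup hO g r ϖ) {Q : Place k Fb} {τ : F}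
    (hτ : IsCoord red r Q τ) (ρ : K) (hρ : ρ ∈ (constRing K O).nonunits) :
    τ - algebraMap K F ρ ≠ 0 ∧
      (∀ P' : Place K F, r P' = Q → 0 ≤ P'.ord (τ - algebraMap K F ρ)) ∧
      Finsupp.mapDomain r (divOf K (τ - algebraMap K F ρ)) Q = 1 := by
  have hρO : algebraMap K F ρ ∈ O := mem_constRing.mp (mem_of_mem_nonunits _ hρ)
  have hyO : τ - algebraMap K F ρ ∈ O := sub_mem hτ.mem hρO
  have hred : red ⟨τ - algebraMap K F ρ, hyO⟩ = red ⟨τ, hτ.mem⟩ := by
    have e : (⟨τ - algebraMap K F ρ, hyO⟩ : O) = ⟨τ, hτ.mem⟩ - ⟨algebraMap K F ρ, hρO⟩ := rfl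
    rw [e, map_sub, red_const_of_mem_nonunits hO hρ hρO, sub_zero]
  have hord := hτ.ord hτ.mem
  have hne : red ⟨τ - algebraMap K F ρ, hyO⟩ ≠ 0 := by
    rw [hred]
    intro h0
    rw [h0] at hord
    simp at hord
  have hy0 : τ - algebraMap K F ρ ≠ 0 := by
    intro h0
    apply hne
    have : (⟨τ - algebraMap K F ρ, hyO⟩ : O) = 0 := Subtype.ext h0
    rw [this, map_zero]
  refine ⟨hy0, fun P' hP' => ?_, ?_⟩
  · exact ord_nonneg_of_mem P' (sub_mem (hτ.reg P' hP') (P'.algebraMap_mem' ρ))
  · rw [H.cons _ hyO hne (divOf K _) (fun P' => divOf_apply _ P') Q, hred, hord]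

omit [Infinite k] [Nonempty (Place K F)] [Nonempty (Place k Fb)] [HasPrincipalDivisors k Fb] in
/-- On the disc, `τ` takes the value `ρ` at `P` iff `τ - ρ` vanishes at `P`. -/
theorem IsCoord.evalAt_eq_iff (H : Setup hO g r ϖ) {Q : Place k Fb} {τ : F}
    (hτ : IsCoord red r Q τ) (ρ : K) (hρ : ρ ∈ (constRing K O).nonunits)
    {P : Place K F} (hP : r P = Q) :
    evalAt P τ = ρ ↔ 0 < P.ord (τ - algebraMap K F ρ) := by
  obtain ⟨hy0, -, -⟩ := hτ.fibre_sum H ρ hρ
  constructor
  · intro h
    have hv := hasValue_evalAt (H.hyp.degF P) (hτ.reg P hP)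
    rw [h] at hv
    exact ord_pos_of_mem_nonunits P hy0 hv
  · intro h
    have hv : HasValue P τ ρ := mem_nonunits_of_ord_pos P h
    exact hv.evalAt_eq

omit [Infinite k] [Nonempty (Place K F)] [Nonempty (Place k Fb)] [HasPrincipalDivisors k Fb] in
/-- RT5a. The values of a coordinate on its disc lie in the maximal ideal of `A`. -/
theorem IsCoord.evalAt_mem_nonunits (H : Setup hO g r ϖ) {Q : Place k Fb} {τ : F}
    (hτ : IsCoord red r Q τ) {P : Place K F} (hP : r P = Q) :
    evalAt P τ ∈ (constRing K O).nonunits := by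
  obtain ⟨c, hc, hval, -, hnon⟩ := eval_red H hτ.mem hτ.reg hP
  rw [hval.evalAt_eq, mem_constRing_nonunits, ← red_eq_zero_iff hO hc]
  have hτQ : red ⟨τ, hτ.mem⟩ ∈ Q.toValuationSubring.nonunits :=
    mem_nonunits_of_ord_pos Q (by rw [hτ.ord hτ.mem]; exact one_pos)
  have hcQ : red ⟨algebraMap K F c, hc⟩ ∈ Q.toValuationSubring.nonunits := by
    have := nonunits_sub_mem _ hτQ hnon
    simpa using this
  obtain ⟨c', hc'⟩ := hO.const c hc
  rw [hc'] at hcQ ⊢
  by_contra h0
  have hc0 : c' ≠ 0 := by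
    rintro rfl
    exact h0 (map_zero _)
  exact algebraMap_not_mem_nonunits Q hc0 hcQ

omit [Infinite k] [Nonempty (Place K F)] [Nonempty (Place k Fb)] [HasPrincipalDivisors k Fb] in
/-- RT5b. A coordinate is a bijection of the disc onto the maximal ideal of `A`. -/
theorem IsCoord.existsUnique (H : Setup hO g r ϖ) {Q : Place k Fb} {τ : F}
    (hτ : IsCoord red r Q τ) (ρ : K) (hρ : ρ ∈ (constRing K O).nonunits) :
    ∃! P : Place K F, r P = Q ∧ evalAt P τ = ρ := by
  obtain ⟨hy0, hnn, hsum⟩ := hτ.fibre_sum H ρ hρ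
  have hnn' : ∀ P', r P' = Q → 0 ≤ (divOf K (τ - algebraMap K F ρ)) P' := fun P' hP' => by
    rw [divOf_apply]; exact hnn P' hP'
  obtain ⟨P, hP, hpos⟩ := exists_pos_of_mapDomain_pos r
    (X := divOf K (τ - algebraMap K F ρ)) (Q := Q) (by rw [hsum]; exact one_pos)
  rw [divOf_apply] at hpos
  refine ⟨P, ⟨hP, (hτ.evalAt_eq_iff H ρ hρ hP).mpr hpos⟩, ?_⟩
  rintro P' ⟨hP', hev⟩
  by_contra hne
  have hpos' := (hτ.evalAt_eq_iff H ρ hρ hP').mp hev
  have h2 := add_le_mapDomain_apply r hnn' hP' hP hne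
  rw [hsum, divOf_apply, divOf_apply] at h2
  omega

omit [Infinite k] [Nonempty (Place K F)] [Nonempty (Place k Fb)] [HasPrincipalDivisors k Fb] in
/-- RT5c. `τ - ρ` has a simple zero at the point of the disc where `τ = ρ`, and no other zero on the disc. -/
theorem IsCoord.ord_sub (H : Setup hO g r ϖ) {Q : Place k Fb} {τ : F}
    (hτ : IsCoord red r Q τ) (ρ : K) (hρ : ρ ∈ (constRing K O).nonunits)
    {P : Place K F} (hP : r P = Q) :
    (evalAt P τ = ρ → P.ord (τ - algebraMap K F ρ) = 1) ∧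
      (evalAt P τ ≠ ρ → P.ord (τ - algebraMap K F ρ) = 0) := by
  obtain ⟨hy0, hnn, hsum⟩ := hτ.fibre_sum H ρ hρ
  have hnn' : ∀ P', r P' = Q → 0 ≤ (divOf K (τ - algebraMap K F ρ)) P' := fun P' hP' => by
    rw [divOf_apply]; exact hnn P' hP'
  constructor
  · intro hev
    have hpos := (hτ.evalAt_eq_iff H ρ hρ hP).mp hev
    have h2 := le_mapDomain_apply r hnn' hP
    rw [hsum, divOf_apply] at h2
    omega
  · intro hev
    have h1 := hnn P hP
    by_contra hne
    exact hev ((hτ.evalAt_eq_iff H ρ hρ hP).mpr (by omega))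

omit [Infinite k] [Nonempty (Place k Fb)] in
/-- There are at least two places. -/
theorem exists_place_ne {k Fb : Type*} [Field k] [Field Fb] [Algebra k Fb]
    [HasPrincipalDivisors k Fb] (hdeg : ∀ Q : Place k Fb, Q.deg = 1) (Q : Place k Fb) :
    ∃ Q0 : Place k Fb, Q0 ≠ Q := by
  classical
  by_contra hcon
  push Not at hcon
  obtain ⟨π, hπ⟩ := IsDiscreteValuationRing.exists_irreducible Q.toValuationSubring
  have hD : divOf k (π : Fb) = Finsupp.single Q 1 := by
    ext Q'
    obtain rfl := hcon Q'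
    rw [divOf_apply, Finsupp.single_eq_same, Q'.ord_coe_irreducible hπ]
  have h0 := degree_divOf (K := k) (π : Fb)
  rw [hD, degree_single_one hdeg] at h0
  exact one_ne_zero h0

/-- RT5d. Every place of the special fibre has a coordinate. -/
theorem exists_isCoord (H : Setup hO g r ϖ) (Q : Place k Fb) : ∃ τ : F, IsCoord red r Q τ := by
  classical
  obtain ⟨Q0, hQ0⟩ := exists_place_ne H.hyp.degFb Q
  obtain ⟨P0, hP0⟩ := r_surjective H Q0
  obtain ⟨c, hc⟩ := H.hyp.RFb'
  set m : ℕ := (max c 0).toNat + 2 with hm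
  have hmc : c + 2 ≤ (m : ℤ) := by
    rw [hm]; push_cast; rw [Int.toNat_of_nonneg (le_max_right _ _)]
    have := le_max_left c 0; omega
  set E : Divisor k Fb := m • Finsupp.single Q0 (1 : ℤ) with hE
  set E1 : Divisor k Fb := E - Finsupp.single Q 1 with hE1
  set E2 : Divisor k Fb := E - Finsupp.single Q 2 with hE2
  have hdegE : Divisor.degree E = m := by
    rw [hE, map_nsmul, degree_single_one H.hyp.degFb, nsmul_eq_mul, mul_one]
  have hdegE1 : Divisor.degree E1 = m - 1 := by
    rw [hE1, map_sub, hdegE, degree_single_one H.hyp.degFb]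
  have hdegE2 : Divisor.degree E2 = m - 2 := by
    rw [hE2, map_sub, hdegE, degree_single_one H.hyp.degFb]
  have hEQ : E Q = 0 := by
    rw [hE, Finsupp.smul_apply, Finsupp.single_eq_of_ne hQ0.symm, smul_zero]
  haveI := L_finite H.hyp.degFb E1
  haveI := L_finite H.hyp.degFb E2
  haveI := L_finite H.hyp.degFb E
  have h1 := H.hyp.RFb E1
  have h2 := hc E2 (by rw [hdegE2]; omega)
  have hlt : Module.finrank k (riemannRochSpace E2) < Module.finrank k (riemannRochSpace E1) := by
    have : (Module.finrank k (riemannRochSpace E2) : ℤ)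
        < Module.finrank k (riemannRochSpace E1) := by
      rw [hdegE1] at h1; rw [hdegE2] at h2; linarith
    exact_mod_cast this
  obtain ⟨τb, hτb1, hτb2⟩ : ∃ τb, τb ∈ riemannRochSpace E1 ∧ τb ∉ riemannRochSpace E2 := by
    by_contra hcon
    push Not at hcon
    have hle : riemannRochSpace E1 ≤ riemannRochSpace E2 := hcon
    have := Submodule.finrank_mono hle
    omega
  have hτb0 : τb ≠ 0 := fun h => hτb2 (h ▸ zero_mem _)
  have hordQ : Q.ord τb = 1 := by
    rw [mem_riemannRochSpace_iff] at hτb1 hτb2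
    have hge := (hτb1 Q).resolve_left hτb0
    rw [hE1, Finsupp.sub_apply, hEQ, Finsupp.single_eq_same] at hge
    by_contra hne
    apply hτb2
    intro v
    right
    by_cases hv : v = Q
    · subst hv
      rw [hE2, Finsupp.sub_apply, hEQ, Finsupp.single_eq_same]; omega
    · have := (hτb1 v).resolve_left hτb0
      rw [hE1, Finsupp.sub_apply, Finsupp.single_eq_of_ne hv] at this
      rw [hE2, Finsupp.sub_apply, Finsupp.single_eq_of_ne hv]
      exact this
  have hτbE : τb ∈ riemannRochSpace E := by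
    refine L_mono (fun v => ?_) hτb1
    rw [hE1, Finsupp.sub_apply]
    by_cases hv : v = Q
    · subst hv; simp
    · rw [Finsupp.single_eq_of_ne hv]; simp
  -- lift
  set D : Divisor K F := m • Finsupp.single P0 (1 : ℤ) with hD
  have hmap : Finsupp.mapDomain r D = E := by
    rw [hD, Finsupp.mapDomain_smul, Finsupp.mapDomain_single, hP0]
  haveI := L_finite H.hyp.degF D
  have hdegD : Divisor.degree D = m := by
    rw [hD, map_nsmul, degree_single_one H.hyp.degF, nsmul_eq_mul, mul_one]
  have e1 := finrank_redSpace_eq hO (riemannRochSpace D) (H.hyp.lat _ inferInstance)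
  have hsub : redSpace hO (riemannRochSpace D) ≤ riemannRochSpace E := by
    rintro _ ⟨f, hfM, hf, rfl⟩
    rw [← hmap]; exact red_mem_L H D hfM hf
  have hEle := hc E (by rw [hdegE]; omega)
  have hDge := H.hyp.RF D
  have heq : redSpace hO (riemannRochSpace D) = riemannRochSpace E := by
    apply Submodule.eq_of_le_of_finrank_le hsub
    rw [e1]
    have : (Module.finrank k (riemannRochSpace E) : ℤ)
        ≤ Module.finrank K (riemannRochSpace D) := by
      rw [hdegE] at hEle; rw [hdegD] at hDge; linarith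
    exact_mod_cast this
  have hτmem : τb ∈ redSpace hO (riemannRochSpace D) := by rw [heq]; exact hτbE
  obtain ⟨τ, hτL, hτO, hτred⟩ := hτmem
  refine ⟨τ, hτO, ?_, ?_⟩
  · intro P hP
    rw [mem_riemannRochSpace_iff] at hτL
    have hPP0 : P ≠ P0 := by
      rintro rfl
      exact hQ0 (hP0.symm.trans hP)
    rcases hτL P with h0 | h0
    · rw [h0]; exact zero_mem _
    · apply mem_of_ord_nonneg
      rw [hD, Finsupp.smul_apply, Finsupp.single_eq_of_ne hPP0, smul_zero, neg_zero] at h0
      exact h0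
  · intro h
    rw [hτred]; exact hordQ

end Fermat.Agent.S19.Abs
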