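/-
S19 Abs, piece RT-POLY (RT6 = (EV)): Newton interpolation with integral divided differences.
f_1 := (f - f(P_1))/(τ - ρ_1) is again in O without poles on the disc (τ - ρ_1 is a unit of O with a single simple zero in the disc, at P_1); f = f(P_1) + (τ - ρ_1) f_1.  Induction on the finset T.
FROZEN STATEMENTS (helper5516 skeleton of the abstract geometry core of S19) — all PROVED here.
Proof sketches: origin/helper5516:notes/S19_GC_abstract_helper5516.md; protocol: notes/S19_ABS_BOARD_helper5516.md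
-/
import Fermat.Agent.S19.Abs.RTCoord

set_option autoImplicit false

namespace Fermat.Agent.S19.Abs

open AlgebraicCurve Fermat.Agent.RIN

variable {K F k Fb : Type*} [Field K] [Field F] [Algebra K F] [Field k] [Field Fb] [Algebra k Fb]
variable {O : ValuationSubring F} {red : O →+* Fb} {hO : IsConstRed K k O red}
variable [Infinite k] [Nonempty (Place K F)] [Nonempty (Place k Fb)]
  [HasPrincipalDivisors K F] [HasPrincipalDivisors k Fb]
variable {g : ℕ} {r : Place K F → Place k Fb} {ϖ : K}

omit [Infinite k] [Nonempty (Place K F)] [Nonempty (Place k Fb)] [HasPrincipalDivisors K F]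
  [HasPrincipalDivisors k Fb] in
/-- `τ - ρ` is a unit of `O` for `ρ` in the maximal ideal of `A`. -/
theorem IsCoord.inv_sub_mem (hO : IsConstRed K k O red) {Q : Place k Fb} {τ : F}
    (hτ : IsCoord red r Q τ) (ρ : K) (hρ : ρ ∈ (constRing K O).nonunits) :
    (τ - algebraMap K F ρ)⁻¹ ∈ O := by
  have hρO : algebraMap K F ρ ∈ O := mem_constRing.mp (mem_of_mem_nonunits _ hρ)
  have hyO : τ - algebraMap K F ρ ∈ O := sub_mem hτ.mem hρO
  apply inv_mem_of_not_mem_nonunits
  rw [← red_eq_zero_iff hO hyO]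
  have e : (⟨τ - algebraMap K F ρ, hyO⟩ : O) = ⟨τ, hτ.mem⟩ - ⟨algebraMap K F ρ, hρO⟩ := rfl
  rw [e, map_sub, red_const_of_mem_nonunits hO hρ hρO, sub_zero]
  intro h0
  have hord := hτ.ord hτ.mem
  rw [h0] at hord
  simp at hord

omit [Infinite k] [Nonempty (Place K F)] [Nonempty (Place k Fb)] [HasPrincipalDivisors k Fb] in
/-- RT6 (EV). On a finite subset of a disc, the values of an integral function without poles on the disc
are given by a polynomial in the coordinate, with coefficients in `A`. -/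
theorem exists_poly_eval (H : Setup hO g r ϖ) {Q : Place k Fb} {τ : F} (hτ : IsCoord red r Q τ)
    {f : F} (hfO : f ∈ O) (hreg : RegOn r Q f) (T : Finset (Place K F)) (hT : ∀ P ∈ T, r P = Q) :
    ∃ p : Polynomial K, (∀ n, p.coeff n ∈ constRing K O) ∧
      ∀ P ∈ T, evalAt P f = p.eval (evalAt P τ) := by
  classical
  induction T using Finset.induction_on generalizing f with
  | empty =>
    exact ⟨0, fun n => by rw [Polynomial.coeff_zero]; exact zero_mem _, fun P hP => by simp at hP⟩
  | insert P₁ T' hP₁ ih =>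
    have hP₁Q : r P₁ = Q := hT P₁ (Finset.mem_insert_self _ _)
    have hT' : ∀ P ∈ T', r P = Q := fun P hP => hT P (Finset.mem_insert_of_mem hP)
    obtain ⟨ρ, hρdef⟩ : ∃ ρ, ρ = evalAt P₁ τ := ⟨_, rfl⟩
    obtain ⟨c, hcdef⟩ : ∃ c, c = evalAt P₁ f := ⟨_, rfl⟩
    have hρ : ρ ∈ (constRing K O).nonunits := by
      rw [hρdef]; exact hτ.evalAt_mem_nonunits H hP₁Q
    have hc : c ∈ constRing K O := by
      rw [hcdef]; exact evalAt_mem_constRing H hfO hreg hP₁Q
    have hρA : ρ ∈ constRing K O := mem_of_mem_nonunits _ hρ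
    have hρO : algebraMap K F ρ ∈ O := mem_constRing.mp hρA
    have hcO : algebraMap K F c ∈ O := hc
    obtain ⟨hy0, hnn, hsum⟩ := hτ.fibre_sum H ρ hρ
    have hyinv := hτ.inv_sub_mem hO ρ hρ
    obtain ⟨f₁, hf₁⟩ : ∃ f₁ : F, f₁ = (f - algebraMap K F c) * (τ - algebraMap K F ρ)⁻¹ :=
      ⟨_, rfl⟩
    have hf₁O : f₁ ∈ O := by
      rw [hf₁]; exact O.mul_mem _ _ (sub_mem hfO hcO) hyinv
    have hvalf : HasValue P₁ f c := by
      rw [hcdef]; exact hasValue_evalAt (H.hyp.degF P₁) (hreg P₁ hP₁Q)
    have hreg₁ : RegOn r Q f₁ := by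
      intro P' hP'
      by_cases hfc : f - algebraMap K F c = 0
      · rw [hf₁, hfc, zero_mul]; exact zero_mem _
      apply mem_of_ord_nonneg
      rw [hf₁, P'.ord_mul hfc (inv_ne_zero hy0), P'.ord_inv]
      have h1 : 0 ≤ P'.ord (f - algebraMap K F c) :=
        ord_nonneg_of_mem P' (sub_mem (hreg P' hP') (P'.algebraMap_mem' c))
      obtain ⟨ha, hb⟩ := hτ.ord_sub H ρ hρ hP'
      by_cases hev : evalAt P' τ = ρ
      · have hPP : P' = P₁ := (hτ.existsUnique H ρ hρ).unique ⟨hP', hev⟩ ⟨hP₁Q, hρdef.symm⟩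
        have h2 : 0 < P'.ord (f - algebraMap K F c) := by
          rw [hPP]; exact ord_pos_of_mem_nonunits P₁ hfc hvalf
        rw [ha hev]; omega
      · rw [hb hev]; omega
    obtain ⟨p₁, hp₁A, hp₁⟩ := ih hf₁O hreg₁ hT'
    refine ⟨Polynomial.C c + Polynomial.X * p₁ - Polynomial.C ρ * p₁, ?_, ?_⟩
    · intro n
      cases n with
      | zero =>
        simp only [Polynomial.coeff_add, Polynomial.coeff_sub, Polynomial.coeff_C_zero,
          Polynomial.coeff_X_mul_zero, Polynomial.coeff_C_mul, add_zero]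
        exact sub_mem hc (mul_mem hρA (hp₁A 0))
      | succ n =>
        simp only [Polynomial.coeff_add, Polynomial.coeff_sub, Polynomial.coeff_C_succ,
          Polynomial.coeff_X_mul, Polynomial.coeff_C_mul, zero_add]
        exact sub_mem (hp₁A n) (mul_mem hρA (hp₁A (n + 1)))
    · intro P hP
      rw [Finset.mem_insert] at hP
      have hev : ∀ x : K, (Polynomial.C c + Polynomial.X * p₁ - Polynomial.C ρ * p₁).eval x
          = c + (x - ρ) * p₁.eval x := by
        intro x; simp; ring
      rw [hev]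
      rcases hP with hP | hP
      · rw [hP, ← hρdef, sub_self, zero_mul, add_zero, hcdef]
      · have hPQ := hT' P hP
        have hv1 : HasValue P f₁ (evalAt P f₁) := hasValue_evalAt (H.hyp.degF P) (hreg₁ P hPQ)
        have hvτ : HasValue P τ (evalAt P τ) := hasValue_evalAt (H.hyp.degF P) (hτ.reg P hPQ)
        have hfe : algebraMap K F c + (τ - algebraMap K F ρ) * f₁ = f := by
          rw [hf₁]; field_simp; ring
        have hv : HasValue P (algebraMap K F c + (τ - algebraMap K F ρ) * f₁)
            (c + (evalAt P τ - ρ) * evalAt P f₁) :=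
          (hasValue_algebraMap P c).add ((hvτ.sub (hasValue_algebraMap P ρ)).mul hv1)
        rw [hfe] at hv
        rw [hv.evalAt_eq, hp₁ P hP]

end Fermat.Agent.S19.Abs
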