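/- S19 Abs, package RT (aggregator; see the piece files). -/
import Fermat.Agent.S19.Abs.RTVal
import Fermat.Agent.S19.Abs.RTKer
import Fermat.Agent.S19.Abs.RTLat
import Fermat.Agent.S19.Abs.RTEval
import Fermat.Agent.S19.Abs.RTCoord
import Fermat.Agent.S19.Abs.RTPoly
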