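/-
S19 Abs, piece SFG-A: linear equivalence, (G1)/(G5), uniqueness of effective divisors when l = 1.
Setting: a function field E/k with Riemann's theorem (`Riemann k E g`, in Defs).  Hints: `Fermat.Agent.RIN.L_step`, `L_finite`, `divOf`.
FROZEN STATEMENTS (helper5516 skeleton of the abstract geometry core of S19).
Proof sketches: origin/helper5516:notes/S19_GC_abstract_helper5516.md; protocol: notes/S19_ABS_BOARD_helper5516.md
Proofs: helper5712 (private helpers carry the prefix `h5712_`).
-/
import Fermat.Agent.S19.Abs.Defs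

set_option autoImplicit false

namespace Fermat.Agent.S19.Abs

open AlgebraicCurve Fermat.Agent.RIN

variable {k E : Type*} [Field k] [Field E] [Algebra k E]
variable [Infinite k] [Nonempty (Place k E)] [HasPrincipalDivisors k E]
variable {g : ℕ}

omit [Infinite k] [Nonempty (Place k E)] [HasPrincipalDivisors k E] in
/-- multiplication by `u` maps `L(D)` into `L(D')` when `D - D' = div u`. -/
theorem h5712_mul_mem_L {D D' : Divisor k E} (u : E) (hu0 : u ≠ 0)
    (hu : ∀ P : Place k E, D P - D' P = P.ord u) {f : E} (hf : f ∈ riemannRochSpace D) :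
    u * f ∈ riemannRochSpace D' := by
  rw [mem_riemannRochSpace_iff] at hf ⊢
  intro v
  rcases eq_or_ne f 0 with rfl | hf0
  · left
    simp
  right
  have h1 := (hf v).resolve_left hf0
  have h2 := hu v
  rw [v.ord_mul hu0 hf0]
  omega

/-- Linearly equivalent divisors have Riemann-Roch spaces of the same dimension. -/
theorem LinEquiv.finrank_eq {D D' : Divisor k E} (h : LinEquiv D D') :
    Module.finrank k (riemannRochSpace D) = Module.finrank k (riemannRochSpace D') := by
  obtain ⟨u, hu0, hu⟩ := h
  have hu' : ∀ P : Place k E, D' P - D P = P.ord u⁻¹ := fun P => by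
    rw [P.ord_inv, ← hu P]
    ring
  let e : riemannRochSpace D ≃ₗ[k] riemannRochSpace D' :=
    { toFun := fun f => ⟨u * f.1, h5712_mul_mem_L u hu0 hu f.2⟩
      invFun := fun f => ⟨u⁻¹ * f.1, h5712_mul_mem_L u⁻¹ (inv_ne_zero hu0) hu' f.2⟩
      map_add' := fun a b => Subtype.ext (mul_add _ _ _)
      map_smul' := fun c a => Subtype.ext (mul_smul_comm c u a.1)
      left_inv := fun a => Subtype.ext (by
        show u⁻¹ * (u * a.1) = a.1
        rw [← mul_assoc, inv_mul_cancel₀ hu0, one_mul])
      right_inv := fun a => Subtype.ext (by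
        show u * (u⁻¹ * a.1) = a.1
        rw [← mul_assoc, mul_inv_cancel₀ hu0, one_mul]) }
  exact e.finrank_eq

theorem LinEquiv.refl (D : Divisor k E) : LinEquiv D D :=
  ⟨1, one_ne_zero, fun P => by rw [sub_self, P.ord_one]⟩

theorem LinEquiv.symm {D D' : Divisor k E} (h : LinEquiv D D') : LinEquiv D' D := by
  obtain ⟨u, hu0, hu⟩ := h
  exact ⟨u⁻¹, inv_ne_zero hu0, fun P => by
    rw [P.ord_inv, ← hu P]
    ring⟩

theorem LinEquiv.trans {D D' D'' : Divisor k E} (h : LinEquiv D D') (h' : LinEquiv D' D'') :
    LinEquiv D D'' := by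
  obtain ⟨u, hu0, hu⟩ := h
  obtain ⟨u', hu'0, hu'⟩ := h'
  exact ⟨u * u', mul_ne_zero hu0 hu'0, fun P => by
    rw [P.ord_mul hu0 hu'0, ← hu P, ← hu' P]
    ring⟩

theorem LinEquiv.add {D D' X X' : Divisor k E} (h : LinEquiv D D') (h' : LinEquiv X X') :
    LinEquiv (D + X) (D' + X') := by
  obtain ⟨u, hu0, hu⟩ := h
  obtain ⟨u', hu'0, hu'⟩ := h'
  exact ⟨u * u', mul_ne_zero hu0 hu'0, fun P => by
    rw [Finsupp.add_apply, Finsupp.add_apply, P.ord_mul hu0 hu'0, ← hu P, ← hu' P]
    ring⟩

theorem LinEquiv.degree_eq {D D' : Divisor k E} (h : LinEquiv D D') :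
    Divisor.degree D = Divisor.degree D' := by
  obtain ⟨u, hu0, hu⟩ := h
  have hD : D - D' = divOf k u := by
    ext P
    rw [Finsupp.sub_apply, divOf_apply, hu P]
  have h1 := congrArg (Divisor.degree (K := k) (F := E)) hD
  rw [map_sub, degree_divOf] at h1
  exact sub_eq_zero.mp h1

omit [Infinite k] [Nonempty (Place k E)] [HasPrincipalDivisors k E] in
theorem h5712_ord_neg (v : Place k E) (f : E) : v.ord (-f) = v.ord f := by
  rcases eq_or_ne f 0 with rfl | hf
  · simp
  have h1 : (-1 : E) = algebraMap k E (-1) := by simp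
  rw [neg_eq_neg_one_mul, v.ord_mul (neg_ne_zero.mpr one_ne_zero) hf, h1, ord_algebraMap, zero_add]

omit [Infinite k] in
/-- A function without poles is constant. -/
theorem h5712_const_of_ord_nonneg (R : Riemann k E g) {f : E} (hf : ∀ Q : Place k E, 0 ≤ Q.ord f) :
    ∃ c : k, f = algebraMap k E c := by
  have hfL : f ∈ riemannRochSpace (0 : Divisor k E) := by
    rw [mem_riemannRochSpace_iff]
    intro v
    right
    have := hf v
    rw [Finsupp.zero_apply]
    omega
  have h1L : (1 : E) ∈ riemannRochSpace (0 : Divisor k E) := one_mem_L (fun _ => le_rfl)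
  haveI : FiniteDimensional k (riemannRochSpace (0 : Divisor k E)) := L_finite R.deg_one 0
  have hle : (Module.finrank k (riemannRochSpace (0 : Divisor k E)) : ℤ) ≤ 1 := by
    have := finrank_L_le R.deg_one (D := (0 : Divisor k E)) (fun _ => le_rfl)
    simpa using this
  have hne : (⟨1, h1L⟩ : riemannRochSpace (0 : Divisor k E)) ≠ 0 := by
    intro h
    exact one_ne_zero (congrArg Subtype.val h)
  have hpos : 0 < Module.finrank k (riemannRochSpace (0 : Divisor k E)) :=
    Module.finrank_pos_iff_exists_ne_zero.mpr ⟨_, hne⟩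
  have hone : Module.finrank k (riemannRochSpace (0 : Divisor k E)) = 1 := by omega
  obtain ⟨c, hc⟩ := (finrank_eq_one_iff_of_nonzero' _ hne).mp hone ⟨f, hfL⟩
  refine ⟨c, ?_⟩
  have h2 := congrArg Subtype.val hc
  rw [Algebra.algebraMap_eq_smul_one]
  exact h2.symm

omit [Infinite k] in
/-- A nonconstant function has a zero. -/
theorem h5712_exists_zero (R : Riemann k E g) {f : E} (hf : ¬ ∃ c : k, f = algebraMap k E c) :
    ∃ Q : Place k E, 0 < Q.ord f := by
  by_contra hcon
  push Not at hcon
  have hf0 : f ≠ 0 := fun h => hf ⟨0, by rw [h, map_zero]⟩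
  have hle : ∀ P : Place k E, (divOf k f) P ≤ (0 : Divisor k E) P := fun P => by
    rw [divOf_apply, Finsupp.zero_apply]
    exact hcon P
  have hdeg : Divisor.degree (0 : Divisor k E) ≤ Divisor.degree (divOf k f) := by
    rw [degree_divOf, map_zero]
  have hz := eq_of_le_of_degree_le R.deg_one hle hdeg
  apply hf
  apply h5712_const_of_ord_nonneg R
  intro Q
  have := congrArg (fun D : Divisor k E => D Q) hz
  simp only [divOf_apply, Finsupp.zero_apply] at this
  omega

omit [Infinite k] in
/-- There is a nonconstant function. -/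
theorem h5712_exists_nonconst (R : Riemann k E g) : ∃ x : E, ¬ ∃ c : k, x = algebraMap k E c := by
  obtain ⟨Q₀⟩ := ‹Nonempty (Place k E)›
  by_contra hall
  push Not at hall
  set D : Divisor k E := Finsupp.single Q₀ ((g : ℤ) + 1) with hD
  haveI : FiniteDimensional k (riemannRochSpace D) := L_finite R.deg_one D
  have h1 := R.ineq D
  rw [hD, degree_single_one R.deg_one] at h1
  have hle : riemannRochSpace D ≤ Submodule.span k {(1 : E)} := by
    intro x _
    obtain ⟨c, rfl⟩ := hall x
    rw [Algebra.algebraMap_eq_smul_one]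
    exact Submodule.smul_mem _ _ (Submodule.subset_span rfl)
  have h2 := Submodule.finrank_mono hle
  rw [finrank_span_singleton (one_ne_zero : (1 : E) ≠ 0)] at h2
  rw [← hD] at h1
  omega

/-- There are infinitely many places. -/
theorem infinite_place (R : Riemann k E g) : Infinite (Place k E) := by
  obtain ⟨x, hx⟩ := h5712_exists_nonconst R
  have hxc : ∀ c : k, ¬ ∃ c' : k, x - algebraMap k E c = algebraMap k E c' := by
    rintro c ⟨c', hc'⟩
    exact hx ⟨c' + c, by rw [map_add, ← hc']; ring⟩
  choose Qc hQc using fun c : k => h5712_exists_zero R (hxc c)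
  refine Infinite.of_injective Qc ?_
  intro c c' hcc
  by_contra hne
  have h1 := hQc c
  have h2 := hQc c'
  rw [← hcc] at h2
  have hsub : algebraMap k E (c' - c) = (x - algebraMap k E c) + -(x - algebraMap k E c') := by
    rw [map_sub]
    ring
  have hne0 : (x - algebraMap k E c) + -(x - algebraMap k E c') ≠ 0 := by
    rw [← hsub]
    intro h0
    have : c' - c = 0 := (map_eq_zero_iff _ (algebraMap k E).injective).mp h0
    exact hne (sub_eq_zero.mp this).symm
  have h3 := ord_add_ge (Qc c) hne0
  rw [h5712_ord_neg, ← hsub, ord_algebraMap] at h3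
  have h4 := le_min h1.le h2.le
  have h5 : 0 < min ((Qc c).ord (x - algebraMap k E c)) ((Qc c).ord (x - algebraMap k E c')) :=
    lt_min h1 h2
  omega

omit [Infinite k] in
theorem h5712_nonspecial_add_one (R : Riemann k E g) (Q : Place k E) {D : Divisor k E}
    (hD : (Module.finrank k (riemannRochSpace D) : ℤ) = Divisor.degree D + 1 - g) :
    (Module.finrank k (riemannRochSpace (D + Finsupp.single Q 1)) : ℤ)
      = Divisor.degree (D + Finsupp.single Q 1) + 1 - g := by
  have h1 := (L_step (R.deg_one Q) D (L_finite R.deg_one D)).2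
  have h2 := R.ineq (D + Finsupp.single Q 1)
  have h3 : Divisor.degree (D + Finsupp.single Q 1) = Divisor.degree D + 1 := by
    rw [map_add, degree_single_one R.deg_one]
  have h1' : (Module.finrank k (riemannRochSpace (D + Finsupp.single Q 1)) : ℤ)
      ≤ (Module.finrank k (riemannRochSpace D) : ℤ) + 1 := by exact_mod_cast h1
  omega

omit [Infinite k] in
theorem h5712_nonspecial_add_nat (R : Riemann k E g) (Q : Place k E) (n : ℕ) {D : Divisor k E}
    (hD : (Module.finrank k (riemannRochSpace D) : ℤ) = Divisor.degree D + 1 - g) :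
    (Module.finrank k (riemannRochSpace (D + Finsupp.single Q (n : ℤ))) : ℤ)
      = Divisor.degree (D + Finsupp.single Q (n : ℤ)) + 1 - g := by
  induction n with
  | zero =>
      have e : D + Finsupp.single Q (((0 : ℕ) : ℤ)) = D := by simp
      rw [e]
      exact hD
  | succ n ih =>
      have h := h5712_nonspecial_add_one R Q ih
      have e : D + Finsupp.single Q ((n + 1 : ℕ) : ℤ)
          = D + Finsupp.single Q (n : ℤ) + Finsupp.single Q 1 := by
        rw [add_assoc, ← Finsupp.single_add]
        push_cast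
        rfl
      rw [e]
      exact h

omit [Infinite k] in
theorem h5712_nonspecial_add (R : Riemann k E g) (D' : Divisor k E) :
    (∀ Q, 0 ≤ D' Q) → ∀ D : Divisor k E,
      (Module.finrank k (riemannRochSpace D) : ℤ) = Divisor.degree D + 1 - g →
      (Module.finrank k (riemannRochSpace (D + D')) : ℤ) = Divisor.degree (D + D') + 1 - g := by
  classical
  induction D' using Finsupp.induction with
  | zero =>
      intro _ D hD
      rw [add_zero]
      exact hD
  | single_add Q n D'' hQ hn ih =>
      intro hnn D hD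
      have hQ0 : D'' Q = 0 := Finsupp.notMem_support_iff.mp hQ
      have hn0 : 0 ≤ n := by
        have := hnn Q
        rwa [Finsupp.add_apply, Finsupp.single_eq_same, hQ0, add_zero] at this
      have hD''nn : ∀ Q', 0 ≤ D'' Q' := by
        intro Q'
        by_cases hQ' : Q = Q'
        · rw [← hQ', hQ0]
        · have := hnn Q'
          rwa [Finsupp.add_apply, Finsupp.single_apply, if_neg hQ', zero_add] at this
      obtain ⟨m, rfl⟩ := Int.eq_ofNat_of_zero_le hn0
      have h1 := h5712_nonspecial_add_nat R Q m hD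
      have h2 := ih hD''nn (D + Finsupp.single Q (m : ℤ)) h1
      rwa [add_assoc] at h2

/-- (G5) A non-special divisor stays non-special after adding an effective divisor. -/
theorem finrank_L_add_of_nonspecial (R : Riemann k E g) {D D' : Divisor k E}
    (hD : (Module.finrank k (riemannRochSpace D) : ℤ) = Divisor.degree D + 1 - g)
    (hD' : ∀ Q, 0 ≤ D' Q) :
    (Module.finrank k (riemannRochSpace (D + D')) : ℤ) = Divisor.degree (D + D') + 1 - g :=
  h5712_nonspecial_add R D' hD' D hD

omit [Infinite k] [Nonempty (Place k E)] [HasPrincipalDivisors k E] in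
theorem h5712_sumDiv_apply {K F : Type*} [Field K] [Field F] [Algebra K F] {n : ℕ}
    (P : Fin n → Place K F) (P' : Place K F) :
    sumDiv P P' = ∑ i, (Finsupp.single (P i) (1 : ℤ)) P' := by
  rw [sumDiv, Finsupp.finset_sum_apply]

omit [Infinite k] [Nonempty (Place k E)] [HasPrincipalDivisors k E] in
theorem h5712_sumDiv_nonneg {K F : Type*} [Field K] [Field F] [Algebra K F] {n : ℕ}
    (P : Fin n → Place K F) (P' : Place K F) : 0 ≤ sumDiv P P' := by
  classical
  rw [h5712_sumDiv_apply]
  refine Finset.sum_nonneg fun i _ => ?_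
  rw [Finsupp.single_apply]
  split_ifs <;> norm_num

omit [Infinite k] [Nonempty (Place k E)] [HasPrincipalDivisors k E] in
theorem h5712_sumDiv_apply_self {K F : Type*} [Field K] [Field F] [Algebra K F] {n : ℕ}
    (P : Fin n → Place K F) (hP : Function.Injective P) (i : Fin n) : sumDiv P (P i) = 1 := by
  classical
  rw [h5712_sumDiv_apply, Finset.sum_eq_single i]
  · rw [Finsupp.single_eq_same]
  · intro j _ hji
    rw [Finsupp.single_apply, if_neg (fun h => hji (hP h))]
  · intro h
    exact absurd (Finset.mem_univ i) h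

omit [Infinite k] [Nonempty (Place k E)] [HasPrincipalDivisors k E] in
theorem h5712_sumDiv_apply_of_ne {K F : Type*} [Field K] [Field F] [Algebra K F] {n : ℕ}
    (P : Fin n → Place K F) (P' : Place K F) (h : ∀ i, P i ≠ P') : sumDiv P P' = 0 := by
  classical
  rw [h5712_sumDiv_apply]
  refine Finset.sum_eq_zero fun i _ => ?_
  rw [Finsupp.single_apply, if_neg (h i)]

/-- For a reduced non-special divisor, `l = 1`. -/
theorem finrank_L_sumDiv_of_nonspecial (R : Riemann k E g) {Q : Fin g → Place k E}
    (hQ : ∀ f ∈ riemannRochSpace (sumDiv Q), ∃ c : k, f = algebraMap k E c) :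
    Module.finrank k (riemannRochSpace (sumDiv Q)) = 1 := by
  have h1L : (1 : E) ∈ riemannRochSpace (sumDiv Q) := one_mem_L (h5712_sumDiv_nonneg Q)
  have hne : (⟨1, h1L⟩ : riemannRochSpace (sumDiv Q)) ≠ 0 := by
    intro h
    exact one_ne_zero (congrArg Subtype.val h)
  refine (finrank_eq_one_iff_of_nonzero' _ hne).mpr fun w => ?_
  obtain ⟨c, hc⟩ := hQ w.1 w.2
  refine ⟨c, Subtype.ext ?_⟩
  show c • (1 : E) = w.1
  rw [hc, Algebra.algebraMap_eq_smul_one]

/-- If `l(D) = 1` then the effective divisor linearly equivalent to `D` is unique. -/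
theorem eq_of_linEquiv_of_finrank_one (R : Riemann k E g) {D X X' : Divisor k E}
    (hD : Module.finrank k (riemannRochSpace D) = 1)
    (hX : LinEquiv X D) (hX' : LinEquiv X' D) (hX0 : ∀ Q, 0 ≤ X Q) (hX'0 : ∀ Q, 0 ≤ X' Q) :
    X = X' := by
  obtain ⟨u, hu0, hu⟩ := hX
  obtain ⟨u', hu'0, hu'⟩ := hX'
  have huL : u ∈ riemannRochSpace D := by
    rw [mem_riemannRochSpace_iff]
    intro v
    right
    have h1 := hu v
    have h2 := hX0 v
    omega
  have hu'L : u' ∈ riemannRochSpace D := by
    rw [mem_riemannRochSpace_iff]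
    intro v
    right
    have h1 := hu' v
    have h2 := hX'0 v
    omega
  have hne : (⟨u, huL⟩ : riemannRochSpace D) ≠ 0 := by
    intro h
    exact hu0 (congrArg Subtype.val h)
  obtain ⟨c, hc⟩ := (finrank_eq_one_iff_of_nonzero' _ hne).mp hD ⟨u', hu'L⟩
  have hc' : c • u = u' := congrArg Subtype.val hc
  have hc0 : c ≠ 0 := by
    rintro rfl
    rw [zero_smul] at hc'
    exact hu'0 hc'.symm
  ext P
  have h1 := hu P
  have h2 := hu' P
  have h3 : P.ord u' = P.ord u := by
    rw [← hc', Algebra.smul_def,
      P.ord_mul ((map_ne_zero_iff _ (algebraMap k E).injective).mpr hc0) hu0, ord_algebraMap,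
      zero_add]
  omega

omit [Infinite k] [Nonempty (Place k E)] [HasPrincipalDivisors k E] in
theorem h5712_mapDomain_apply {K F : Type*} [Field K] [Field F] [Algebra K F]
    (r : Place K F → Place k E) (X : Divisor K F) (Q' : Place k E) :
    Finsupp.mapDomain r X Q' = ∑ P ∈ X.support, (Finsupp.single (r P) (X P)) Q' := by
  rw [Finsupp.mapDomain, Finsupp.sum_apply]
  rfl

/-- An effective divisor of degree `n` which is a sum of `n` distinct places `Q i` with multiplicity one
after push-forward: structure of effective divisors with reduced image (used for `r_* R = Σ Rb_i`). -/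
theorem exists_points_of_mapDomain_eq_sumDiv {K F : Type*} [Field K] [Field F] [Algebra K F]
    (r : Place K F → Place k E) {n : ℕ} (Q : Fin n → Place k E) (hQ : Function.Injective Q)
    {X : Divisor K F} (hX0 : ∀ P, 0 ≤ X P) (hX : Finsupp.mapDomain r X = sumDiv Q) :
    ∃ P : Fin n → Place K F, (∀ i, r (P i) = Q i) ∧ X = sumDiv P := by
  classical
  -- nonnegativity of the terms
  have hterm : ∀ (Y : Divisor K F), (∀ P, 0 ≤ Y P) → ∀ (Q' : Place k E) (P : Place K F),
      0 ≤ (Finsupp.single (r P) (Y P)) Q' := by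
    intro Y hY Q' P
    rw [Finsupp.single_apply]
    split_ifs
    · exact hY P
    · exact le_rfl
  -- a point over each `Q i`
  have hex : ∀ i, ∃ P ∈ X.support, r P = Q i := by
    intro i
    by_contra hcon
    push Not at hcon
    have h1 : Finsupp.mapDomain r X (Q i) = 0 := by
      rw [h5712_mapDomain_apply]
      refine Finset.sum_eq_zero fun P hP => ?_
      rw [Finsupp.single_apply, if_neg (hcon P hP)]
    rw [hX, h5712_sumDiv_apply_self Q hQ i] at h1
    exact one_ne_zero h1
  choose P hPsupp hPr using hex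
  have hPinj : Function.Injective P := by
    intro i j hij
    apply hQ
    rw [← hPr i, ← hPr j, hij]
  refine ⟨P, hPr, ?_⟩
  -- the difference is effective with zero push-forward
  set Y : Divisor K F := X - sumDiv P with hY
  have hYnn : ∀ P', 0 ≤ Y P' := by
    intro P'
    rw [hY, Finsupp.sub_apply]
    by_cases hP' : ∃ i, P i = P'
    · obtain ⟨i, rfl⟩ := hP'
      rw [h5712_sumDiv_apply_self P hPinj i]
      have h1 : X (P i) ≠ 0 := Finsupp.mem_support_iff.mp (hPsupp i)
      have h2 := hX0 (P i)
      omega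
    · push Not at hP'
      rw [h5712_sumDiv_apply_of_ne P P' hP', sub_zero]
      exact hX0 P'
  have hmapP : Finsupp.mapDomain r (sumDiv P) = sumDiv Q := by
    rw [sumDiv, Finsupp.mapDomain_finset_sum]
    simp only [Finsupp.mapDomain_single, hPr]
    rfl
  have hYmap : Finsupp.mapDomain r Y = 0 := by
    rw [hY, Finsupp.mapDomain_sub, hX, hmapP, sub_self]
  have hY0 : Y = 0 := by
    ext P'
    rw [Finsupp.zero_apply]
    by_contra hne
    have hmem : P' ∈ Y.support := Finsupp.mem_support_iff.mpr hne
    have h1 : Finsupp.mapDomain r Y (r P') = 0 := by rw [hYmap, Finsupp.zero_apply]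
    rw [h5712_mapDomain_apply] at h1
    have h2 := Finset.single_le_sum (f := fun P => (Finsupp.single (r P) (Y P)) (r P'))
      (fun P _ => hterm Y hYnn (r P') P) hmem
    rw [h1] at h2
    simp only [Finsupp.single_eq_same] at h2
    have h3 := hYnn P'
    omega
  have := sub_eq_zero.mp (hY ▸ hY0)
  exact this

end Fermat.Agent.S19.Abs
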