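/-
S19 Abs, piece SFG-B: (G3) reduced non-special divisors off a finite set, (G4) moving lemma.
(G2): if i(E) > 0 then l(E + Q) = l(E) for all but finitely many Q; add points one at a time.
(G4): G := m Q0 + Σ_{Q ∈ T} D(Q) Q, f ∈ L(G) outside the proper subspaces L(G - Q), Q ∈ T (k infinite).
FROZEN STATEMENTS (helper5516 skeleton of the abstract geometry core of S19).
Proof sketches: origin/helper5516:notes/S19_GC_abstract_helper5516.md; protocol: notes/S19_ABS_BOARD_helper5516.md
-/
import Fermat.Agent.S19.Abs.SFGa

set_option autoImplicit false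

namespace Fermat.Agent.S19.Abs

open AlgebraicCurve Fermat.Agent.RIN

variable {k E : Type*} [Field k] [Field E] [Algebra k E]
variable [Infinite k] [Nonempty (Place k E)] [HasPrincipalDivisors k E]
variable {g : ℕ}

omit [Infinite k] [Nonempty (Place k E)] [HasPrincipalDivisors k E] in
/-- If `f ∈ L(D + Q) ∖ L(D)` then `f ≠ 0` and `ord_Q f = -D(Q) - 1`. -/
theorem h5712_ord_of_mem_of_not_mem {D : Divisor k E} {Q : Place k E} {f : E}
    (hf : f ∈ riemannRochSpace (D + Finsupp.single Q 1)) (hfD : f ∉ riemannRochSpace D) :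
    f ≠ 0 ∧ Q.ord f = -D Q - 1 := by
  classical
  have hf0 : f ≠ 0 := fun h => hfD (by rw [h]; exact Submodule.zero_mem _)
  refine ⟨hf0, ?_⟩
  rw [mem_riemannRochSpace_iff] at hf
  have h1 := (hf Q).resolve_left hf0
  rw [Finsupp.add_apply, Finsupp.single_eq_same] at h1
  by_contra hne
  apply hfD
  rw [mem_riemannRochSpace_iff]
  intro v
  right
  by_cases hv : v = Q
  · subst hv; omega
  · have h2 := (hf v).resolve_left hf0
    rw [Finsupp.add_apply, Finsupp.single_apply, if_neg (fun h => hv h.symm), add_zero] at h2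
    exact h2

omit [Infinite k] [Nonempty (Place k E)] [HasPrincipalDivisors k E] in
theorem h5712_degree_sum_single (R : Riemann k E g) (S : Finset (Place k E)) :
    Divisor.degree (∑ Q ∈ S, Finsupp.single Q (1 : ℤ)) = (S.card : ℤ) := by
  rw [map_sum]
  simp [degree_single_one R.deg_one]

omit [Infinite k] [Nonempty (Place k E)] [HasPrincipalDivisors k E] in
theorem h5712_sum_single_apply_of_notMem (S : Finset (Place k E)) {Q : Place k E} (hQ : Q ∉ S) :
    (∑ Q' ∈ S, Finsupp.single Q' (1 : ℤ)) Q = 0 := by
  classical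
  rw [Finsupp.finsetSum_apply]
  refine Finset.sum_eq_zero fun Q' hQ' => ?_
  rw [Finsupp.single_apply, if_neg (fun h : Q' = Q => hQ (h ▸ hQ'))]

omit [Infinite k] [Nonempty (Place k E)] [HasPrincipalDivisors k E] in
theorem h5712_sum_single_apply_nonneg (S : Finset (Place k E)) (P : Place k E) :
    0 ≤ (∑ Q' ∈ S, Finsupp.single Q' (1 : ℤ)) P := by
  classical
  rw [Finsupp.finsetSum_apply]
  refine Finset.sum_nonneg fun Q' _ => ?_
  rw [Finsupp.single_apply]
  split_ifs <;> norm_num

omit [Infinite k] [Nonempty (Place k E)] [HasPrincipalDivisors k E] in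
theorem h5712_L_le_add_single (D : Divisor k E) (Q : Place k E) :
    riemannRochSpace D ≤ riemannRochSpace (D + Finsupp.single Q 1) := by
  classical
  refine L_mono fun P => ?_
  rw [Finsupp.add_apply, Finsupp.single_apply]
  split_ifs <;> omega

omit [Infinite k] in
/-- If every point off `T'` raises `l(D)`, then `l(D + ΣS) ≥ l(D) + |S|` for `S` off `T'`. -/
theorem h5712_finrank_add_sum (R : Riemann k E g) (D : Divisor k E) (T' : Finset (Place k E))
    (hstep : ∀ Q ∉ T', ∃ f ∈ riemannRochSpace (D + Finsupp.single Q 1), f ∉ riemannRochSpace D)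
    (S : Finset (Place k E)) (hS : Disjoint S T') :
    Module.finrank k (riemannRochSpace D) + S.card
      ≤ Module.finrank k (riemannRochSpace (D + ∑ Q ∈ S, Finsupp.single Q (1 : ℤ))) := by
  classical
  induction S using Finset.induction_on with
  | empty => rw [Finset.sum_empty, add_zero, Finset.card_empty, Nat.add_zero]
  | insert Q S' hQS' ih =>
      have hQT : Q ∉ T' := Finset.disjoint_left.mp hS (Finset.mem_insert_self Q S')
      have hS' : Disjoint S' T' := hS.mono_left (Finset.subset_insert Q S')
      have ih' := ih hS'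
      obtain ⟨f, hf, hfD⟩ := hstep Q hQT
      obtain ⟨hf0, hord⟩ := h5712_ord_of_mem_of_not_mem hf hfD
      have hsum : D + ∑ Q' ∈ insert Q S', Finsupp.single Q' (1 : ℤ)
          = (D + ∑ Q' ∈ S', Finsupp.single Q' (1 : ℤ)) + Finsupp.single Q 1 := by
        rw [Finset.sum_insert hQS']; abel
      rw [hsum, Finset.card_insert_of_notMem hQS']
      have : FiniteDimensional k (riemannRochSpace
          ((D + ∑ Q' ∈ S', Finsupp.single Q' (1 : ℤ)) + Finsupp.single Q 1)) :=
        L_finite R.deg_one _
      have hle := h5712_L_le_add_single (D + ∑ Q' ∈ S', Finsupp.single Q' (1 : ℤ)) Q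
      have hfmem : f ∈ riemannRochSpace
          ((D + ∑ Q' ∈ S', Finsupp.single Q' (1 : ℤ)) + Finsupp.single Q 1) := by
        refine L_mono (fun P => ?_) hf
        rw [Finsupp.add_apply, Finsupp.add_apply, Finsupp.add_apply]
        have := h5712_sum_single_apply_nonneg S' P
        omega
      have hfnot : f ∉ riemannRochSpace (D + ∑ Q' ∈ S', Finsupp.single Q' (1 : ℤ)) := by
        intro hmem
        rw [mem_riemannRochSpace_iff] at hmem
        have h1 := (hmem Q).resolve_left hf0
        rw [Finsupp.add_apply, h5712_sum_single_apply_of_notMem S' hQS'] at h1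
        omega
      have hlt : riemannRochSpace (D + ∑ Q' ∈ S', Finsupp.single Q' (1 : ℤ))
          < riemannRochSpace ((D + ∑ Q' ∈ S', Finsupp.single Q' (1 : ℤ)) + Finsupp.single Q 1) :=
        lt_of_le_of_ne hle (fun h => hfnot (h ▸ hfmem))
      have := Submodule.finrank_lt_finrank_of_lt hlt
      omega

/-- (G2) If `D` is special (`l(D) > deg D + 1 - g`), then off any finite set there is a point `Q`
with `L(D + Q) = L(D)`. -/
theorem h5712_exists_stable (R : Riemann k E g) (D : Divisor k E)
    (hD : Divisor.degree D + 1 - g < (Module.finrank k (riemannRochSpace D) : ℤ))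
    (T' : Finset (Place k E)) :
    ∃ Q, Q ∉ T' ∧ riemannRochSpace (D + Finsupp.single Q 1) = riemannRochSpace D := by
  classical
  have := infinite_place R
  by_contra hcon
  push Not at hcon
  have hstep : ∀ Q ∉ T', ∃ f ∈ riemannRochSpace (D + Finsupp.single Q 1),
      f ∉ riemannRochSpace D := by
    intro Q hQ
    by_contra hall
    push Not at hall
    exact hcon Q hQ (le_antisymm hall (h5712_L_le_add_single D Q))
  obtain ⟨c, hc⟩ := R.eq_large
  set n : ℕ := (c - Divisor.degree D).toNat with hn
  obtain ⟨t, hTt, htcard⟩ := Infinite.exists_superset_card_eq T' (n + T'.card) (by omega)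
  have hScard : (t \ T').card = n := by
    rw [Finset.card_sdiff_of_subset hTt, htcard]; omega
  have hdisj : Disjoint (t \ T') T' := Finset.sdiff_disjoint
  have h1 := h5712_finrank_add_sum R D T' hstep (t \ T') hdisj
  have hdeg : Divisor.degree (D + ∑ Q ∈ t \ T', Finsupp.single Q (1 : ℤ))
      = Divisor.degree D + n := by
    rw [map_add, h5712_degree_sum_single R, hScard]
  have h2 := hc (D + ∑ Q ∈ t \ T', Finsupp.single Q (1 : ℤ)) (by rw [hdeg]; omega)
  rw [hdeg] at h2
  rw [hScard] at h1
  have h1' : (Module.finrank k (riemannRochSpace D) : ℤ) + n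
      ≤ (Module.finrank k (riemannRochSpace
          (D + ∑ Q ∈ t \ T', Finsupp.single Q (1 : ℤ))) : ℤ) := by
    exact_mod_cast h1
  omega

omit [Infinite k] in
theorem h5712_finrank_L_zero (R : Riemann k E g) :
    Module.finrank k (riemannRochSpace (0 : Divisor k E)) = 1 := by
  have h1L : (1 : E) ∈ riemannRochSpace (0 : Divisor k E) := one_mem_L (fun _ => le_rfl)
  have : FiniteDimensional k (riemannRochSpace (0 : Divisor k E)) := L_finite R.deg_one 0
  have hle : (Module.finrank k (riemannRochSpace (0 : Divisor k E)) : ℤ) ≤ 1 := by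
    have := finrank_L_le R.deg_one (D := (0 : Divisor k E)) (fun _ => le_rfl)
    simpa using this
  have hne : (⟨1, h1L⟩ : riemannRochSpace (0 : Divisor k E)) ≠ 0 := by
    intro h
    exact one_ne_zero (congrArg Subtype.val h)
  have hpos : 0 < Module.finrank k (riemannRochSpace (0 : Divisor k E)) :=
    Module.finrank_pos_iff_exists_ne_zero.mpr ⟨_, hne⟩
  omega

theorem h5712_exists_partial (R : Riemann k E g) (T : Finset (Place k E)) :
    ∀ j : ℕ, j ≤ g → ∃ Q : Fin j → Place k E, Function.Injective Q ∧ (∀ i, Q i ∉ T) ∧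
      riemannRochSpace (sumDiv Q) = riemannRochSpace (0 : Divisor k E) := by
  classical
  intro j
  induction j with
  | zero =>
      intro _
      refine ⟨Fin.elim0, fun i => i.elim0, fun i => i.elim0, ?_⟩
      have : sumDiv (Fin.elim0 : Fin 0 → Place k E) = 0 := by
        rw [sumDiv]; simp
      rw [this]
  | succ j ih =>
      intro hj
      obtain ⟨Q, hQinj, hQT, hQL⟩ := ih (by omega)
      have hdeg : Divisor.degree (sumDiv Q) = j := by
        rw [sumDiv, map_sum]; simp [degree_single_one R.deg_one]
      have hfin : Module.finrank k (riemannRochSpace (sumDiv Q)) = 1 := by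
        rw [hQL]; exact h5712_finrank_L_zero R
      obtain ⟨Q', hQ', hL⟩ := h5712_exists_stable R (sumDiv Q)
        (by rw [hdeg, hfin]; push_cast; omega) (T ∪ Finset.univ.image Q)
      refine ⟨Fin.cons Q' Q, ?_, ?_, ?_⟩
      · rw [Fin.cons_injective_iff]
        refine ⟨?_, hQinj⟩
        rintro ⟨i, hi⟩
        exact hQ' (Finset.mem_union_right _ (Finset.mem_image.mpr ⟨i, Finset.mem_univ _, hi⟩))
      · intro i
        refine Fin.cases ?_ (fun i' => ?_) i
        · rw [Fin.cons_zero]; exact fun h => hQ' (Finset.mem_union_left _ h)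
        · rw [Fin.cons_succ]; exact hQT i'
      · have : sumDiv (Fin.cons Q' Q : Fin (j + 1) → Place k E)
            = sumDiv Q + Finsupp.single Q' 1 := by
          rw [sumDiv, Fin.sum_univ_succ, sumDiv]
          simp only [Fin.cons_zero, Fin.cons_succ]
          rw [add_comm]
        rw [this, hL, hQL]

/-- (G3) Reduced non-special divisors of degree `g` exist off any finite set. -/
theorem exists_nonspecial (R : Riemann k E g) (T : Finset (Place k E)) :
    ∃ Q : Fin g → Place k E, Function.Injective Q ∧ (∀ i, Q i ∉ T) ∧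
      ∀ f ∈ riemannRochSpace (sumDiv Q), ∃ c : k, f = algebraMap k E c := by
  obtain ⟨Q, hinj, hT, hL⟩ := h5712_exists_partial R T g le_rfl
  refine ⟨Q, hinj, hT, ?_⟩
  intro f hf
  rw [hL, mem_riemannRochSpace_iff] at hf
  rcases eq_or_ne f 0 with rfl | hf0
  · exact ⟨0, by rw [map_zero]⟩
  · apply h5712_const_of_ord_nonneg R
    intro v
    have := (hf v).resolve_left hf0
    rw [Finsupp.zero_apply] at this
    omega

omit [Infinite k] in
/-- For `deg G` large, `G` is the tight bound of `L(G)`. -/
theorem h5712_isTight_L (R : Riemann k E g) {c : ℤ}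
    (hc : ∀ D : Divisor k E, c ≤ Divisor.degree D →
      (Module.finrank k (riemannRochSpace D) : ℤ) ≤ Divisor.degree D + 1 - g)
    (G : Divisor k E) (hG : c + 1 ≤ Divisor.degree G) :
    IsTight (riemannRochSpace G) G := by
  classical
  refine ⟨?_, ?_⟩
  · intro f hf hf0 Q
    rw [mem_riemannRochSpace_iff] at hf
    exact (hf Q).resolve_left hf0
  · intro Q
    have hdeg : Divisor.degree (G - Finsupp.single Q 1) = Divisor.degree G - 1 := by
      rw [map_sub, degree_single_one R.deg_one]
    have h1 := hc (G - Finsupp.single Q 1) (by rw [hdeg]; omega)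
    rw [hdeg] at h1
    have h2 := R.ineq G
    have : FiniteDimensional k (riemannRochSpace (G - Finsupp.single Q 1)) :=
      L_finite R.deg_one _
    have hex : ∃ f ∈ riemannRochSpace G, f ∉ riemannRochSpace (G - Finsupp.single Q 1) := by
      by_contra hall
      push Not at hall
      have h3 := Submodule.finrank_mono (show riemannRochSpace G
        ≤ riemannRochSpace (G - Finsupp.single Q 1) from hall)
      omega
    obtain ⟨f, hf, hfn⟩ := hex
    have hf0 : f ≠ 0 := fun h => hfn (by rw [h]; exact Submodule.zero_mem _)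
    refine ⟨f, hf, hf0, ?_⟩
    rw [mem_riemannRochSpace_iff] at hf
    have h4 := (hf Q).resolve_left hf0
    by_contra hne
    apply hfn
    rw [mem_riemannRochSpace_iff]
    intro v
    right
    rw [Finsupp.sub_apply]
    by_cases hv : v = Q
    · subst hv
      rw [Finsupp.single_eq_same]
      omega
    · have h5 := (hf v).resolve_left hf0
      rw [Finsupp.single_apply, if_neg (fun h => hv h.symm), sub_zero]
      exact h5

/-- (G4) Moving lemma: every divisor is linearly equivalent to one whose support avoids a given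
finite set. -/
theorem exists_move (R : Riemann k E g) (D : Divisor k E) (T : Finset (Place k E)) :
    ∃ D' : Divisor k E, LinEquiv D' D ∧ ∀ Q ∈ T, D' Q = 0 := by
  classical
  have := infinite_place R
  obtain ⟨Q0, hQ0⟩ := Infinite.exists_notMem_finset T
  obtain ⟨c, hc⟩ := R.eq_large
  have hdegG : Divisor.degree (D + Finsupp.single Q0 (c + 1 - Divisor.degree D))
      = c + 1 := by
    rw [map_add, degree_single_one R.deg_one]; ring
  have htight : IsTight (riemannRochSpace (D + Finsupp.single Q0 (c + 1 - Divisor.degree D)))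
      (D + Finsupp.single Q0 (c + 1 - Divisor.degree D)) :=
    h5712_isTight_L R hc _ (by rw [hdegG])
  have hne : riemannRochSpace (D + Finsupp.single Q0 (c + 1 - Divisor.degree D)) ≠ ⊥ := by
    obtain ⟨f, hf, hf0, -⟩ := htight.2 Q0
    intro hbot
    rw [hbot] at hf
    exact hf0 ((Submodule.mem_bot k).mp hf)
  have : FiniteDimensional k
      (riemannRochSpace (D + Finsupp.single Q0 (c + 1 - Divisor.degree D))) :=
    L_finite R.deg_one _
  obtain ⟨f, -, hf0, hord⟩ := htight.exists_generic hne T
  refine ⟨D + divOf k f, ⟨f, hf0, fun P => ?_⟩, ?_⟩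
  · rw [Finsupp.add_apply, divOf_apply]; ring
  · intro Q hQ
    rw [Finsupp.add_apply, divOf_apply, hord Q hQ, Finsupp.add_apply, Finsupp.single_apply,
      if_neg (fun h : Q0 = Q => hQ0 (h ▸ hQ))]
    ring

end Fermat.Agent.S19.Abs
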