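/- S19 Abs, package SFG (aggregator; see the piece files). -/
import Fermat.Agent.S19.Abs.SFGa
import Fermat.Agent.S19.Abs.SFGb
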