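/-
S19, abstract geometry core, package FLIP.
FROZEN STATEMENTS (helper5516 skeleton).  Proofs: notes/S19_GC_abstract_helper5516.md, section 5.
`flip` uses RT (RT3, RT4, RT5, RT6), FSC (Cramer, Newton, inverse) and conservation.
PROVED by helper6527 (helpers `flip6527_*` in this file): lattice basis (RT3), evaluation matrix in `C`
(RT6 + `polyEval_mem`), signed minors (Cramer), conservation + uniqueness of the effective divisor,
LOCATE by Newton on the finite set (two extra points of the disc give the unit derivative).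
-/
import Fermat.Agent.S19.Abs.RT
import Fermat.Agent.S19.Abs.SFG
import Fermat.Agent.S19.Abs.FSC

set_option autoImplicit false

namespace Fermat.Agent.S19.Abs

open AlgebraicCurve Fermat.Agent.RIN

section algebra

theorem flip6527_det_mem {A R : Type*} [CommRing A] [CommRing R] [Algebra A R] (C : Subalgebra A R)
    {n : Type*} [Fintype n] [DecidableEq n] (M : Matrix n n R) (hM : ∀ i j, M i j ∈ C) :
    M.det ∈ C := by
  rw [Matrix.det_apply]
  refine C.sum_mem (fun σ _ => ?_)
  have h1 : ∏ i, M (σ i) i ∈ C := C.prod_mem (fun i _ => hM _ _)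
  rcases Int.units_eq_one_or (Equiv.Perm.sign σ) with h | h
  · rw [h, one_smul]; exact h1
  · rw [h, Units.neg_smul, one_smul]; exact C.neg_mem h1

theorem flip6527_minor_map {R R' : Type*} [CommRing R] [CommRing R'] (f : R →+* R') {e : ℕ}
    (M : Matrix (Fin e) (Fin (e + 1)) R) (i : Fin (e + 1)) :
    f ((-1) ^ (i : ℕ) * (M.submatrix id i.succAbove).det) =
      (-1) ^ (i : ℕ) * ((M.map f).submatrix id i.succAbove).det := by
  rw [map_mul, map_pow, map_neg, map_one, RingHom.map_det]
  rfl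

theorem flip6527_eval_eq_sum_fin {R : Type*} [CommRing R] (q : Polynomial R) (d : ℕ)
    (hd : q.natDegree ≤ d) (x : R) :
    q.eval x = ∑ m : Fin (d + 1), q.coeff m * x ^ (m : ℕ) := by
  rw [Polynomial.eval_eq_sum_range' (Nat.lt_succ_of_le hd),
    Fin.sum_univ_eq_sum_range (fun m => q.coeff m * x ^ m)]

theorem flip6527_derivative_eval_eq_sum_fin {R : Type*} [CommRing R] (q : Polynomial R) (d : ℕ)
    (hd : q.natDegree ≤ d) (x : R) :
    q.derivative.eval x = ∑ m : Fin (d + 1), (m : ℕ) * q.coeff m * x ^ ((m : ℕ) - 1) := by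
  rw [Polynomial.derivative_eval,
    Polynomial.sum_over_range' q (f := fun n a => a * (n : R) * x ^ (n - 1))
      (fun n => by simp) (d + 1) (Nat.lt_succ_of_le hd),
    Fin.sum_univ_eq_sum_range (fun m => (m : R) * q.coeff m * x ^ (m - 1))]
  exact Finset.sum_congr rfl fun m _ => by ring

theorem flip6527_taylor {K : Type*} [Field K] (A : ValuationSubring K) (p : Polynomial K)
    (hp : ∀ n, p.coeff n ∈ A) {x y : K} (hx : x ∈ A) (hy : y ∈ A) :
    ∃ w ∈ A, p.eval y = p.eval x + p.derivative.eval x * (y - x) + w * (y - x) ^ 2 := by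
  have hl : p ∈ Polynomial.lifts A.subtype := by
    rw [Polynomial.lifts_iff_coeff_lifts]
    intro n
    exact ⟨⟨p.coeff n, hp n⟩, rfl⟩
  obtain ⟨q, rfl⟩ := (Polynomial.mem_lifts p).mp hl
  have key : ∀ (q' : Polynomial A) (a : A), (q'.map A.subtype).eval (a : K) = ((q'.eval a : A) : K) := by
    intro q' a
    rw [Polynomial.eval_map]
    exact Polynomial.eval₂_at_apply A.subtype a
  obtain ⟨w, hw⟩ := Polynomial.binomExpansion q (⟨x, hx⟩ : A) (⟨y, hy⟩ - ⟨x, hx⟩)
  refine ⟨w, w.2, ?_⟩
  have h1 := congrArg (Subtype.val) hw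
  rw [add_sub_cancel] at h1
  have e1 := key q ⟨y, hy⟩
  have e2 := key q ⟨x, hx⟩
  have e3 := key (Polynomial.derivative q) ⟨x, hx⟩
  rw [Polynomial.derivative_map] 
  simp only at e1 e2 e3
  rw [e1, e2, e3, h1]
  push_cast
  ring

/-- an element of a valuation ring congruent to a unit modulo the maximal ideal is a unit -/
theorem flip6527_unit_of_sub_nonunit {K : Type*} [Field K] (A : ValuationSubring K) {u v m : K}
    (hu : u ∈ A) (hv : v ∈ A) (huv : u * v = 1) (hm : m ∈ A.nonunits) :
    ∃ v' ∈ A, (u - m) * v' = 1 := by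
  have hu1 : A.valuation u = 1 := by
    have h1 : A.valuation u ≤ 1 := (A.valuation_le_one_iff u).mpr hu
    have h2 : A.valuation v ≤ 1 := (A.valuation_le_one_iff v).mpr hv
    have h3 : A.valuation u * A.valuation v = 1 := by rw [← map_mul, huv, map_one]
    rcases h1.lt_or_eq with h | h
    · exfalso
      have : A.valuation u * A.valuation v < 1 := by
        calc A.valuation u * A.valuation v ≤ A.valuation u * 1 := mul_le_mul' le_rfl h2
          _ = A.valuation u := mul_one _
          _ < 1 := h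
      rw [h3] at this
      exact lt_irrefl _ this
    · exact h
  have hm1 : A.valuation m < 1 := (A.mem_nonunits_iff).mp hm
  have h4 : A.valuation (u - m) = 1 := by
    rw [Valuation.map_sub_eq_of_lt_left _ (by rw [hu1]; exact hm1), hu1]
  have hne : u - m ≠ 0 := by
    intro h0
    rw [h0, map_zero] at h4
    exact zero_ne_one h4
  refine ⟨(u - m)⁻¹, ?_, mul_inv_cancel₀ hne⟩
  rw [← A.valuation_le_one_iff, map_inv₀, h4, inv_one]

theorem flip6527_zero_mem_nonunits {K : Type*} [Field K] (A : ValuationSubring K) :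
    (0 : K) ∈ A.nonunits := by
  rw [A.mem_nonunits_iff, map_zero]
  exact zero_lt_one

theorem flip6527_sub_mem_nonunits {K : Type*} [Field K] (A : ValuationSubring K) {x y : K}
    (hx : x ∈ A.nonunits) (hy : y ∈ A.nonunits) : x - y ∈ A.nonunits := by
  rw [A.mem_nonunits_iff] at hx hy ⊢
  exact lt_of_le_of_lt (Valuation.map_sub _ _ _) (max_lt hx hy)

theorem flip6527_mul_mem_nonunits {K : Type*} [Field K] (A : ValuationSubring K) {x y : K}
    (hx : x ∈ A) (hy : y ∈ A.nonunits) : x * y ∈ A.nonunits := by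
  rw [A.mem_nonunits_iff] at hy ⊢
  rw [map_mul]
  have h1 : A.valuation x ≤ 1 := (A.valuation_le_one_iff x).mpr hx
  calc A.valuation x * A.valuation y ≤ 1 * A.valuation y := mul_le_mul' h1 le_rfl
    _ = A.valuation y := one_mul _
    _ < 1 := hy

theorem flip6527_nonunits_le {K : Type*} [Field K] (A : ValuationSubring K) {x : K}
    (hx : x ∈ A.nonunits) : x ∈ A := by
  rw [A.mem_nonunits_iff] at hx
  exact (A.valuation_le_one_iff x).mp hx.le

end algebra

section general

variable {K F k Fb : Type*} [Field K] [Field F] [Algebra K F] [Field k] [Field Fb] [Algebra k Fb]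

theorem flip6527_mapDomain_nonneg (r : Place K F → Place k Fb) {X : Divisor K F}
    (hX : ∀ P, 0 ≤ X P) (Q : Place k Fb) : 0 ≤ Finsupp.mapDomain r X Q := by
  classical
  rw [Finsupp.mapDomain, Finsupp.sum_apply]
  refine Finset.sum_nonneg (fun P _ => ?_)
  show 0 ≤ (Finsupp.single (r P) (X P)) Q
  rw [Finsupp.single_apply]
  split_ifs
  · exact hX P
  · exact le_rfl

theorem flip6527_mapDomain_sub (r : Place K F → Place k Fb) (D E : Divisor K F) :
    Finsupp.mapDomain r (D - E) = Finsupp.mapDomain r D - Finsupp.mapDomain r E := by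
  rw [← Finsupp.mapDomain.addMonoidHom_apply, map_sub, Finsupp.mapDomain.addMonoidHom_apply,
    Finsupp.mapDomain.addMonoidHom_apply]

theorem flip6527_mapDomain_sumDiv (r : Place K F → Place k Fb) {n : ℕ} (P : Fin n → Place K F) :
    Finsupp.mapDomain r (sumDiv P) = sumDiv (fun i => r (P i)) := by
  unfold sumDiv
  rw [Finsupp.mapDomain_finsetSum]
  exact Finset.sum_congr rfl (fun i _ => Finsupp.mapDomain_single)

theorem flip6527_mapDomain_apply_eq_zero (r : Place K F → Place k Fb) {D : Divisor K F}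
    {Q : Place k Fb} (h : ∀ P, D P ≠ 0 → r P ≠ Q) : Finsupp.mapDomain r D Q = 0 := by
  classical
  rw [Finsupp.mapDomain, Finsupp.sum_apply]
  refine Finset.sum_eq_zero (fun P hP => ?_)
  show (Finsupp.single (r P) (D P)) Q = 0
  rw [Finsupp.single_apply, if_neg]
  exact h P (Finsupp.mem_support_iff.mp hP)

theorem flip6527_sumDiv_nonneg {n : ℕ} (P : Fin n → Place K F) (v : Place K F) :
    0 ≤ sumDiv P v := by
  classical
  unfold sumDiv
  rw [Finsupp.finsetSum_apply]
  refine Finset.sum_nonneg (fun i _ => ?_)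
  rw [Finsupp.single_apply]
  split_ifs <;> simp

theorem flip6527_sumDiv_apply_of_ne {n : ℕ} (P : Fin n → Place K F) (v : Place K F)
    (h : ∀ i, P i ≠ v) : sumDiv P v = 0 := by
  classical
  unfold sumDiv
  rw [Finsupp.finsetSum_apply]
  refine Finset.sum_eq_zero (fun i _ => ?_)
  rw [Finsupp.single_apply, if_neg (h i)]

theorem flip6527_sumDiv_apply_of_injective {n : ℕ} (P : Fin n → Place K F)
    (hP : Function.Injective P) (i : Fin n) : sumDiv P (P i) = 1 := by
  classical
  unfold sumDiv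
  rw [Finsupp.finsetSum_apply, Finset.sum_eq_single i]
  · simp
  · intro j _ hj
    rw [Finsupp.single_apply, if_neg (fun h => hj (hP h))]
  · intro h; exact absurd (Finset.mem_univ i) h

theorem flip6527_one_le_sumDiv_apply {n : ℕ} (P : Fin n → Place K F) (i : Fin n) :
    1 ≤ sumDiv P (P i) := by
  classical
  unfold sumDiv
  rw [Finsupp.finsetSum_apply]
  have h1 : (Finsupp.single (P i) (1 : ℤ)) (P i) ≤
      ∑ j : Fin n, (Finsupp.single (P j) (1 : ℤ)) (P i) :=
    Finset.single_le_sum (f := fun j => (Finsupp.single (P j) (1 : ℤ)) (P i))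
      (fun j _ => by
        show 0 ≤ (Finsupp.single (P j) (1 : ℤ)) (P i)
        rw [Finsupp.single_apply]; split_ifs <;> simp) (Finset.mem_univ i)
  simpa using h1

/-- value zero means membership in the maximal ideal -/
theorem flip6527_hasValue_zero_iff {P : Place K F} {f : F} :
    HasValue P f 0 ↔ f ∈ P.toValuationSubring.nonunits := by
  unfold HasValue
  rw [map_zero, sub_zero]

theorem flip6527_ord_pos_of_mem_nonunits {P : Place K F} {f : F} (hf0 : f ≠ 0)
    (hf : f ∈ P.toValuationSubring.nonunits) : 0 < P.ord f := by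
  obtain ⟨hmem, hmax⟩ := (ValuationSubring.mem_nonunits_iff_exists_mem_maximalIdeal).mp hf
  exact ord_pos_of_not_isUnit P hf0 hmem (by
    rwa [IsLocalRing.mem_maximalIdeal, mem_nonunits_iff] at hmax)

theorem flip6527_mem_nonunits_of_ord_pos {P : Place K F} {f : F} (h : 0 < P.ord f) :
    f ∈ P.toValuationSubring.nonunits := by
  have hmem : f ∈ P.toValuationSubring := mem_of_ord_nonneg P h.le
  rw [ValuationSubring.mem_nonunits_iff_exists_mem_maximalIdeal]
  refine ⟨hmem, ?_⟩
  rw [IsLocalRing.mem_maximalIdeal, mem_nonunits_iff]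
  intro hu
  have h1 := P.ord_coe_unit hu.unit
  have e : ((hu.unit : P.toValuationSubring) : F) = f := by rw [IsUnit.unit_spec]
  rw [e] at h1
  omega

theorem flip6527_regOn (r : Place K F → Place k Fb) {D : Divisor K F} {Q : Place k Fb}
    (h : ∀ P, D P ≠ 0 → r P ≠ Q) {f : F} (hf : f ∈ riemannRochSpace D) : RegOn r Q f := by
  intro P hP
  have hD : D P = 0 := by
    by_contra hne
    exact h P hne hP
  rcases (mem_riemannRochSpace_iff.mp hf) P with h0 | h1
  · rw [h0]; exact zero_mem _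
  · rw [hD, neg_zero] at h1
    exact mem_of_ord_nonneg P h1

end general


section values

variable {K F : Type*} [Field K] [Field F] [Algebra K F]

theorem flip6527_hasValue_sum {P : Place K F} {ι : Type*} (s : Finset ι) (f : ι → F) (c : ι → K)
    (h : ∀ i ∈ s, HasValue P (f i) (c i)) : HasValue P (∑ i ∈ s, f i) (∑ i ∈ s, c i) := by
  classical
  induction s using Finset.induction_on with
  | empty =>
    simp only [Finset.sum_empty]
    have := hasValue_algebraMap P (0 : K)
    rwa [map_zero] at this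
  | insert a s ha ih =>
    rw [Finset.sum_insert ha, Finset.sum_insert ha]
    exact (h a (Finset.mem_insert_self a s)).add (ih fun i hi => h i (Finset.mem_insert_of_mem hi))

theorem flip6527_hasValue_smul {P : Place K F} {f : F} {c : K} (a : K) (h : HasValue P f c) :
    HasValue P (a • f) (a * c) := by
  rw [Algebra.smul_def]
  exact (hasValue_algebraMap P a).mul h

theorem flip6527_hasValue_lincomb {P : Place K F} {n : ℕ} (a : Fin n → K) (f : Fin n → F)
    (c : Fin n → K) (h : ∀ i, HasValue P (f i) (c i)) :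
    HasValue P (∑ i, a i • f i) (∑ i, a i * c i) :=
  flip6527_hasValue_sum _ _ _ fun i _ => flip6527_hasValue_smul (a i) (h i)

end values

section special

variable {K F k Fb : Type*} [Field K] [Field F] [Algebra K F] [Field k] [Field Fb] [Algebra k Fb]
variable {O : ValuationSubring F} {red : O →+* Fb} {hO : IsConstRed K k O red}
variable [Infinite k] [Nonempty (Place K F)] [Nonempty (Place k Fb)]
  [HasPrincipalDivisors K F] [HasPrincipalDivisors k Fb]
variable {g : ℕ} {r : Place K F → Place k Fb} {ϖ : K}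

theorem flip6527_red_mem_valuationSubring (H : Setup hO g r ϖ) {D : Divisor K F} {Q : Place k Fb}
    (hsupp : ∀ P, D P ≠ 0 → r P ≠ Q) {f : F} (hf : f ∈ riemannRochSpace D) (hfO : f ∈ O) :
    red ⟨f, hfO⟩ ∈ Q.toValuationSubring := by
  have h1 := red_mem_L H D hf hfO
  have h0 : Finsupp.mapDomain r D Q = 0 := flip6527_mapDomain_apply_eq_zero r hsupp
  rcases (mem_riemannRochSpace_iff.mp h1) Q with h2 | h2
  · rw [h2]; exact zero_mem _
  · rw [h0, neg_zero] at h2
    exact mem_of_ord_nonneg Q h2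

theorem flip6527_hasValue_red (H : Setup hO g r ϖ) {D : Divisor K F} {Q : Place k Fb}
    (hsupp : ∀ P, D P ≠ 0 → r P ≠ Q) {f : F} (hf : f ∈ riemannRochSpace D) (hfO : f ∈ O) :
    HasValue Q (red ⟨f, hfO⟩) (evalAt Q (red ⟨f, hfO⟩)) :=
  hasValue_evalAt (H.hyp.degFb Q) (flip6527_red_mem_valuationSubring H hsupp hf hfO)

theorem flip6527_red_evalAt (H : Setup hO g r ϖ) {D : Divisor K F} {Q : Place k Fb}
    (hsupp : ∀ P, D P ≠ 0 → r P ≠ Q) {f : F} (hf : f ∈ riemannRochSpace D) (hfO : f ∈ O)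
    {P : Place K F} (hP : r P = Q) :
    ∃ hc : algebraMap K F (evalAt P f) ∈ O,
      red ⟨algebraMap K F (evalAt P f), hc⟩ = algebraMap k Fb (evalAt Q (red ⟨f, hfO⟩)) := by
  obtain ⟨c, hc, hval, -, hdiff⟩ := eval_red H hfO (flip6527_regOn r hsupp hf) hP
  obtain ⟨cb, hcb⟩ := hO.const c hc
  have e1 : evalAt P f = c := hval.evalAt_eq
  have h2 : HasValue Q (red ⟨f, hfO⟩) cb := by
    unfold HasValue
    rw [← hcb]
    exact hdiff
  have e2 : evalAt Q (red ⟨f, hfO⟩) = cb := h2.evalAt_eq
  rw [e1, e2]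
  exact ⟨hc, hcb⟩

theorem flip6527_mem_L_sub (H : Setup hO g r ϖ) {D : Divisor K F} {e : ℕ}
    (Q : Fin e → Place k Fb) (hQ : Function.Injective Q)
    (hsuppQ : ∀ P, D P ≠ 0 → ∀ j, r P ≠ Q j)
    {n : ℕ} (φ : Fin n → F) (hφO : ∀ i, φ i ∈ O) (hφL : ∀ i, φ i ∈ riemannRochSpace D)
    (b : Fin n → k)
    (hb : ∀ j, ∑ i, evalAt (Q j) (red ⟨φ i, hφO i⟩) * b i = 0) :
    ∑ i, b i • red ⟨φ i, hφO i⟩ ∈ riemannRochSpace (Finsupp.mapDomain r D - sumDiv Q) := by
  set f : Fb := ∑ i, b i • red ⟨φ i, hφO i⟩ with hf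
  have hfL : f ∈ riemannRochSpace (Finsupp.mapDomain r D) :=
    Submodule.sum_mem _ fun i _ => Submodule.smul_mem _ _ (red_mem_L H D (hφL i) (hφO i))
  have hval : ∀ j, HasValue (Q j) f 0 := by
    intro j
    have h1 := flip6527_hasValue_lincomb (P := Q j) b (fun i => red ⟨φ i, hφO i⟩)
      (fun i => evalAt (Q j) (red ⟨φ i, hφO i⟩))
      (fun i => flip6527_hasValue_red H (fun P hP => hsuppQ P hP j) (hφL i) (hφO i))
    have h2 : ∑ i, b i * evalAt (Q j) (red ⟨φ i, hφO i⟩) = 0 := by
      rw [← hb j]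
      exact Finset.sum_congr rfl fun i _ => mul_comm _ _
    rwa [h2] at h1
  rw [mem_riemannRochSpace_iff]
  intro v
  by_cases hf0 : f = 0
  · exact Or.inl hf0
  right
  rw [Finsupp.sub_apply]
  by_cases hv : ∃ j, Q j = v
  · obtain ⟨j, rfl⟩ := hv
    rw [flip6527_sumDiv_apply_of_injective Q hQ j,
      flip6527_mapDomain_apply_eq_zero r (fun P hP => hsuppQ P hP j)]
    have := flip6527_ord_pos_of_mem_nonunits hf0 (flip6527_hasValue_zero_iff.mp (hval j))
    omega
  · push Not at hv
    rw [flip6527_sumDiv_apply_of_ne Q v hv, sub_zero]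
    rcases (mem_riemannRochSpace_iff.mp hfL) v with h | h
    · exact absurd h hf0
    · exact h

theorem flip6527_rows_indep (H : Setup hO g r ϖ) {D : Divisor K F} {e : ℕ}
    (Q : Fin e → Place k Fb) (hQ : Function.Injective Q)
    (hsuppQ : ∀ P, D P ≠ 0 → ∀ j, r P ≠ Q j)
    (hl1 : Module.finrank k (riemannRochSpace (Finsupp.mapDomain r D - sumDiv Q)) = 1)
    (φ : Fin (e + 1) → F) (hφO : ∀ i, φ i ∈ O) (hφL : ∀ i, φ i ∈ riemannRochSpace D)
    (hind : LinearIndependent k (fun i => red ⟨φ i, hφO i⟩)) :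
    LinearIndependent k
      (fun j : Fin e => fun i : Fin (e + 1) => evalAt (Q j) (red ⟨φ i, hφO i⟩)) := by
  classical
  set Mk : Matrix (Fin e) (Fin (e + 1)) k :=
    Matrix.of fun j i => evalAt (Q j) (red ⟨φ i, hφO i⟩) with hMk
  set W := riemannRochSpace (Finsupp.mapDomain r D - sumDiv Q) with hW
  have : FiniteDimensional k W := Module.finite_of_finrank_pos (by rw [hl1]; exact one_pos)
  -- the map from the kernel of `Mk` to `W`
  let Φ : (Fin (e + 1) → k) →ₗ[k] (Fin e → k) := Mk.mulVecLin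
  have hker : ∀ b ∈ LinearMap.ker Φ, ∑ i, b i • red ⟨φ i, hφO i⟩ ∈ W := by
    intro b hb
    refine flip6527_mem_L_sub H Q hQ hsuppQ φ hφO hφL b (fun j => ?_)
    have := congrFun (LinearMap.mem_ker.mp hb) j
    simpa [Φ, Matrix.mulVecLin_apply, Matrix.mulVec, dotProduct, hMk] using this
  let ι : LinearMap.ker Φ →ₗ[k] W :=
    { toFun := fun b => ⟨∑ i, (b : Fin (e + 1) → k) i • red ⟨φ i, hφO i⟩, hker b b.2⟩
      map_add' := by
        intro b b'
        apply Subtype.ext
        simp [add_smul, Finset.sum_add_distrib]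
      map_smul' := by
        intro a b
        apply Subtype.ext
        simp [Finset.smul_sum, smul_smul] }
  have hιinj : Function.Injective ι := by
    rw [← LinearMap.ker_eq_bot, LinearMap.ker_eq_bot']
    intro b hb
    have h0 : ∑ i, (b : Fin (e + 1) → k) i • red ⟨φ i, hφO i⟩ = 0 := congrArg Subtype.val hb
    have h1 := Fintype.linearIndependent_iff.mp hind _ h0
    apply Subtype.ext
    funext i
    exact h1 i
  have hkerle : Module.finrank k (LinearMap.ker Φ) ≤ 1 :=
    (LinearMap.finrank_le_finrank_of_injective hιinj).trans hl1.le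
  have hrn := LinearMap.finrank_range_add_finrank_ker Φ
  rw [Module.finrank_fin_fun] at hrn
  have hrange : LinearMap.range Φ = ⊤ := by
    apply Submodule.eq_top_of_finrank_eq
    rw [Module.finrank_fin_fun]
    have := Submodule.finrank_le (LinearMap.range Φ)
    rw [Module.finrank_fin_fun] at this
    omega
  rw [Fintype.linearIndependent_iff]
  intro μ hμ j0
  have hsurj : Function.Surjective Φ := LinearMap.range_eq_top.mp hrange
  obtain ⟨b, hb⟩ := hsurj (Pi.single j0 1)
  have h1 : ∑ j, μ j * (Φ b) j = 0 := by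
    have h2 : ∀ i, ∑ j, μ j * Mk j i = 0 := by
      intro i
      have := congrFun hμ i
      simpa [hMk] using this
    calc ∑ j, μ j * (Φ b) j = ∑ j, μ j * ∑ i, Mk j i * b i := by
          simp [Φ, Matrix.mulVec, dotProduct]
      _ = ∑ i, (∑ j, μ j * Mk j i) * b i := by
          simp_rw [Finset.mul_sum, Finset.sum_mul]
          rw [Finset.sum_comm]
          exact Finset.sum_congr rfl fun i _ => Finset.sum_congr rfl fun j _ => by ring
      _ = 0 := by simp [h2]
  rw [hb] at h1
  simp only [Pi.single_apply, mul_ite, mul_one, mul_zero, Finset.sum_ite_eq', Finset.mem_univ,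
    if_true] at h1
  exact h1

end special


section generic

variable {K F k Fb : Type*} [Field K] [Field F] [Algebra K F] [Field k] [Field Fb] [Algebra k Fb]
variable {O : ValuationSubring F} {red : O →+* Fb} {hO : IsConstRed K k O red}
variable [Infinite k] [Nonempty (Place K F)] [Nonempty (Place k Fb)]
  [HasPrincipalDivisors K F] [HasPrincipalDivisors k Fb]
variable {g : ℕ} {r : Place K F → Place k Fb} {ϖ : K}

/-- the reduction of constants, as a ring hom `A → Fb` -/
noncomputable def flip6527_rho (red : O →+* Fb) : constRing K O →+* Fb :=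
  red.comp
    { toFun := fun a => (⟨algebraMap K F (a : K), a.2⟩ : O)
      map_one' := Subtype.ext (by simp)
      map_mul' := fun a b => Subtype.ext (by simp)
      map_zero' := Subtype.ext (by simp)
      map_add' := fun a b => Subtype.ext (by simp) }

omit [Nonempty (Place K F)] [HasPrincipalDivisors K F] in
theorem flip6527_rho_apply (red : O →+* Fb) (a : constRing K O) :
    flip6527_rho (K := K) red a = red ⟨algebraMap K F (a : K), a.2⟩ := rfl

/-- analytic families have analytic values of regular integral functions -/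
theorem flip6527_eval_mem (H : Setup hO g r ϖ) {S : Type*} [Finite S]
    (C : Subalgebra (constRing K O) (S → K)) {Q : Place k Fb} {τ : F} (hτ : IsCoord red r Q τ)
    (P : S → Place K F) (hP : ∀ s, r (P s) = Q) (hPC : (fun s => evalAt (P s) τ) ∈ C)
    {f : F} (hfO : f ∈ O) (hreg : RegOn r Q f) : (fun s => evalAt (P s) f) ∈ C := by
  classical
  obtain ⟨p, hpA, hp⟩ := exists_poly_eval H hτ hfO hreg (Set.finite_range P).toFinset
    (by
      intro P' hP'
      rw [Set.Finite.mem_toFinset] at hP'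
      obtain ⟨s, rfl⟩ := hP'
      exact hP s)
  have e : (fun s => evalAt (P s) f) = fun s => p.eval (evalAt (P s) τ) := by
    funext s
    exact hp (P s) (by rw [Set.Finite.mem_toFinset]; exact ⟨s, rfl⟩)
  rw [e]
  exact polyEval_mem (constRing K O) C p hpA hPC

theorem flip6527_exists_psi (H : Setup hO g r ϖ) {S : Type*} [Finite S]
    (C : Subalgebra (constRing K O) (S → K)) (hCA : ∀ f ∈ C, ∀ s, f s ∈ constRing K O)
    (D : Divisor K F) {e : ℕ}
    (Q : Fin e → Place k Fb) (hQ : Function.Injective Q)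
    (hsuppQ : ∀ P, D P ≠ 0 → ∀ j, r P ≠ Q j)
    (hl1 : Module.finrank k (riemannRochSpace (Finsupp.mapDomain r D - sumDiv Q)) = 1)
    (τ : Fin e → F) (hτ : ∀ j, IsCoord red r (Q j) (τ j))
    (P : Fin e → S → Place K F) (hP : ∀ j s, r (P j s) = Q j)
    (hPC : ∀ j, (fun s => evalAt (P j s) (τ j)) ∈ C)
    (φ : Fin (e + 1) → F) (hφO : ∀ i, φ i ∈ O) (hφL : ∀ i, φ i ∈ riemannRochSpace D)
    (hind : LinearIndependent k (fun i => red ⟨φ i, hφO i⟩)) :
    ∃ (c : Fin (e + 1) → S → K) (ψb : Fb), (∀ i, c i ∈ C) ∧ ψb ≠ 0 ∧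
      ψb ∈ riemannRochSpace (Finsupp.mapDomain r D - sumDiv Q) ∧
      (∀ s, ∃ h : ∑ i, c i s • φ i ∈ O, red ⟨_, h⟩ = ψb) ∧
      (∀ s j, HasValue (P j s) (∑ i, c i s • φ i) 0) := by
  classical
  -- the evaluation matrix over `S → K`
  set EE : Matrix (Fin e) (Fin (e + 1)) (S → K) :=
    Matrix.of fun j i => fun s => evalAt (P j s) (φ i) with hEEdef
  have hreg : ∀ j i, RegOn r (Q j) (φ i) := fun j i =>
    flip6527_regOn r (fun P' hP' => hsuppQ P' hP' j) (hφL i)
  have hEE : ∀ j i, EE j i ∈ C := fun j i =>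
    flip6527_eval_mem H C (hτ j) (P j) (hP j) (hPC j) (hφO i) (hreg j i)
  set c : Fin (e + 1) → S → K :=
    fun i => (-1) ^ (i : ℕ) * (EE.submatrix id i.succAbove).det with hcdef
  have hcC : ∀ i, c i ∈ C := fun i =>
    C.mul_mem (C.pow_mem (C.neg_mem C.one_mem) _)
      (flip6527_det_mem C _ fun _ _ => hEE _ _)
  -- the reduced matrix
  set Mk : Matrix (Fin e) (Fin (e + 1)) k :=
    Matrix.of fun j i => evalAt (Q j) (red ⟨φ i, hφO i⟩) with hMkdef
  set cb : Fin (e + 1) → k := fun i => (-1) ^ (i : ℕ) * (Mk.submatrix id i.succAbove).det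
    with hcbdef
  have hrows : LinearIndependent k Mk := flip6527_rows_indep H Q hQ hsuppQ hl1 φ hφO hφL hind
  obtain ⟨i0, hi0⟩ := exists_minor_ne_zero Mk hrows
  have hcb0 : cb i0 ≠ 0 := mul_ne_zero (pow_ne_zero _ (neg_ne_zero.mpr one_ne_zero)) hi0
  set ψb : Fb := ∑ i, cb i • red ⟨φ i, hφO i⟩ with hψbdef
  have hψb0 : ψb ≠ 0 := by
    intro h0
    exact hcb0 (Fintype.linearIndependent_iff.mp hind cb h0 i0)
  have hψbL : ψb ∈ riemannRochSpace (Finsupp.mapDomain r D - sumDiv Q) :=
    flip6527_mem_L_sub H Q hQ hsuppQ φ hφO hφL cb (fun j => cramer_kernel Mk j)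
  refine ⟨c, ψb, hcC, hψb0, hψbL, ?_, ?_⟩
  · intro s
    -- the evaluation matrix at `s`, over `A`
    set EA : Matrix (Fin e) (Fin (e + 1)) (constRing K O) :=
      Matrix.of fun j i => ⟨EE j i s, hCA _ (hEE j i) s⟩ with hEAdef
    set cA : Fin (e + 1) → constRing K O :=
      fun i => (-1) ^ (i : ℕ) * (EA.submatrix id i.succAbove).det with hcAdef
    have hc1 : ∀ i, c i s = ((cA i : constRing K O) : K) := by
      intro i
      have h1 := flip6527_minor_map (Pi.evalRingHom (fun _ : S => K) s) EE i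
      have h2 := flip6527_minor_map (constRing K O).subtype EA i
      have h3 : EE.map (Pi.evalRingHom (fun _ : S => K) s) = EA.map (constRing K O).subtype := by
        ext j i'
        rfl
      rw [h3] at h1
      exact h1.trans h2.symm
    have hc2 : ∀ i, flip6527_rho (K := K) red (cA i) = algebraMap k Fb (cb i) := by
      intro i
      have h1 := flip6527_minor_map (flip6527_rho (K := K) red) EA i
      have h2 := flip6527_minor_map (algebraMap k Fb) Mk i
      have h3 : EA.map (flip6527_rho (K := K) red) = Mk.map (algebraMap k Fb) := by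
        ext j i'
        obtain ⟨hc', hc''⟩ := flip6527_red_evalAt H (fun P' hP' => hsuppQ P' hP' j) (hφL i')
          (hφO i') (hP j s)
        exact hc''
      rw [h3] at h1
      exact h1.trans h2.symm
    have hmem : ∀ i, c i s • φ i ∈ O := by
      intro i
      rw [Algebra.smul_def]
      exact mul_mem (show algebraMap K F (c i s) ∈ O by rw [hc1 i]; exact (cA i).2) (hφO i)
    have hsum : ∑ i, c i s • φ i ∈ O := sum_mem fun i _ => hmem i
    refine ⟨hsum, ?_⟩
    have e1 : (⟨∑ i, c i s • φ i, hsum⟩ : O) =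
        ∑ i, (⟨algebraMap K F ((cA i : constRing K O) : K), (cA i).2⟩ : O) * ⟨φ i, hφO i⟩ := by
      apply Subtype.ext
      have e0 := map_sum O.subtype (fun i => (⟨algebraMap K F ((cA i : constRing K O) : K),
        (cA i).2⟩ : O) * ⟨φ i, hφO i⟩) Finset.univ
      refine Eq.trans ?_ e0.symm
      show ∑ i, c i s • φ i = ∑ i, O.subtype ((⟨algebraMap K F ((cA i : constRing K O) : K),
        (cA i).2⟩ : O) * ⟨φ i, hφO i⟩)
      refine Finset.sum_congr rfl fun i _ => ?_
      rw [Algebra.smul_def, hc1 i]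
      rfl
    rw [e1, map_sum, hψbdef]
    refine Finset.sum_congr rfl fun i _ => ?_
    rw [map_mul, ← flip6527_rho_apply, hc2 i, Algebra.smul_def]
  · intro s j
    have h1 := flip6527_hasValue_lincomb (P := P j s) (fun i => c i s) φ
      (fun i => evalAt (P j s) (φ i))
      (fun i => hasValue_evalAt (H.hyp.degF _) (hreg j i (P j s) (hP j s)))
    have h2 : ∑ i, c i s * evalAt (P j s) (φ i) = 0 := by
      have h3 : (∑ i, EE j i * ((-1) ^ (i : ℕ) * (EE.submatrix id i.succAbove).det)) s = 0 := by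
        rw [cramer_kernel EE j]
        rfl
      rw [Finset.sum_apply] at h3
      refine Eq.trans (Finset.sum_congr rfl fun i _ => ?_) h3
      show c i s * EE j i s = EE j i s * c i s
      exact mul_comm _ _
    rwa [h2] at h1

end generic

section generic2

variable {K F k Fb : Type*} [Field K] [Field F] [Algebra K F] [Field k] [Field Fb] [Algebra k Fb]
variable {O : ValuationSubring F} {red : O →+* Fb} {hO : IsConstRed K k O red}
variable [Infinite k] [Nonempty (Place K F)] [Nonempty (Place k Fb)]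
  [HasPrincipalDivisors K F] [HasPrincipalDivisors k Fb]
variable {g : ℕ} {r : Place K F → Place k Fb} {ϖ : K}

omit [Infinite k] [Nonempty (Place K F)] [Nonempty (Place k Fb)]
  [HasPrincipalDivisors K F] [HasPrincipalDivisors k Fb] in
/-- constants in the maximal ideal of `A` reduce to zero -/
theorem flip6527_red_const_nonunit (hO : IsConstRed K k O red) {ρ : K}
    (hρ : ρ ∈ (constRing K O).nonunits) :
    ∃ h : algebraMap K F ρ ∈ O, red ⟨_, h⟩ = 0 := by
  have h : algebraMap K F ρ ∈ O :=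
    (flip6527_nonunits_le (constRing K O) hρ : ρ ∈ constRing K O)
  refine ⟨h, (hO.ker _).mpr ?_⟩
  intro hu
  obtain ⟨b, hb⟩ := hu.exists_right_inv
  have hb' : algebraMap K F ρ * (b : F) = 1 := congrArg Subtype.val hb
  by_cases h0 : ρ = 0
  · rw [h0, map_zero, zero_mul] at hb'
    exact zero_ne_one hb'
  · have hbe : (b : F) = algebraMap K F ρ⁻¹ := by
      rw [map_inv₀]
      exact eq_inv_of_mul_eq_one_right hb'
    have hinv : ρ⁻¹ ∈ constRing K O := by
      show algebraMap K F ρ⁻¹ ∈ O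
      rw [← hbe]
      exact b.2
    have h1 : (constRing K O).valuation ρ < 1 := ((constRing K O).mem_nonunits_iff).mp hρ
    have h2 : (constRing K O).valuation ρ⁻¹ ≤ 1 := ((constRing K O).valuation_le_one_iff _).mpr hinv
    have h3 : (constRing K O).valuation ρ * (constRing K O).valuation ρ⁻¹ = 1 := by
      rw [← map_mul, mul_inv_cancel₀ h0, map_one]
    have : (constRing K O).valuation ρ * (constRing K O).valuation ρ⁻¹ < 1 :=
      calc (constRing K O).valuation ρ * (constRing K O).valuation ρ⁻¹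
          ≤ (constRing K O).valuation ρ * 1 := mul_le_mul' le_rfl h2
        _ = (constRing K O).valuation ρ := mul_one _
        _ < 1 := h1
    rw [h3] at this
    exact lt_irrefl _ this

omit [Nonempty (Place K F)] in
theorem flip6527_exists_points (H : Setup hO g r ϖ) (D : Divisor K F) {e : ℕ}
    (Q : Fin e → Place k Fb) (Rb : Fin g → Place k Fb)
    (hQ : Function.Injective Q) (hRb : Function.Injective Rb)
    (hsuppQ : ∀ P, D P ≠ 0 → ∀ j, r P ≠ Q j)
    (hl1 : Module.finrank k (riemannRochSpace (Finsupp.mapDomain r D - sumDiv Q)) = 1)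
    (hRbD : LinEquiv (sumDiv Rb) (Finsupp.mapDomain r D - sumDiv Q))
    (P : Fin e → Place K F) (hP : ∀ j, r (P j) = Q j)
    (ψ : F) (hψL : ψ ∈ riemannRochSpace D) (hψO : ψ ∈ O) (hψ0 : red ⟨ψ, hψO⟩ ≠ 0)
    (hval : ∀ j, HasValue (P j) ψ 0) :
    ∃ R : Fin g → Place K F, (∀ i, r (R i) = Rb i) ∧
      divOf K ψ + D - sumDiv P = sumDiv R := by
  classical
  have hψne : ψ ≠ 0 := by
    rintro rfl
    apply hψ0
    have : (⟨0, hψO⟩ : O) = 0 := rfl
    rw [this, map_zero]
  have hPinj : Function.Injective P := by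
    intro j j' hjj
    apply hQ
    rw [← hP j, ← hP j', hjj]
  set X : Divisor K F := divOf K ψ + D - sumDiv P with hX
  have hX0 : ∀ v, 0 ≤ X v := by
    intro v
    rw [hX, Finsupp.sub_apply, Finsupp.add_apply, divOf_apply]
    by_cases hv : ∃ j, P j = v
    · obtain ⟨j, rfl⟩ := hv
      have hD0 : D (P j) = 0 := by
        by_contra hne
        exact hsuppQ _ hne j (hP j)
      have h1 := flip6527_ord_pos_of_mem_nonunits hψne (flip6527_hasValue_zero_iff.mp (hval j))
      rw [flip6527_sumDiv_apply_of_injective P hPinj j, hD0]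
      omega
    · push Not at hv
      rw [flip6527_sumDiv_apply_of_ne P v hv]
      rcases (mem_riemannRochSpace_iff.mp hψL) v with h | h
      · exact absurd h hψne
      · omega
  have hmap : Finsupp.mapDomain r X =
      Finsupp.mapDomain r (divOf K ψ) + Finsupp.mapDomain r D - sumDiv Q := by
    rw [hX, flip6527_mapDomain_sub, Finsupp.mapDomain_add, flip6527_mapDomain_sumDiv]
    congr 2
    funext j
    exact hP j
  have hcons : ∀ Q', Finsupp.mapDomain r (divOf K ψ) Q' = Q'.ord (red ⟨ψ, hψO⟩) :=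
    H.cons ψ hψO hψ0 (divOf K ψ) (divOf_apply ψ)
  have hXlin : LinEquiv (Finsupp.mapDomain r X) (Finsupp.mapDomain r D - sumDiv Q) := by
    refine ⟨red ⟨ψ, hψO⟩, hψ0, fun Q' => ?_⟩
    rw [hmap, ← hcons Q']
    simp only [Finsupp.sub_apply, Finsupp.add_apply]
    ring
  have heq : Finsupp.mapDomain r X = sumDiv Rb :=
    eq_of_linEquiv_of_finrank_one H.riemann hl1 hXlin hRbD
      (flip6527_mapDomain_nonneg r hX0) (flip6527_sumDiv_nonneg Rb)
  obtain ⟨R, hR, hXR⟩ := exists_points_of_mapDomain_eq_sumDiv r Rb hRb hX0 heq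
  exact ⟨R, hR, hXR⟩

theorem flip6527_locate (H : Setup hO g r ϖ) {S : Type*} [Finite S]
    (C : Subalgebra (constRing K O) (S → K)) (hC : IsGood (constRing K O) ϖ C)
    (hϖ : ϖ ∈ (constRing K O).nonunits)
    (D : Divisor K F) {n : ℕ} (φ : Fin n → F) (hφO : ∀ i, φ i ∈ O)
    (hφL : ∀ i, φ i ∈ riemannRochSpace D)
    (c : Fin n → S → K) (hc : ∀ i, c i ∈ C) (ψb : Fb)
    (hψ : ∀ s, ∃ h : ∑ i, c i s • φ i ∈ O, red ⟨_, h⟩ = ψb)
    (Q' : Place k Fb) (hsupp : ∀ P, D P ≠ 0 → r P ≠ Q') (hord : Q'.ord ψb = 1)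
    (τ' : F) (hτ' : IsCoord red r Q' τ')
    (R : S → Place K F) (hR : ∀ s, r (R s) = Q')
    (hzero : ∀ s, 0 < (R s).ord (∑ i, c i s • φ i)) :
    (fun s => evalAt (R s) τ') ∈ C := by
  classical
  have hCA := hC.1
  have hψb0 : ψb ≠ 0 := by
    rintro rfl
    rw [Place.ord_zero] at hord
    exact zero_ne_one hord
  -- two extra points of the disc
  obtain ⟨P0, ⟨hP0r, hP0v⟩, -⟩ := IsCoord.existsUnique H hτ' 0
    (flip6527_zero_mem_nonunits (constRing K O))
  obtain ⟨P1, ⟨hP1r, hP1v⟩, -⟩ := IsCoord.existsUnique H hτ' ϖ hϖ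
  set T : Finset (Place K F) := (Set.finite_range R).toFinset ∪ {P0, P1} with hT
  have hTr : ∀ P ∈ T, r P = Q' := by
    intro P hP
    rw [hT, Finset.mem_union, Set.Finite.mem_toFinset, Finset.mem_insert,
      Finset.mem_singleton] at hP
    rcases hP with ⟨s, rfl⟩ | rfl | rfl
    · exact hR s
    · exact hP0r
    · exact hP1r
  have hRT : ∀ s, R s ∈ T := by
    intro s
    rw [hT, Finset.mem_union, Set.Finite.mem_toFinset]
    exact Or.inl ⟨s, rfl⟩
  have hP0T : P0 ∈ T := by
    rw [hT, Finset.mem_union, Finset.mem_insert]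
    exact Or.inr (Or.inl rfl)
  have hP1T : P1 ∈ T := by
    rw [hT, Finset.mem_union, Finset.mem_insert, Finset.mem_singleton]
    exact Or.inr (Or.inr rfl)
  have hreg : ∀ i, RegOn r Q' (φ i) := fun i => flip6527_regOn r hsupp (hφL i)
  choose q hqA hq using fun i => exists_poly_eval H hτ' (hφO i) (hreg i) T hTr
  set d : ℕ := Finset.univ.sup (fun i => (q i).natDegree) with hd
  have hqd : ∀ i, (q i).natDegree ≤ d := fun i =>
    Finset.le_sup (f := fun i => (q i).natDegree) (Finset.mem_univ i)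
  set G : Fin (d + 1) → S → K := fun m s => ∑ i, c i s * (q i).coeff m with hG
  have hGC : ∀ m, G m ∈ C := by
    intro m
    have e : G m = ∑ i, (⟨(q i).coeff m, hqA i m⟩ : constRing K O) • c i := by
      funext s
      rw [Finset.sum_apply]
      refine Finset.sum_congr rfl fun i _ => ?_
      show c i s * (q i).coeff m = (q i).coeff m * c i s
      exact mul_comm _ _
    rw [e]
    exact C.sum_mem fun i _ => C.smul_mem (hc i) _
  set Fn : S → K := fun s => evalAt (R s) τ' with hFn
  have hFm : ∀ s, Fn s ∈ (constRing K O).nonunits := fun s =>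
    IsCoord.evalAt_mem_nonunits H hτ' (hR s)
  have hV : ∀ s (x : K), ∑ m : Fin (d + 1), G m s * x ^ (m : ℕ) =
      ∑ i, c i s * (q i).eval x := by
    intro s x
    simp only [hG, Finset.sum_mul]
    rw [Finset.sum_comm]
    refine Finset.sum_congr rfl fun i _ => ?_
    rw [flip6527_eval_eq_sum_fin (q i) d (hqd i) x, Finset.mul_sum]
    exact Finset.sum_congr rfl fun m _ => by ring
  have hV' : ∀ s (x : K), ∑ m : Fin (d + 1), (m : ℕ) * G m s * x ^ ((m : ℕ) - 1) =
      ∑ i, c i s * (q i).derivative.eval x := by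
    intro s x
    simp only [hG, Finset.mul_sum, Finset.sum_mul]
    rw [Finset.sum_comm]
    refine Finset.sum_congr rfl fun i _ => ?_
    rw [flip6527_derivative_eval_eq_sum_fin (q i) d (hqd i) x, Finset.mul_sum]
    exact Finset.sum_congr rfl fun m _ => by ring
  have hψL : ∀ s, ∑ i, c i s • φ i ∈ riemannRochSpace D := fun s =>
    Submodule.sum_mem _ fun i _ => Submodule.smul_mem _ _ (hφL i)
  have hψval : ∀ s, ∀ P ∈ T,
      HasValue P (∑ i, c i s • φ i) (∑ i, c i s * (q i).eval (evalAt P τ')) := by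
    intro s P hP
    have h1 := flip6527_hasValue_lincomb (P := P) (fun i => c i s) φ (fun i => evalAt P (φ i))
      (fun i => hasValue_evalAt (H.hyp.degF _) (hreg i P (hTr P hP)))
    have e : ∑ i, c i s * evalAt P (φ i) = ∑ i, c i s * (q i).eval (evalAt P τ') :=
      Finset.sum_congr rfl fun i _ => by rw [hq i P hP]
    rwa [e] at h1
  have hroot : ∀ s, ∑ m : Fin (d + 1), G m s * Fn s ^ (m : ℕ) = 0 := by
    intro s
    rw [hV]
    have h1 := hψval s (R s) (hRT s)
    have h2 : HasValue (R s) (∑ i, c i s • φ i) 0 :=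
      flip6527_hasValue_zero_iff.mpr (flip6527_mem_nonunits_of_ord_pos (hzero s))
    exact h1.unique h2
  have hder : ∀ s, ∃ v ∈ constRing K O,
      (∑ m : Fin (d + 1), (m : ℕ) * G m s * Fn s ^ ((m : ℕ) - 1)) * v = 1 := by
    intro s
    rw [hV']
    obtain ⟨hψO, hψred⟩ := hψ s
    set ψ : F := ∑ i, c i s • φ i with hψdef
    set ρ : K := Fn s with hρdef
    have hρm : ρ ∈ (constRing K O).nonunits := hFm s
    have hρA : ρ ∈ constRing K O := flip6527_nonunits_le _ hρm
    have hψne : ψ ≠ 0 := by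
      intro h0
      apply hψb0
      rw [← hψred]
      have : (⟨ψ, hψO⟩ : O) = 0 := Subtype.ext h0
      rw [this, map_zero]
    -- a point of the disc different from `R s`
    obtain ⟨P', hP'T, hP'r, hρ'ne, hρ'm⟩ : ∃ P', P' ∈ T ∧ r P' = Q' ∧ evalAt P' τ' ≠ ρ ∧
        evalAt P' τ' ∈ (constRing K O).nonunits := by
      by_cases h0 : ρ = 0
      · refine ⟨P1, hP1T, hP1r, ?_, ?_⟩
        · rw [hP1v, h0]; exact H.unif_ne
        · rw [hP1v]; exact hϖ
      · refine ⟨P0, hP0T, hP0r, ?_, ?_⟩
        · rw [hP0v]; exact fun h => h0 h.symm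
        · rw [hP0v]; exact flip6527_zero_mem_nonunits _
    set ρ' : K := evalAt P' τ' with hρ'def
    have hρ'A : ρ' ∈ constRing K O := flip6527_nonunits_le _ hρ'm
    -- Taylor expansions
    choose w hwA hw using fun i => flip6527_taylor (constRing K O) (q i) (hqA i) hρA hρ'A
    set W : K := ∑ i, c i s * w i with hWdef
    have hWA : W ∈ constRing K O :=
      sum_mem fun i _ => mul_mem (hCA (c i) (hc i) s) (hwA i)
    have hVρ : ∑ i, c i s * (q i).eval ρ = 0 := by
      have := hroot s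
      rwa [hV] at this
    have htay : ∑ i, c i s * (q i).eval ρ' =
        (∑ i, c i s * (q i).derivative.eval ρ) * (ρ' - ρ) + W * (ρ' - ρ) ^ 2 := by
      have e1 : ∑ i, c i s * (q i).eval ρ' = ∑ i, c i s * (q i).eval ρ +
          (∑ i, c i s * (q i).derivative.eval ρ) * (ρ' - ρ) + W * (ρ' - ρ) ^ 2 := by
        rw [hWdef, Finset.sum_mul, Finset.sum_mul, ← Finset.sum_add_distrib,
          ← Finset.sum_add_distrib]
        refine Finset.sum_congr rfl fun i _ => ?_
        rw [hw i]
        ring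
      rw [e1, hVρ, zero_add]
    -- the function `χ = ψ / (τ' - ρ)`
    obtain ⟨hρO, hρred⟩ := flip6527_red_const_nonunit hO hρm
    set t : F := τ' - algebraMap K F ρ with htdef
    have htO : t ∈ O := sub_mem hτ'.mem hρO
    have hτb1 : Q'.ord (red ⟨τ', hτ'.mem⟩) = 1 := hτ'.ord hτ'.mem
    have hτb0 : red ⟨τ', hτ'.mem⟩ ≠ 0 := by
      intro h0
      rw [h0, Place.ord_zero] at hτb1
      exact zero_ne_one hτb1
    have htred : red ⟨t, htO⟩ = red ⟨τ', hτ'.mem⟩ := by
      have e : (⟨t, htO⟩ : O) = ⟨τ', hτ'.mem⟩ - ⟨algebraMap K F ρ, hρO⟩ := rfl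
      rw [e, map_sub, hρred, sub_zero]
    have htu : IsUnit (⟨t, htO⟩ : O) := by
      by_contra hnu
      exact hτb0 (htred ▸ (hO.ker _).mpr hnu)
    have ht0 : t ≠ 0 := by
      intro h0
      apply hτb0
      rw [← htred]
      have : (⟨t, htO⟩ : O) = 0 := Subtype.ext h0
      rw [this, map_zero]
    obtain ⟨b, hb⟩ := htu.exists_right_inv
    have hb' : t * (b : F) = 1 := congrArg Subtype.val hb
    have hbe : (b : F) = t⁻¹ := eq_inv_of_mul_eq_one_right hb'
    have htinvO : t⁻¹ ∈ O := hbe ▸ b.2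
    have htinvred : red ⟨t⁻¹, htinvO⟩ = (red ⟨τ', hτ'.mem⟩)⁻¹ := by
      have e : (⟨t, htO⟩ : O) * ⟨t⁻¹, htinvO⟩ = 1 := Subtype.ext (mul_inv_cancel₀ ht0)
      have h1 := congrArg red e
      rw [map_mul, map_one, htred] at h1
      exact eq_inv_of_mul_eq_one_right h1
    set χ : F := ψ * t⁻¹ with hχdef
    have hχO : χ ∈ O := mul_mem hψO htinvO
    have hχred : red ⟨χ, hχO⟩ = ψb * (red ⟨τ', hτ'.mem⟩)⁻¹ := by
      have e : (⟨χ, hχO⟩ : O) = ⟨ψ, hψO⟩ * ⟨t⁻¹, htinvO⟩ := rfl
      rw [e, map_mul, hψred, htinvred]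
    have hχord : Q'.ord (red ⟨χ, hχO⟩) = 0 := by
      rw [hχred, Q'.ord_mul hψb0 (inv_ne_zero hτb0), Q'.ord_inv, hord, hτb1]
      norm_num
    have hχne : red ⟨χ, hχO⟩ ≠ 0 := by
      rw [hχred]
      exact mul_ne_zero hψb0 (inv_ne_zero hτb0)
    have hχreg : RegOn r Q' χ := by
      intro P hP
      have hψP : ψ ∈ P.toValuationSubring := flip6527_regOn r hsupp (hψL s) P hP
      have hordP := IsCoord.ord_sub H hτ' ρ hρm hP
      have e1 : P.ord χ = P.ord ψ - P.ord t := by
        rw [hχdef, P.ord_mul hψne (inv_ne_zero ht0), P.ord_inv]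
        ring
      apply mem_of_ord_nonneg
      rw [e1]
      by_cases hev : evalAt P τ' = ρ
      · obtain ⟨Pstar, -, huniq⟩ := IsCoord.existsUnique H hτ' ρ hρm
        have hPR : P = R s := (huniq P ⟨hP, hev⟩).trans (huniq (R s) ⟨hR s, rfl⟩).symm
        have h1 : P.ord t = 1 := hordP.1 hev
        have h2 : 0 < P.ord ψ := by rw [hPR]; exact hzero s
        omega
      · have h1 : P.ord t = 0 := hordP.2 hev
        have h2 : 0 ≤ P.ord ψ := ord_nonneg_of_mem P hψP
        omega
    obtain ⟨v, hvA, huv⟩ := isUnit_evalAt H hχO hχreg hχord hχne hP'r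
    have huA : evalAt P' χ ∈ constRing K O := evalAt_mem_constRing H hχO hχreg hP'r
    -- the value of `ψ` at `P'`
    have h1 : HasValue P' χ (evalAt P' χ) := hasValue_evalAt (H.hyp.degF _) (hχreg P' hP'r)
    have h2 : HasValue P' τ' ρ' := hasValue_evalAt (H.hyp.degF _) (hτ'.reg P' hP'r)
    have h3 : HasValue P' (algebraMap K F (-ρ)) (-ρ) := hasValue_algebraMap P' (-ρ)
    have h5 : HasValue P' (χ * (τ' + algebraMap K F (-ρ))) (evalAt P' χ * (ρ' + -ρ)) :=
      h1.mul (h2.add h3)
    have e5 : χ * (τ' + algebraMap K F (-ρ)) = ψ := by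
      rw [map_neg, ← sub_eq_add_neg, ← htdef, hχdef, mul_assoc, inv_mul_cancel₀ ht0, mul_one]
    rw [e5] at h5
    have h6 := hψval s P' hP'T
    have h7 : evalAt P' χ * (ρ' + -ρ) = ∑ i, c i s * (q i).eval ρ' := h5.unique h6
    have hdne : ρ' - ρ ≠ 0 := sub_ne_zero.mpr hρ'ne
    have h8 : evalAt P' χ = ∑ i, c i s * (q i).derivative.eval ρ + W * (ρ' - ρ) := by
      apply mul_right_cancel₀ hdne
      rw [← sub_eq_add_neg] at h7
      rw [h7, htay]
      ring
    have h9 : ∑ i, c i s * (q i).derivative.eval ρ = evalAt P' χ - W * (ρ' - ρ) := by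
      rw [h8]; ring
    rw [h9]
    exact flip6527_unit_of_sub_nonunit (constRing K O) huA hvA huv
      (flip6527_mul_mem_nonunits _ hWA (flip6527_sub_mem_nonunits _ hρ'm hρm))
  exact newton_mem (constRing K O) ϖ H.pow_dvd H.unif_ne C hC d G hGC Fn hFm hroot hder

end generic2

variable {K F k Fb : Type*} [Field K] [Field F] [Algebra K F] [Field k] [Field Fb] [Algebra k Fb]
variable {O : ValuationSubring F} {red : O →+* Fb} {hO : IsConstRed K k O red}
variable [Infinite k] [Nonempty (Place K F)] [Nonempty (Place k Fb)]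
  [HasPrincipalDivisors K F] [HasPrincipalDivisors k Fb]
variable {g : ℕ} {r : Place K F → Place k Fb} {ϖ : K}

omit [Nonempty (Place K F)] [HasPrincipalDivisors K F] in
/-- the order of the reduced section at the output places -/
theorem flip6527_ord_psib (H : Setup hO g r ϖ) (D : Divisor K F) {e : ℕ}
    (Q : Fin e → Place k Fb) (Rb : Fin g → Place k Fb) (hRb : Function.Injective Rb)
    (hQR : ∀ j i, Q j ≠ Rb i) (hsuppR : ∀ P, D P ≠ 0 → ∀ i, r P ≠ Rb i)
    (hl1 : Module.finrank k (riemannRochSpace (Finsupp.mapDomain r D - sumDiv Q)) = 1)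
    (hRbD : LinEquiv (sumDiv Rb) (Finsupp.mapDomain r D - sumDiv Q))
    (ψb : Fb) (hψb0 : ψb ≠ 0)
    (hψbL : ψb ∈ riemannRochSpace (Finsupp.mapDomain r D - sumDiv Q)) (i : Fin g) :
    (Rb i).ord ψb = 1 := by
  set X : Divisor k Fb := divOf k ψb + (Finsupp.mapDomain r D - sumDiv Q) with hX
  have hX0 : ∀ v, 0 ≤ X v := by
    intro v
    rw [hX, Finsupp.add_apply, divOf_apply]
    rcases (mem_riemannRochSpace_iff.mp hψbL) v with h | h
    · exact absurd h hψb0
    · omega
  have hXlin : LinEquiv X (Finsupp.mapDomain r D - sumDiv Q) := by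
    refine ⟨ψb, hψb0, fun v => ?_⟩
    rw [hX, Finsupp.add_apply, divOf_apply]
    ring
  have heq : X = sumDiv Rb :=
    eq_of_linEquiv_of_finrank_one H.riemann hl1 hXlin hRbD hX0 (flip6527_sumDiv_nonneg Rb)
  have h1 := congrArg (fun Y : Divisor k Fb => Y (Rb i)) heq
  simp only [hX, Finsupp.add_apply, Finsupp.sub_apply, divOf_apply] at h1
  rw [flip6527_sumDiv_apply_of_injective Rb hRb i,
    flip6527_mapDomain_apply_eq_zero r (fun P hP => hsuppR P hP i),
    flip6527_sumDiv_apply_of_ne Q (Rb i) (fun j => hQR j i)] at h1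
  omega

/-- **FLIP.**  `D` a divisor on the generic fibre with `l(r_* D) = e + 1 = deg D + 1 - g`; `Q_1..Q_e`,
`Rb_1..Rb_g` distinct places of the special fibre, none in `r(supp D)`, with `l(r_* D - ΣQ_j) = 1` and
`ΣRb_i ~ r_* D - ΣQ_j`.  If `P_j : S → Disc(Q_j)` are `C`-analytic families (for a good subalgebra `C`),
then there are `C`-analytic families `R_i : S → Disc(Rb_i)` with `ΣR_i(s) ~ D - ΣP_j(s)`. -/
theorem flip (H : Setup hO g r ϖ) {S : Type*} [Finite S]
    (C : Subalgebra (constRing K O) (S → K)) (hC : IsGood (constRing K O) ϖ C)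
    (D : Divisor K F) {e : ℕ}
    (Q : Fin e → Place k Fb) (Rb : Fin g → Place k Fb)
    (hQ : Function.Injective Q) (hRb : Function.Injective Rb) (hQR : ∀ j i, Q j ≠ Rb i)
    (hsuppQ : ∀ P, D P ≠ 0 → ∀ j, r P ≠ Q j) (hsuppR : ∀ P, D P ≠ 0 → ∀ i, r P ≠ Rb i)
    (hdeg : Divisor.degree D = e + g)
    (hl : Module.finrank k (riemannRochSpace (Finsupp.mapDomain r D)) = e + 1)
    (hl1 : Module.finrank k (riemannRochSpace (Finsupp.mapDomain r D - sumDiv Q)) = 1)
    (hRbD : LinEquiv (sumDiv Rb) (Finsupp.mapDomain r D - sumDiv Q))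
    (τ : Fin e → F) (hτ : ∀ j, IsCoord red r (Q j) (τ j))
    (P : Fin e → S → Place K F) (hP : ∀ j s, r (P j s) = Q j)
    (hPC : ∀ j, (fun s => evalAt (P j s) (τ j)) ∈ C)
    (τ' : Fin g → F) (hτ' : ∀ i, IsCoord red r (Rb i) (τ' i)) :
    ∃ R : Fin g → S → Place K F, (∀ i s, r (R i s) = Rb i) ∧
      (∀ s, LinEquiv (sumDiv (fun i => R i s)) (D - sumDiv (fun j => P j s))) ∧
      ∀ i, (fun s => evalAt (R i s) (τ' i)) ∈ C := by
  classical
  have hn : ((e + 1 : ℕ) : ℤ) = Divisor.degree D + 1 - g := by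
    rw [hdeg]; push_cast; ring
  obtain ⟨φ, hφO, hφL, -, hind, -, -⟩ := exists_lattice_basis H D (e + 1) hn hl
  obtain ⟨c, ψb, hcC, hψb0, hψbL, hψred, hψval⟩ :=
    flip6527_exists_psi H C hC.1 D Q hQ hsuppQ hl1 τ hτ P hP hPC φ hφO hφL hind
  have hψL : ∀ s, ∑ i, c i s • φ i ∈ riemannRochSpace D := fun s =>
    Submodule.sum_mem _ fun i _ => Submodule.smul_mem _ _ (hφL i)
  have hψne : ∀ s, ∑ i, c i s • φ i ≠ 0 := by
    intro s h0
    obtain ⟨h, hr⟩ := hψred s
    apply hψb0
    rw [← hr]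
    have : (⟨∑ i, c i s • φ i, h⟩ : O) = 0 := Subtype.ext h0
    rw [this, map_zero]
  have hpts : ∀ s, ∃ Rs : Fin g → Place K F, (∀ i, r (Rs i) = Rb i) ∧
      divOf K (∑ i, c i s • φ i) + D - sumDiv (fun j => P j s) = sumDiv Rs := by
    intro s
    obtain ⟨h, hr⟩ := hψred s
    exact flip6527_exists_points H D Q Rb hQ hRb hsuppQ hl1 hRbD (fun j => P j s)
      (fun j => hP j s) _ (hψL s) h (by rw [hr]; exact hψb0) (hψval s)
  choose R hRr hRdiv using hpts
  refine ⟨fun i s => R s i, fun i s => hRr s i, ?_, ?_⟩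
  · intro s
    refine ⟨∑ i, c i s • φ i, hψne s, fun v => ?_⟩
    have h1 := congrArg (fun X : Divisor K F => X v) (hRdiv s)
    simp only [Finsupp.sub_apply, Finsupp.add_apply, divOf_apply] at h1
    show (sumDiv (R s)) v - (D - sumDiv fun j => P j s) v = v.ord (∑ i, c i s • φ i)
    rw [Finsupp.sub_apply]
    omega
  · intro i
    have hzero : ∀ s, 0 < (R s i).ord (∑ i', c i' s • φ i') := by
      intro s
      have h1 := congrArg (fun X : Divisor K F => X (R s i)) (hRdiv s)
      simp only [Finsupp.sub_apply, Finsupp.add_apply, divOf_apply] at h1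
      have hD0 : D (R s i) = 0 := by
        by_contra hne
        exact hsuppR _ hne i (hRr s i)
      have hP0 : sumDiv (fun j => P j s) (R s i) = 0 := by
        apply flip6527_sumDiv_apply_of_ne
        intro j hj
        apply hQR j i
        rw [← hP j s, hj, hRr s i]
      have h2 := flip6527_one_le_sumDiv_apply (R s) i
      rw [hD0, hP0] at h1
      omega
    by_cases hϖ : ϖ ∈ (constRing K O).nonunits
    · have hordb : (Rb i).ord ψb = 1 :=
        flip6527_ord_psib H D Q Rb hRb hQR hsuppR hl1 hRbD ψb hψb0 hψbL i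
      exact flip6527_locate H C hC hϖ D φ hφO hφL c hcC ψb hψred (Rb i)
        (fun P' hP' => hsuppR P' hP' i) hordb (τ' i) (hτ' i) (fun s => R s i)
        (fun s => hRr s i) hzero
    · -- degenerate case: `ϖ` is a unit of `A`, every `A`-valued function lies in `C`
      obtain ⟨m, hm⟩ := hC.2
      have hϖA : ϖ ∈ constRing K O := H.unif_mem
      have hϖinv : ϖ⁻¹ ∈ constRing K O := by
        rw [← (constRing K O).valuation_le_one_iff, map_inv₀]
        have h1 : (constRing K O).valuation ϖ ≤ 1 :=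
          ((constRing K O).valuation_le_one_iff ϖ).mpr hϖA
        have h2 : ¬ (constRing K O).valuation ϖ < 1 := fun h =>
          hϖ (((constRing K O).mem_nonunits_iff).mpr h)
        have h3 : (constRing K O).valuation ϖ = 1 := le_antisymm h1 (not_lt.mp h2)
        rw [h3, inv_one]
      have hval : ∀ s, evalAt (R s i) (τ' i) ∈ constRing K O := fun s =>
        evalAt_mem_constRing H (hτ' i).mem (hτ' i).reg (hRr s i)
      have h4 := hm (fun s => (ϖ⁻¹) ^ m * evalAt (R s i) (τ' i))
        (fun s => mul_mem (pow_mem hϖinv m) (hval s))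
      have e : (fun s => ϖ ^ m * ((ϖ⁻¹) ^ m * evalAt (R s i) (τ' i))) =
          fun s => evalAt (R s i) (τ' i) := by
        funext s
        rw [← mul_assoc, ← mul_pow, mul_inv_cancel₀ H.unif_ne, one_pow, one_mul]
      rwa [e] at h4

end Fermat.Agent.S19.Abs
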