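/-
S19 Abs, piece TRANS = two applications of `flip`, with auxiliary divisors chosen by SFG (G3, G4, G5) and RT1:
Rb non-special off everything; Db1 ~ ΣQ_j + ΣRb_i moved off everything; D1 := pointwise lift; flip (D1; P_j), then flip (D1 + X; R'_i).
FROZEN STATEMENTS (helper5516 skeleton of the abstract geometry core of S19).
Proof sketches: origin/helper5516:notes/S19_GC_abstract_helper5516.md; protocol: notes/S19_ABS_BOARD_helper5516.md
Proof of `trans` by helper552 (helpers `h552_*`).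
-/
import Fermat.Agent.S19.Abs.Flip

set_option autoImplicit false

namespace Fermat.Agent.S19.Abs

open AlgebraicCurve Fermat.Agent.RIN

section h552_helpers

variable {K F : Type*} [Field K] [Field F] [Algebra K F]

theorem h552_linEquiv_refl (D : Divisor K F) : LinEquiv D D :=
  ⟨1, one_ne_zero, fun P => by rw [sub_self, Place.ord_one]⟩

theorem h552_linEquiv_trans {D D' D'' : Divisor K F} (h : LinEquiv D D') (h' : LinEquiv D' D'') :
    LinEquiv D D'' := by
  obtain ⟨a, ha, hD⟩ := h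
  obtain ⟨b, hb, hD'⟩ := h'
  refine ⟨a * b, mul_ne_zero ha hb, fun P => ?_⟩
  rw [Place.ord_mul P ha hb, ← hD P, ← hD' P]
  ring

theorem h552_linEquiv_add {D D' X X' : Divisor K F} (h : LinEquiv D D') (h' : LinEquiv X X') :
    LinEquiv (D + X) (D' + X') := by
  obtain ⟨a, ha, hD⟩ := h
  obtain ⟨b, hb, hX⟩ := h'
  refine ⟨a * b, mul_ne_zero ha hb, fun P => ?_⟩
  rw [Place.ord_mul P ha hb, ← hD P, ← hX P, Finsupp.add_apply, Finsupp.add_apply]
  ring

theorem h552_linEquiv_sub {D D' X X' : Divisor K F} (h : LinEquiv D D') (h' : LinEquiv X X') :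
    LinEquiv (D - X) (D' - X') := by
  obtain ⟨a, ha, hD⟩ := h
  obtain ⟨b, hb, hX⟩ := h'
  refine ⟨a * b⁻¹, mul_ne_zero ha (inv_ne_zero hb), fun P => ?_⟩
  rw [Place.ord_mul P ha (inv_ne_zero hb), Place.ord_inv, ← hD P, ← hX P, Finsupp.sub_apply,
    Finsupp.sub_apply]
  ring

theorem h552_linEquiv_symm {D D' : Divisor K F} (h : LinEquiv D D') : LinEquiv D' D := by
  obtain ⟨a, ha, hD⟩ := h
  refine ⟨a⁻¹, inv_ne_zero ha, fun P => ?_⟩
  rw [Place.ord_inv, ← hD P]
  ring

theorem h552_sumDiv_nonneg {n : ℕ} (P : Fin n → Place K F) (P' : Place K F) :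
    0 ≤ sumDiv P P' := by
  classical
  unfold sumDiv
  rw [Finsupp.finsetSum_apply]
  refine Finset.sum_nonneg fun i _ => ?_
  rw [Finsupp.single_apply]
  split_ifs <;> norm_num

theorem h552_degree_sumDiv (hdeg : ∀ P : Place K F, P.deg = 1) {n : ℕ} (P : Fin n → Place K F) :
    Divisor.degree (sumDiv P) = n := by
  unfold sumDiv
  rw [map_sum]
  simp [degree_single_one hdeg]

end h552_helpers

variable {K F k Fb : Type*} [Field K] [Field F] [Algebra K F] [Field k] [Field Fb] [Algebra k Fb]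
variable {O : ValuationSubring F} {red : O →+* Fb} {hO : IsConstRed K k O red}
variable [Infinite k] [Nonempty (Place K F)] [Nonempty (Place k Fb)]
  [HasPrincipalDivisors K F] [HasPrincipalDivisors k Fb]
variable {g : ℕ} {r : Place K F → Place k Fb} {ϖ : K}

/-- **TRANS** (two flips).  Inputs: `C`-analytic families `P_j : S → Disc(Q_j)` (`Q_1..Q_e` distinct);
outputs in the discs of a reduced non-special divisor `Q''_1 + ⋯ + Q''_g`; `X` a divisor of degree
`g - e` on the generic fibre with `r_* X + ΣQ_j ~ ΣQ''_i` whose support does not reduce into the `Q''_i`.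
Then the effective divisor linearly equivalent to `X + ΣP_j(s)` is `ΣP''_i(s)` with `C`-analytic
`P''_i : S → Disc(Q''_i)`. -/
theorem trans (H : Setup hO g r ϖ) {S : Type*} [Finite S]
    (C : Subalgebra (constRing K O) (S → K)) (hC : IsGood (constRing K O) ϖ C) {e : ℕ}
    (Q : Fin e → Place k Fb) (hQ : Function.Injective Q)
    (Q'' : Fin g → Place k Fb) (hQ'' : Function.Injective Q'')
    (hns : ∀ f ∈ riemannRochSpace (sumDiv Q''), ∃ c : k, f = algebraMap k Fb c)
    (X : Divisor K F) (hXdeg : Divisor.degree X = (g : ℤ) - e)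
    (hX : LinEquiv (Finsupp.mapDomain r X + sumDiv Q) (sumDiv Q''))
    (hXsupp : ∀ P, X P ≠ 0 → ∀ i, r P ≠ Q'' i)
    (τ : Fin e → F) (hτ : ∀ j, IsCoord red r (Q j) (τ j))
    (P : Fin e → S → Place K F) (hP : ∀ j s, r (P j s) = Q j)
    (hPC : ∀ j, (fun s => evalAt (P j s) (τ j)) ∈ C)
    (τ'' : Fin g → F) (hτ'' : ∀ i, IsCoord red r (Q'' i) (τ'' i)) :
    ∃ P'' : Fin g → S → Place K F, (∀ i s, r (P'' i s) = Q'' i) ∧
      (∀ s, LinEquiv (sumDiv (fun i => P'' i s)) (X + sumDiv (fun j => P j s))) ∧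
      ∀ i, (fun s => evalAt (P'' i s) (τ'' i)) ∈ C := by
  classical
  have R : Riemann k Fb g := H.riemann
  have hdegF := H.hyp.degF
  have hdegFb := H.hyp.degFb
  -- the finite set of places of the special fibre to be avoided
  set T : Finset (Place k Fb) :=
    Finset.image Q Finset.univ ∪ Finset.image Q'' Finset.univ ∪ Finset.image r X.support with hT
  have hQT : ∀ j, Q j ∈ T := fun j =>
    Finset.mem_union_left _ (Finset.mem_union_left _ (Finset.mem_image_of_mem Q (Finset.mem_univ j)))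
  have hQ''T : ∀ i, Q'' i ∈ T := fun i =>
    Finset.mem_union_left _ (Finset.mem_union_right _ (Finset.mem_image_of_mem Q'' (Finset.mem_univ i)))
  have hXT : ∀ P', X P' ≠ 0 → r P' ∈ T := fun P' hP' =>
    Finset.mem_union_right _ (Finset.mem_image_of_mem r (Finsupp.mem_support_iff.mpr hP'))
  -- an auxiliary reduced non-special divisor off `T`
  obtain ⟨Rb, hRb, hRbT, hRbns⟩ := exists_nonspecial R T
  set T' : Finset (Place k Fb) := T ∪ Finset.image Rb Finset.univ with hT'
  have hTT' : ∀ Q', Q' ∈ T → Q' ∈ T' := fun Q' h => Finset.mem_union_left _ h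
  have hRbT' : ∀ i, Rb i ∈ T' := fun i =>
    Finset.mem_union_right _ (Finset.mem_image_of_mem Rb (Finset.mem_univ i))
  -- `Db1 ~ ΣQ_j + ΣRb_i` off `T'`, and its pointwise lift `D1`
  obtain ⟨Db1, hDb1, hDb1T⟩ := exists_move R (sumDiv Q + sumDiv Rb) T'
  obtain ⟨sec, hsec⟩ := (r_surjective H).hasRightInverse
  set D1 : Divisor K F := Finsupp.mapDomain sec Db1 with hD1
  have hrD1 : Finsupp.mapDomain r D1 = Db1 := by
    rw [hD1, ← Finsupp.mapDomain_comp]
    have hid : r ∘ sec = id := funext hsec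
    rw [hid, Finsupp.mapDomain_id]
  have hD1supp : ∀ P', D1 P' ≠ 0 → r P' ∉ T' := by
    intro P' hP' hPT
    have hmem : P' ∈ (Finsupp.mapDomain sec Db1).support := Finsupp.mem_support_iff.mpr hP'
    obtain ⟨Q0, hQ0, rfl⟩ := Finset.mem_image.mp (Finsupp.mapDomain_support hmem)
    rw [hsec Q0] at hPT
    exact (Finsupp.mem_support_iff.mp hQ0) (hDb1T Q0 hPT)
  have hdegD1 : Divisor.degree D1 = e + g := by
    rw [hD1, degree_mapDomain sec (fun Q' => by rw [hdegF, hdegFb]) Db1, hDb1.degree_eq, map_add,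
      h552_degree_sumDiv hdegFb, h552_degree_sumDiv hdegFb]
  -- linear equivalences on the special fibre
  have hE1 : LinEquiv (Db1 - sumDiv Q) (sumDiv Rb) := by
    have h := h552_linEquiv_sub hDb1 (h552_linEquiv_refl (sumDiv Q))
    rwa [add_sub_cancel_left] at h
  have hlRb : Module.finrank k (riemannRochSpace (sumDiv Rb)) = 1 :=
    finrank_L_sumDiv_of_nonspecial R hRbns
  have hlQ'' : Module.finrank k (riemannRochSpace (sumDiv Q'')) = 1 :=
    finrank_L_sumDiv_of_nonspecial R hns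
  -- coordinates at the auxiliary points
  choose τ' hτ' using fun i => exists_isCoord H (Rb i)
  -- first flip
  have hl : Module.finrank k (riemannRochSpace (Finsupp.mapDomain r D1)) = e + 1 := by
    rw [hrD1, hDb1.finrank_eq]
    have h1 := finrank_L_add_of_nonspecial R (D := sumDiv Rb) (D' := sumDiv Q)
      (by rw [hlRb, h552_degree_sumDiv hdegFb]; push_cast; ring) (h552_sumDiv_nonneg Q)
    rw [map_add, h552_degree_sumDiv hdegFb, h552_degree_sumDiv hdegFb, add_comm (sumDiv Rb)] at h1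
    have h2 : (Module.finrank k (riemannRochSpace (sumDiv Q + sumDiv Rb)) : ℤ) = ((e + 1 : ℕ) : ℤ) := by
      rw [h1]; push_cast; ring
    exact_mod_cast h2
  have hl1 : Module.finrank k (riemannRochSpace (Finsupp.mapDomain r D1 - sumDiv Q)) = 1 := by
    rw [hrD1, hE1.finrank_eq, hlRb]
  have hRbD : LinEquiv (sumDiv Rb) (Finsupp.mapDomain r D1 - sumDiv Q) := by
    rw [hrD1]; exact h552_linEquiv_symm hE1
  obtain ⟨R', hR'r, hR'eq, hR'C⟩ := Fermat.Agent.S19.Abs.flip H C hC D1 Q Rb hQ hRb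
    (fun j i h => hRbT i (h ▸ hQT j))
    (fun P' hP' j h => hD1supp P' hP' (h ▸ hTT' _ (hQT j)))
    (fun P' hP' i h => hD1supp P' hP' (h ▸ hRbT' i))
    hdegD1 hl hl1 hRbD τ hτ P hP hPC τ' hτ'
  -- second flip
  have hrD2 : Finsupp.mapDomain r (D1 + X) = Db1 + Finsupp.mapDomain r X := by
    rw [Finsupp.mapDomain_add, hrD1]
  have hE2 : LinEquiv (Db1 + Finsupp.mapDomain r X - sumDiv Rb) (sumDiv Q'') := by
    have h := h552_linEquiv_add (h552_linEquiv_add hDb1 (h552_linEquiv_refl (Finsupp.mapDomain r X)))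
      (h552_linEquiv_refl (-sumDiv Rb))
    have e1 : Db1 + Finsupp.mapDomain r X + -sumDiv Rb = Db1 + Finsupp.mapDomain r X - sumDiv Rb := by
      abel
    have e2 : sumDiv Q + sumDiv Rb + Finsupp.mapDomain r X + -sumDiv Rb =
        Finsupp.mapDomain r X + sumDiv Q := by abel
    rw [e1, e2] at h
    exact h552_linEquiv_trans h hX
  have hE3 : LinEquiv (Db1 + Finsupp.mapDomain r X) (sumDiv Q'' + sumDiv Rb) := by
    have h := h552_linEquiv_add hE2 (h552_linEquiv_refl (sumDiv Rb))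
    rwa [sub_add_cancel] at h
  have hl' : Module.finrank k (riemannRochSpace (Finsupp.mapDomain r (D1 + X))) = g + 1 := by
    rw [hrD2, hE3.finrank_eq]
    have h1 := finrank_L_add_of_nonspecial R (D := sumDiv Q'') (D' := sumDiv Rb)
      (by rw [hlQ'', h552_degree_sumDiv hdegFb]; push_cast; ring) (h552_sumDiv_nonneg Rb)
    rw [map_add, h552_degree_sumDiv hdegFb, h552_degree_sumDiv hdegFb] at h1
    have h2 : (Module.finrank k (riemannRochSpace (sumDiv Q'' + sumDiv Rb)) : ℤ) = ((g + 1 : ℕ) : ℤ) := by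
      rw [h1]; push_cast; ring
    exact_mod_cast h2
  have hl1' : Module.finrank k (riemannRochSpace (Finsupp.mapDomain r (D1 + X) - sumDiv Rb)) = 1 := by
    rw [hrD2, hE2.finrank_eq, hlQ'']
  have hQ''D : LinEquiv (sumDiv Q'') (Finsupp.mapDomain r (D1 + X) - sumDiv Rb) := by
    rw [hrD2]; exact h552_linEquiv_symm hE2
  have hdegD2 : Divisor.degree (D1 + X) = (g : ℤ) + g := by
    rw [map_add, hdegD1, hXdeg]; ring
  have hsupp2 : ∀ P', (D1 + X) P' ≠ 0 → D1 P' ≠ 0 ∨ X P' ≠ 0 := by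
    intro P' hP'
    by_contra hcon
    push Not at hcon
    apply hP'
    rw [Finsupp.add_apply, hcon.1, hcon.2, add_zero]
  obtain ⟨P'', hP''r, hP''eq, hP''C⟩ := Fermat.Agent.S19.Abs.flip H C hC (D1 + X) Rb Q'' hRb hQ''
    (fun j i h => hRbT j (h ▸ hQ''T i))
    (fun P' hP' j h => by
      rcases hsupp2 P' hP' with h1 | h1
      · exact hD1supp P' h1 (h ▸ hRbT' j)
      · exact hRbT j (h ▸ hXT P' h1))
    (fun P' hP' i h => by
      rcases hsupp2 P' hP' with h1 | h1
      · exact hD1supp P' h1 (h ▸ hTT' _ (hQ''T i))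
      · exact hXsupp P' h1 i h)
    hdegD2 hl' hl1' hQ''D τ' hτ' R' hR'r hR'C τ'' hτ''
  refine ⟨P'', hP''r, fun s => ?_, hP''C⟩
  have h := h552_linEquiv_trans (hP''eq s)
    (h552_linEquiv_sub (h552_linEquiv_refl (D1 + X)) (hR'eq s))
  have e3 : D1 + X - (D1 - sumDiv (fun j => P j s)) = X + sumDiv (fun j => P j s) := by abel
  rwa [e3] at h

end Fermat.Agent.S19.Abs
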