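/-
S19, abstract geometry core, package ADD: chart change and analyticity of the group law on finite sets.
FROZEN STATEMENTS (helper5516 skeleton), PROVED here (helper1455) from the frozen statements of
`Trans` (`trans`), `ChartA` (`Chart.exists_pts`, `Chart.t_eq`, `Chart.t_mem_nonunits`,
`Chart.t_injective`, `exists_chart`), `RTKer` (`InKer.add`) and `FSCa` (`isGood_adjoin`,
`adjoin_mono_of_mem`, `comp_mem_adjoin`).
Proofs: notes/S19_GC_abstract_helper5516.md, section 6:
* `chart_change`: first for charts in general position (`trans` with `e = g`, `X = E0' - E0`, input families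
  `P_i(u s)`, good subalgebra `adjoin (t ∘ u)` by `isGood_adjoin` on the image of `u`); in general pass
  through a third chart chosen by `exists_chart` off the finite set of all places involved.
* `add_analytic`: second chart `c'` with discs disjoint from those of `c`, third chart `c''` in general
  position; `trans` with `e = 2g`, inputs `P_i(u s)`, `P'_i(u' s')`, `X = E0'' - E0 - E0'`; then
  `chart_change` back to `c` on the finite set of sums.
-/
import Fermat.Agent.S19.Abs.Trans
import Fermat.Agent.S19.Abs.Chart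

set_option autoImplicit false

namespace Fermat.Agent.S19.Abs

open AlgebraicCurve Fermat.Agent.RIN

section generic

variable {K F : Type*} [Field K] [Field F] [Algebra K F]

theorem h1455_degree_sumDiv (hdeg : ∀ P : Place K F, P.deg = 1) {n : ℕ} (P : Fin n → Place K F) :
    Divisor.degree (sumDiv P) = n := by
  unfold sumDiv
  rw [map_sum]
  simp [hdeg]

theorem h1455_mapDomain_sumDiv {k Fb : Type*} [Field k] [Field Fb] [Algebra k Fb]
    (r : Place K F → Place k Fb) {n : ℕ} (P : Fin n → Place K F) :
    Finsupp.mapDomain r (sumDiv P) = sumDiv (fun i => r (P i)) := by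
  unfold sumDiv
  rw [Finsupp.mapDomain_finsetSum]
  simp [Finsupp.mapDomain_single]

theorem h1455_sumDiv_append {m n : ℕ} (P : Fin m → Place K F) (P' : Fin n → Place K F) :
    sumDiv (Fin.append P P') = sumDiv P + sumDiv P' := by
  unfold sumDiv
  rw [Fin.sum_univ_add]
  simp [Fin.append_left, Fin.append_right]

theorem h1455_linEquiv_of_eq {D E : Divisor K F} (h : D = E) : LinEquiv D E :=
  ⟨1, one_ne_zero, fun P => by simp [h]⟩

theorem h1455_linEquiv_symm {D E : Divisor K F} (h : LinEquiv D E) : LinEquiv E D := by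
  obtain ⟨f, hf, hD⟩ := h
  exact ⟨f⁻¹, inv_ne_zero hf, fun P => by rw [P.ord_inv, ← hD P]; ring⟩

theorem h1455_linEquiv_trans {D E G : Divisor K F} (h : LinEquiv D E) (h' : LinEquiv E G) :
    LinEquiv D G := by
  obtain ⟨f, hf, hD⟩ := h
  obtain ⟨f', hf', hE⟩ := h'
  exact ⟨f * f', mul_ne_zero hf hf', fun P => by rw [P.ord_mul hf hf', ← hD P, ← hE P]; ring⟩

theorem h1455_linEquiv_add {D E D' E' : Divisor K F} (h : LinEquiv D E) (h' : LinEquiv D' E') :
    LinEquiv (D + D') (E + E') := by
  obtain ⟨f, hf, hD⟩ := h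
  obtain ⟨f', hf', hE⟩ := h'
  exact ⟨f * f', mul_ne_zero hf hf', fun P => by
    rw [P.ord_mul hf hf', ← hD P, ← hE P, Finsupp.add_apply, Finsupp.add_apply]; ring⟩

theorem h1455_linEquiv_neg {D E : Divisor K F} (h : LinEquiv D E) : LinEquiv (-D) (-E) := by
  obtain ⟨f, hf, hD⟩ := h
  exact ⟨f⁻¹, inv_ne_zero hf, fun P => by
    rw [P.ord_inv, ← hD P, Finsupp.neg_apply, Finsupp.neg_apply]; ring⟩

theorem h1455_linEquiv_sub {D E D' E' : Divisor K F} (h : LinEquiv D E) (h' : LinEquiv D' E') :
    LinEquiv (D - D') (E - E') := by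
  rw [sub_eq_add_neg, sub_eq_add_neg]
  exact h1455_linEquiv_add h (h1455_linEquiv_neg h')

/-- Linearly equivalent degree-zero divisors have the same class. -/
theorem h1455_mk_eq_of_linEquiv (D E : Divisor.degZero (K := K) (F := F))
    (h : LinEquiv (D : Divisor K F) (E : Divisor K F)) : Pic0.mk D = Pic0.mk E := by
  obtain ⟨f, hf, hD⟩ := h
  unfold Pic0.mk
  rw [QuotientAddGroup.eq, AddSubgroup.mem_addSubgroupOf, Divisor.mem_principal]
  refine ⟨f⁻¹, inv_ne_zero hf, fun P => ?_⟩
  rw [P.ord_inv, ← hD P]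
  simp only [AddSubgroup.coe_add, NegMemClass.coe_neg, Finsupp.add_apply, Finsupp.neg_apply]
  ring

end generic

variable {K F k Fb : Type*} [Field K] [Field F] [Algebra K F] [Field k] [Field Fb] [Algebra k Fb]
variable {O : ValuationSubring F} {red : O →+* Fb} {hO : IsConstRed K k O red}
variable [Infinite k] [Nonempty (Place K F)] [Nonempty (Place k Fb)]
  [HasPrincipalDivisors K F] [HasPrincipalDivisors k Fb]
variable {g : ℕ} {r : Place K F → Place k Fb} {ϖ : K}

omit [Infinite k] [Nonempty (Place K F)] [Nonempty (Place k Fb)] [HasPrincipalDivisors K F]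
  [HasPrincipalDivisors k Fb] in
/-- Points of a class in a chart from a linear equivalence. -/
theorem h1455_pts_of_linEquiv (H : Setup hO g r ϖ) (c : Chart red r g) {u : Pic0 K F}
    (D : Divisor.degZero (K := K) (F := F)) (hD : Pic0.mk D = u)
    (P : Fin g → Place K F) (hP : ∀ i, r (P i) = c.Q i)
    (hlin : LinEquiv (sumDiv P - c.E0) (D : Divisor K F)) : c.Pts u P := by
  have hdeg : sumDiv P - c.E0 ∈ Divisor.degZero (K := K) (F := F) := by
    rw [Divisor.mem_degZero, map_sub, h1455_degree_sumDiv H.hyp.degF, c.deg_E0, sub_self]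
  refine ⟨hP, ⟨sumDiv P - c.E0, hdeg⟩, ?_, rfl⟩
  rw [← hD]
  exact h1455_mk_eq_of_linEquiv _ _ hlin

theorem h1455_mem_constRing_of_t (H : Setup hO g r ϖ) (c : Chart red r g) {u : Pic0 K F}
    (hu : InKer r u) (i : Fin g) : c.t u i ∈ constRing K O :=
  ValuationSubring.nonunits_subset (c.t_mem_nonunits H hu i)

/-- Chart change for charts in general position, on an injective family. -/
theorem h1455_chart_change_gp (H : Setup hO g r ϖ) (c c' : Chart red r g)
    (hgp : ∀ P, c.E0 P ≠ 0 → ∀ i, r P ≠ c'.Q i)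
    {S : Type*} [Finite S] (u : S → Pic0 K F) (hu : ∀ s, InKer r (u s))
    (hinj : Function.Injective u) (i : Fin g) :
    (fun s => c'.t (u s) i) ∈
      Algebra.adjoin (constRing K O) (Set.range fun j : Fin g => fun s => c.t (u s) j) := by
  set C := Algebra.adjoin (constRing K O) (Set.range fun j : Fin g => fun s => c.t (u s) j) with hCdef
  have hC : IsGood (constRing K O) ϖ C :=
    isGood_adjoin (constRing K O) ϖ H.dvd_pow H.unif_mem (fun j : Fin g => fun s => c.t (u s) j)
      (fun j s => h1455_mem_constRing_of_t H c (hu s) j)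
      (fun s s' h => hinj (c.t_injective H (hu s) (hu s') (funext h)))
  choose P hPts using fun s => c.exists_pts H (hu s)
  have hXdeg : Divisor.degree (c'.E0 - c.E0) = (g : ℤ) - g := by
    rw [map_sub, c.deg_E0, c'.deg_E0]
  have hX : LinEquiv (Finsupp.mapDomain r (c'.E0 - c.E0) + sumDiv c.Q) (sumDiv c'.Q) := by
    have e : Finsupp.mapDomain r (c'.E0 - c.E0) + sumDiv c.Q
        = Finsupp.mapDomain r c'.E0 - (Finsupp.mapDomain r c.E0 - sumDiv c.Q) := by
      have := (Finsupp.mapDomain.addMonoidHom (M := ℤ) r).map_sub c'.E0 c.E0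
      simp only [Finsupp.mapDomain.addMonoidHom_apply] at this
      rw [this]; abel
    rw [e]
    have h1 := h1455_linEquiv_sub c'.red_E0 (h1455_linEquiv_sub c.red_E0
      (h1455_linEquiv_of_eq (rfl : sumDiv c.Q = sumDiv c.Q)))
    rw [sub_self, sub_zero] at h1
    exact h1
  have hXsupp : ∀ P, (c'.E0 - c.E0) P ≠ 0 → ∀ i, r P ≠ c'.Q i := by
    intro P hP i
    by_cases h' : c'.E0 P = 0
    · have : c.E0 P ≠ 0 := by
        intro h0
        apply hP
        rw [Finsupp.sub_apply, h', h0, sub_zero]
      exact hgp P this i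
    · exact c'.supp_E0 P h' i
  have hPC : ∀ j, (fun s => evalAt (P s j) (c.τ j)) ∈ C := by
    intro j
    have : (fun s => evalAt (P s j) (c.τ j)) = fun s => c.t (u s) j := by
      funext s
      exact (c.t_eq H (hPts s) j).symm
    rw [this]
    exact Algebra.subset_adjoin ⟨j, rfl⟩
  obtain ⟨P'', hr, hlin, hC''⟩ := trans H C hC c.Q c.Q_inj c'.Q c'.Q_inj c'.nonspecial
    (c'.E0 - c.E0) hXdeg hX hXsupp c.τ c.coord (fun j s => P s j) (fun j s => (hPts s).1 j) hPC
    c'.τ c'.coord
  have hpts : ∀ s, c'.Pts (u s) (fun i => P'' i s) := by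
    intro s
    obtain ⟨D, hD, hDeq⟩ := (hPts s).2
    refine h1455_pts_of_linEquiv H c' D hD _ (fun i => hr i s) ?_
    have h1 := h1455_linEquiv_sub (hlin s) (h1455_linEquiv_of_eq (rfl : c'.E0 = c'.E0))
    have e : c'.E0 - c.E0 + sumDiv (fun j => P s j) - c'.E0 = (D : Divisor K F) := by
      rw [hDeq]; abel
    rw [e] at h1
    exact h1
  have : (fun s => c'.t (u s) i) = fun s => evalAt (P'' i s) (c'.τ i) := by
    funext s
    exact c'.t_eq H (hpts s) i
  rw [this]
  exact hC'' i

/-- Chart change on an injective family. -/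
theorem h1455_chart_change_inj (H : Setup hO g r ϖ) (c c' : Chart red r g)
    {S : Type*} [Finite S] (u : S → Pic0 K F) (hu : ∀ s, InKer r (u s))
    (hinj : Function.Injective u) (i : Fin g) :
    (fun s => c'.t (u s) i) ∈
      Algebra.adjoin (constRing K O) (Set.range fun j : Fin g => fun s => c.t (u s) j) := by
  classical
  let T : Finset (Place k Fb) :=
    Finset.image c.Q Finset.univ ∪ Finset.image c'.Q Finset.univ ∪
      Finset.image r c.E0.support ∪ Finset.image r c'.E0.support
  obtain ⟨c₃, hQ₃, hE₃⟩ := exists_chart H T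
  have hgp1 : ∀ P, c.E0 P ≠ 0 → ∀ i, r P ≠ c₃.Q i := by
    intro P hP i h
    apply hQ₃ i
    rw [← h]
    simp only [T, Finset.mem_union, Finset.mem_image, Finsupp.mem_support_iff]
    exact Or.inl (Or.inr ⟨P, hP, rfl⟩)
  have hgp2 : ∀ P, c₃.E0 P ≠ 0 → ∀ i, r P ≠ c'.Q i := by
    intro P hP i h
    apply hE₃ P hP
    rw [h]
    simp only [T, Finset.mem_union, Finset.mem_image, Finset.mem_univ, true_and]
    exact Or.inl (Or.inl (Or.inr ⟨i, rfl⟩))
  have h1 : ∀ j, (fun s => c₃.t (u s) j) ∈
      Algebra.adjoin (constRing K O) (Set.range fun j : Fin g => fun s => c.t (u s) j) :=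
    fun j => h1455_chart_change_gp H c c₃ hgp1 u hu hinj j
  have h2 := h1455_chart_change_gp H c₃ c' hgp2 u hu hinj i
  exact adjoin_mono_of_mem (constRing K O) (fun j : Fin g => fun s => c₃.t (u s) j)
    (fun j : Fin g => fun s => c.t (u s) j) h1 h2

/-- (CHG) The coordinates of a second chart are polynomial (over `A`) in those of the first, on every
finite family of classes in the kernel of reduction. -/
theorem chart_change (H : Setup hO g r ϖ) (c c' : Chart red r g) {S : Type*} [Finite S]
    (u : S → Pic0 K F) (hu : ∀ s, InKer r (u s)) (i : Fin g) :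
    (fun s => c'.t (u s) i) ∈
      Algebra.adjoin (constRing K O) (Set.range fun j : Fin g => fun s => c.t (u s) j) := by
  have hv : ∀ x : Set.range u, InKer r (x : Pic0 K F) := by
    rintro ⟨_, s, rfl⟩
    exact hu s
  have key := h1455_chart_change_inj H c c' (fun x : Set.range u => (x : Pic0 K F)) hv
    Subtype.val_injective i
  exact comp_mem_adjoin (constRing K O) (fun j : Fin g => fun x : Set.range u => c.t (x : Pic0 K F) j)
    (fun s => (⟨u s, s, rfl⟩ : Set.range u)) key

/-- (ADD) on injective families, with the generators as one family. -/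
theorem h1455_add_inj (H : Setup hO g r ϖ) (c : Chart red r g) {S S' : Type*} [Finite S] [Finite S']
    (u : S → Pic0 K F) (u' : S' → Pic0 K F) (hu : ∀ s, InKer r (u s)) (hu' : ∀ s, InKer r (u' s))
    (hinj : Function.Injective u) (hinj' : Function.Injective u') (i : Fin g) :
    (fun p : S × S' => c.t (u p.1 + u' p.2) i) ∈
      Algebra.adjoin (constRing K O)
        (Set.range (Sum.elim (fun j : Fin g => fun p : S × S' => c.t (u p.1) j)
          (fun j : Fin g => fun p : S × S' => c.t (u' p.2) j))) := by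
  classical
  set x : Fin g ⊕ Fin g → S × S' → K :=
    Sum.elim (fun j : Fin g => fun p : S × S' => c.t (u p.1) j)
      (fun j : Fin g => fun p : S × S' => c.t (u' p.2) j) with hx
  set C := Algebra.adjoin (constRing K O) (Set.range x) with hCdef
  have hC : IsGood (constRing K O) ϖ C := by
    refine isGood_adjoin (constRing K O) ϖ H.dvd_pow H.unif_mem x ?_ ?_
    · rintro (j | j) p
      · exact h1455_mem_constRing_of_t H c (hu p.1) j
      · exact h1455_mem_constRing_of_t H c (hu' p.2) j
    · intro p p' h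
      have h1 : u p.1 = u p'.1 :=
        c.t_injective H (hu p.1) (hu p'.1) (funext fun j => h (Sum.inl j))
      have h2 : u' p.2 = u' p'.2 :=
        c.t_injective H (hu' p.2) (hu' p'.2) (funext fun j => h (Sum.inr j))
      exact Prod.ext (hinj h1) (hinj' h2)
  -- the second chart, disjoint from the first
  let T₁ : Finset (Place k Fb) := Finset.image c.Q Finset.univ ∪ Finset.image r c.E0.support
  obtain ⟨c', hQ', hE'⟩ := exists_chart H T₁
  -- the third chart, in general position
  let T₂ : Finset (Place k Fb) :=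
    T₁ ∪ Finset.image c'.Q Finset.univ ∪ Finset.image r c'.E0.support
  obtain ⟨c'', hQ'', hE''⟩ := exists_chart H T₂
  -- coordinates of `u'` in the second chart
  have hcc : ∀ j, (fun p : S × S' => c'.t (u' p.2) j) ∈ C := by
    intro j
    have h1 := chart_change H c c' u' hu' j
    have h2 := comp_mem_adjoin (constRing K O) (fun l : Fin g => fun s' => c.t (u' s') l)
      (Prod.snd : S × S' → S') h1
    refine Algebra.adjoin_mono ?_ h2
    rintro _ ⟨l, rfl⟩
    exact ⟨Sum.inr l, rfl⟩
  choose P hP using fun s => c.exists_pts H (hu s)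
  choose P' hP' using fun s' => c'.exists_pts H (hu' s')
  -- the data for `trans`
  have hQ₂ : Function.Injective (Fin.append c.Q c'.Q) := by
    rw [Fin.append_injective_iff]
    refine ⟨c.Q_inj, c'.Q_inj, fun a b h => hQ' b ?_⟩
    rw [← h]
    simp only [T₁, Finset.mem_union, Finset.mem_image, Finset.mem_univ, true_and]
    exact Or.inl ⟨a, rfl⟩
  have hτ₂ : ∀ j, IsCoord red r (Fin.append c.Q c'.Q j) (Fin.append c.τ c'.τ j) := by
    intro j
    induction j using Fin.addCases with
    | left j => rw [Fin.append_left, Fin.append_left]; exact c.coord j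
    | right j => rw [Fin.append_right, Fin.append_right]; exact c'.coord j
  have hP₂ : ∀ j (p : S × S'), r (Fin.append (P p.1) (P' p.2) j) = Fin.append c.Q c'.Q j := by
    intro j p
    induction j using Fin.addCases with
    | left j => rw [Fin.append_left, Fin.append_left]; exact (hP p.1).1 j
    | right j => rw [Fin.append_right, Fin.append_right]; exact (hP' p.2).1 j
  have hPC₂ : ∀ j, (fun p : S × S' =>
      evalAt (Fin.append (P p.1) (P' p.2) j) (Fin.append c.τ c'.τ j)) ∈ C := by
    intro j
    induction j using Fin.addCases with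
    | left j =>
      have : (fun p : S × S' =>
          evalAt (Fin.append (P p.1) (P' p.2) (Fin.castAdd g j))
            (Fin.append c.τ c'.τ (Fin.castAdd g j))) = x (Sum.inl j) := by
        funext p
        rw [Fin.append_left, Fin.append_left]
        exact (c.t_eq H (hP p.1) j).symm
      rw [this]
      exact Algebra.subset_adjoin ⟨_, rfl⟩
    | right j =>
      have : (fun p : S × S' =>
          evalAt (Fin.append (P p.1) (P' p.2) (Fin.natAdd g j))
            (Fin.append c.τ c'.τ (Fin.natAdd g j))) = fun p : S × S' => c'.t (u' p.2) j := by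
        funext p
        rw [Fin.append_right, Fin.append_right]
        exact (c'.t_eq H (hP' p.2) j).symm
      rw [this]
      exact hcc j
  have hXdeg : Divisor.degree (c''.E0 - c.E0 - c'.E0) = (g : ℤ) - ((g + g : ℕ) : ℤ) := by
    rw [map_sub, map_sub, c.deg_E0, c'.deg_E0, c''.deg_E0]
    push_cast
    ring
  have hX : LinEquiv (Finsupp.mapDomain r (c''.E0 - c.E0 - c'.E0) + sumDiv (Fin.append c.Q c'.Q))
      (sumDiv c''.Q) := by
    have e : Finsupp.mapDomain r (c''.E0 - c.E0 - c'.E0) + sumDiv (Fin.append c.Q c'.Q)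
        = Finsupp.mapDomain r c''.E0 - (Finsupp.mapDomain r c.E0 - sumDiv c.Q)
          - (Finsupp.mapDomain r c'.E0 - sumDiv c'.Q) := by
      have h1 := (Finsupp.mapDomain.addMonoidHom (M := ℤ) r).map_sub (c''.E0 - c.E0) c'.E0
      have h2 := (Finsupp.mapDomain.addMonoidHom (M := ℤ) r).map_sub c''.E0 c.E0
      simp only [Finsupp.mapDomain.addMonoidHom_apply] at h1 h2
      rw [h1, h2, h1455_sumDiv_append]; abel
    rw [e]
    have h1 := h1455_linEquiv_sub (h1455_linEquiv_sub c''.red_E0 (h1455_linEquiv_sub c.red_E0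
      (h1455_linEquiv_of_eq (rfl : sumDiv c.Q = sumDiv c.Q))))
      (h1455_linEquiv_sub c'.red_E0 (h1455_linEquiv_of_eq (rfl : sumDiv c'.Q = sumDiv c'.Q)))
    rw [sub_self, sub_self, sub_zero, sub_zero] at h1
    exact h1
  have hmemT₁ : ∀ P, c.E0 P ≠ 0 → r P ∈ T₁ := by
    intro P hP0
    simp only [T₁, Finset.mem_union, Finset.mem_image, Finsupp.mem_support_iff]
    exact Or.inr ⟨P, hP0, rfl⟩
  have hXsupp : ∀ P, (c''.E0 - c.E0 - c'.E0) P ≠ 0 → ∀ i, r P ≠ c''.Q i := by
    intro P hP0 i h
    by_cases h'' : c''.E0 P = 0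
    · by_cases h0 : c.E0 P = 0
      · have h' : c'.E0 P ≠ 0 := by
          intro h'
          apply hP0
          rw [Finsupp.sub_apply, Finsupp.sub_apply, h'', h0, h']; simp
        apply hQ'' i
        rw [← h]
        simp only [T₂, Finset.mem_union, Finset.mem_image, Finsupp.mem_support_iff]
        exact Or.inr ⟨P, h', rfl⟩
      · apply hQ'' i
        rw [← h]
        simp only [T₂, Finset.mem_union]
        exact Or.inl (Or.inl (hmemT₁ P h0))
    · exact c''.supp_E0 P h'' i h
  obtain ⟨P'', hr'', hlin'', hC''⟩ := trans H C hC (Fin.append c.Q c'.Q) hQ₂ c''.Q c''.Q_inj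
    c''.nonspecial (c''.E0 - c.E0 - c'.E0) hXdeg hX hXsupp (Fin.append c.τ c'.τ) hτ₂
    (fun j p => Fin.append (P p.1) (P' p.2) j) hP₂ hPC₂ c''.τ c''.coord
  have hpts : ∀ p : S × S', c''.Pts (u p.1 + u' p.2) (fun i => P'' i p) := by
    intro p
    obtain ⟨D₁, hD₁, e₁⟩ := (hP p.1).2
    obtain ⟨D₂, hD₂, e₂⟩ := (hP' p.2).2
    refine h1455_pts_of_linEquiv H c'' (D₁ + D₂) (by rw [Pic0.mk_add, hD₁, hD₂]) _
      (fun i => hr'' i p) ?_
    have h1 := h1455_linEquiv_sub (hlin'' p) (h1455_linEquiv_of_eq (rfl : c''.E0 = c''.E0))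
    have e : c''.E0 - c.E0 - c'.E0 + sumDiv (fun j => Fin.append (P p.1) (P' p.2) j) - c''.E0
        = ((D₁ + D₂ : Divisor.degZero (K := K) (F := F)) : Divisor K F) := by
      have : (fun j => Fin.append (P p.1) (P' p.2) j) = Fin.append (P p.1) (P' p.2) := rfl
      rw [this, h1455_sumDiv_append, AddSubgroup.coe_add, e₁, e₂]; abel
    rw [e] at h1
    exact h1
  have hsum : ∀ j, (fun p : S × S' => c''.t (u p.1 + u' p.2) j) ∈ C := by
    intro j
    have : (fun p : S × S' => c''.t (u p.1 + u' p.2) j)
        = fun p : S × S' => evalAt (P'' j p) (c''.τ j) := by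
      funext p
      exact c''.t_eq H (hpts p) j
    rw [this]
    exact hC'' j
  have hback := chart_change H c'' c (fun p : S × S' => u p.1 + u' p.2)
    (fun p => InKer.add H (hu p.1) (hu' p.2)) i
  refine (Algebra.adjoin_le ?_ : Algebra.adjoin (constRing K O)
    (Set.range fun j : Fin g => fun p : S × S' => c''.t (u p.1 + u' p.2) j) ≤ C) hback
  rintro _ ⟨j, rfl⟩
  exact hsum j

/-- (ADD) The group law is polynomial (over `A`) in the chart coordinates on finite sets. -/
theorem add_analytic (H : Setup hO g r ϖ) (c : Chart red r g) {S S' : Type*} [Finite S] [Finite S']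
    (u : S → Pic0 K F) (u' : S' → Pic0 K F) (hu : ∀ s, InKer r (u s)) (hu' : ∀ s, InKer r (u' s))
    (i : Fin g) :
    (fun p : S × S' => c.t (u p.1 + u' p.2) i) ∈
      Algebra.adjoin (constRing K O)
        (Set.range (fun j : Fin g => fun p : S × S' => c.t (u p.1) j) ∪
          Set.range (fun j : Fin g => fun p : S × S' => c.t (u' p.2) j)) := by
  have hv : ∀ x : Set.range u, InKer r (x : Pic0 K F) := by
    rintro ⟨_, s, rfl⟩
    exact hu s
  have hv' : ∀ x : Set.range u', InKer r (x : Pic0 K F) := by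
    rintro ⟨_, s, rfl⟩
    exact hu' s
  have key := h1455_add_inj H c (fun x : Set.range u => (x : Pic0 K F))
    (fun x : Set.range u' => (x : Pic0 K F)) hv hv' Subtype.val_injective Subtype.val_injective i
  have h2 := comp_mem_adjoin (constRing K O)
    (Sum.elim (fun j : Fin g => fun p : Set.range u × Set.range u' => c.t (p.1 : Pic0 K F) j)
      (fun j : Fin g => fun p : Set.range u × Set.range u' => c.t (p.2 : Pic0 K F) j))
    (fun p : S × S' => ((⟨u p.1, p.1, rfl⟩ : Set.range u), (⟨u' p.2, p.2, rfl⟩ : Set.range u'))) key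
  rw [← Set.Sum.elim_range]
  refine Algebra.adjoin_mono ?_ h2
  rintro _ ⟨l, rfl⟩
  rcases l with l | l
  · exact ⟨Sum.inl l, rfl⟩
  · exact ⟨Sum.inr l, rfl⟩

end Fermat.Agent.S19.Abs
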