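/-
S19, abstract geometry core, package FORMAL: from the analytic group law to the coalgebra lattice.
FROZEN STATEMENTS (helper5516 skeleton).  Proofs: notes/S19_GC_abstract_helper5516.md, section 6 (FORMAL).
`exists_lattice` is the ABSTRACT form of `Fermat.Agent.S19.exists_coalgLattice_jZero_core`.

Proofs by helper5715 (helpers carry the prefix `h5715_`).
-/
import Fermat.Agent.S19.Abs.Add

set_option autoImplicit false

namespace Fermat.Agent.S19.Abs

open AlgebraicCurve Fermat.Agent.RIN

/-! ### (DESC): descent of coefficients -/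

section Descent

variable {K : Type*} [Field K] {Γ : Type*} {Z : Type*} {ι : Type*}

/-- Twisting an expansion `f = Σ c_j w_j` of an equivariant function by `γ`. -/
theorem h5715_rel_twist (ρ : Γ → K ≃+* K) (act : Γ → Z → Z)
    (hact : ∀ γ, Function.Surjective (act γ))
    (w : ι → Z → K) (hw : ∀ j γ z, w j (act γ z) = ρ γ (w j z))
    (s : Finset ι) (c : ι → K) (f : Z → K) (hf : ∀ γ z, f (act γ z) = ρ γ (f z))
    (hc : ∀ z, f z = ∑ j ∈ s, c j * w j z) (γ : Γ) :
    ∀ z, f z = ∑ j ∈ s, ρ γ (c j) * w j z := by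
  intro z
  obtain ⟨z', rfl⟩ := hact γ z
  rw [hf, hc z', map_sum]
  refine Finset.sum_congr rfl fun j _ => ?_
  rw [map_mul, hw]

/-- A nontrivial relation among equivariant functions yields a nontrivial relation with fixed
coefficients. -/
theorem h5715_fixed_rel (ρ : Γ → K ≃+* K) (act : Γ → Z → Z)
    (hact : ∀ γ, Function.Surjective (act γ))
    (w : ι → Z → K) (hw : ∀ j γ z, w j (act γ z) = ρ γ (w j z)) :
    ∀ (s : Finset ι) (c : ι → K), (∀ z, ∑ j ∈ s, c j * w j z = 0) → (∃ j ∈ s, c j ≠ 0) →
      ∃ d : ι → K, (∀ j γ, ρ γ (d j) = d j) ∧ (∃ j ∈ s, d j ≠ 0) ∧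
        ∀ z, ∑ j ∈ s, d j * w j z = 0 := by
  classical
  intro s
  induction s using Finset.strongInduction with
  | _ s IH =>
    rintro c hc ⟨j0, hj0, hcj0⟩
    -- normalise
    set c' : ι → K := fun j => c j / c j0 with hc'
    have hc'rel : ∀ z, ∑ j ∈ s, c' j * w j z = 0 := by
      intro z
      have : ∑ j ∈ s, c' j * w j z = (∑ j ∈ s, c j * w j z) / c j0 := by
        rw [Finset.sum_div]
        refine Finset.sum_congr rfl fun j _ => ?_
        simp only [hc']
        ring
      rw [this, hc z, zero_div]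
    have hc'j0 : c' j0 = 1 := by simp only [hc']; exact div_self hcj0
    by_cases hfix : ∀ j ∈ s, ∀ γ, ρ γ (c' j) = c' j
    · refine ⟨fun j => if j ∈ s then c' j else 0, ?_, ⟨j0, hj0, ?_⟩, ?_⟩
      · intro j γ
        by_cases hj : j ∈ s
        · simp only [if_pos hj]; exact hfix j hj γ
        · simp only [if_neg hj, map_zero]
      · simp only [if_pos hj0, hc'j0]; exact one_ne_zero
      · intro z
        rw [← hc'rel z]
        refine Finset.sum_congr rfl fun j hj => ?_
        simp only [if_pos hj]
    · obtain ⟨j1, hj1, γ, hγ⟩ : ∃ j ∈ s, ∃ γ, ρ γ (c' j) ≠ c' j := by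
        by_contra hcon
        exact hfix fun j hj γ => by
          by_contra h
          exact hcon ⟨j, hj, γ, h⟩
      set e : ι → K := fun j => ρ γ (c' j) - c' j with he
      have hzero : ∀ z, (0 : Z → K) z = ∑ j ∈ s, c' j * w j z := fun z => (hc'rel z).symm
      have htw := h5715_rel_twist ρ act hact w hw s c' (0 : Z → K)
        (fun γ z => by simp) hzero γ
      have herel : ∀ z, ∑ j ∈ s, e j * w j z = 0 := by
        intro z
        have h1 : ∑ j ∈ s, e j * w j z
            = ∑ j ∈ s, ρ γ (c' j) * w j z - ∑ j ∈ s, c' j * w j z := by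
          rw [← Finset.sum_sub_distrib]
          refine Finset.sum_congr rfl fun j _ => ?_
          simp only [he]; ring
        rw [h1, ← htw z, hc'rel z]; simp
      have hej0 : e j0 = 0 := by simp only [he, hc'j0, map_one, sub_self]
      have hej1 : e j1 ≠ 0 := sub_ne_zero.mpr hγ
      have hj10 : j1 ≠ j0 := fun h => hej1 (h ▸ hej0)
      have herel' : ∀ z, ∑ j ∈ s.erase j0, e j * w j z = 0 := by
        intro z
        rw [← herel z, ← Finset.add_sum_erase s _ hj0, hej0, zero_mul, zero_add]
      obtain ⟨d, hdfix, ⟨j2, hj2, hdj2⟩, hdrel⟩ :=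
        IH (s.erase j0) (Finset.erase_ssubset hj0) e herel'
          ⟨j1, Finset.mem_erase.mpr ⟨hj10, hj1⟩, hej1⟩
      have hj20 : j2 ≠ j0 := (Finset.mem_erase.mp hj2).1
      refine ⟨fun j => if j = j0 then 0 else d j, ?_, ⟨j2, (Finset.mem_erase.mp hj2).2, ?_⟩, ?_⟩
      · intro j γ'
        by_cases hj : j = j0
        · simp only [if_pos hj, map_zero]
        · simp only [if_neg hj]; exact hdfix j γ'
      · simp only [if_neg hj20]; exact hdj2
      · intro z
        rw [← Finset.add_sum_erase s _ hj0]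
        simp only [if_true, zero_mul, zero_add]
        rw [← hdrel z]
        refine Finset.sum_congr rfl fun j hj => ?_
        simp only [if_neg (Finset.mem_erase.mp hj).1]

/-- (DESC), general form: no group structure is needed, only surjectivity of the maps `act γ`. -/
theorem h5715_descent_core (A : ValuationSubring K) (ρ : Γ → K ≃+* K) (act : Γ → Z → Z)
    (hact : ∀ γ, Function.Surjective (act γ))
    (w : ι → Z → K) (hw : ∀ j γ z, w j (act γ z) = ρ γ (w j z))
    (f : Z → K) (hf : ∀ γ z, f (act γ z) = ρ γ (f z)) :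
    ∀ (s : Finset ι) (a : ι → K), (∀ j, a j ∈ A) → (∀ z, f z = ∑ j ∈ s, a j * w j z) →
      ∃ b : ι → K, (∀ j, b j ∈ A) ∧ (∀ j γ, ρ γ (b j) = b j) ∧
        ∀ z, f z = ∑ j ∈ s, b j * w j z := by
  classical
  intro s
  induction s using Finset.strongInduction with
  | _ s IH =>
    intro a ha hfa
    by_cases hfix : ∀ j ∈ s, ∀ γ, ρ γ (a j) = a j
    · refine ⟨fun j => if j ∈ s then a j else 0, ?_, ?_, ?_⟩
      · intro j
        by_cases hj : j ∈ s
        · simp only [if_pos hj]; exact ha j
        · simp only [if_neg hj]; exact A.zero_mem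
      · intro j γ
        by_cases hj : j ∈ s
        · simp only [if_pos hj]; exact hfix j hj γ
        · simp only [if_neg hj, map_zero]
      · intro z
        rw [hfa z]
        refine Finset.sum_congr rfl fun j hj => ?_
        simp only [if_pos hj]
    · obtain ⟨j1, hj1, γ, hγ⟩ : ∃ j ∈ s, ∃ γ, ρ γ (a j) ≠ a j := by
        by_contra hcon
        exact hfix fun j hj γ => by
          by_contra h
          exact hcon ⟨j, hj, γ, h⟩
      have htw := h5715_rel_twist ρ act hact w hw s a f hf hfa γ
      have hcrel : ∀ z, ∑ j ∈ s, (ρ γ (a j) - a j) * w j z = 0 := by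
        intro z
        have h1 : ∑ j ∈ s, (ρ γ (a j) - a j) * w j z
            = ∑ j ∈ s, ρ γ (a j) * w j z - ∑ j ∈ s, a j * w j z := by
          rw [← Finset.sum_sub_distrib]
          refine Finset.sum_congr rfl fun j _ => ?_
          ring
        rw [h1, ← htw z, ← hfa z, sub_self]
      obtain ⟨d, hdfix, ⟨j3, hj3, hdj3⟩, hdrel⟩ :=
        h5715_fixed_rel ρ act hact w hw s (fun j => ρ γ (a j) - a j) hcrel
          ⟨j1, hj1, sub_ne_zero.mpr hγ⟩
      -- the coefficient of largest valuation
      obtain ⟨j2, hj2, hmax⟩ := Finset.exists_max_image s (fun j => A.valuation (d j)) ⟨j3, hj3⟩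
      have hv3 : A.valuation (d j3) ≠ 0 := (Valuation.ne_zero_iff _).mpr hdj3
      have hv2 : A.valuation (d j2) ≠ 0 := by
        intro h0
        have := hmax j3 hj3
        rw [h0] at this
        exact hv3 (le_antisymm this zero_le)
      have hdj2 : d j2 ≠ 0 := (Valuation.ne_zero_iff _).mp hv2
      set q : ι → K := fun j => d j / d j2 with hq
      have hqA : ∀ j ∈ s, q j ∈ A := by
        intro j hj
        rw [← A.valuation_le_one_iff]
        simp only [hq, map_div₀]
        exact div_le_one_of_le₀ (hmax j hj) zero_le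
      have hqfix : ∀ j γ', ρ γ' (q j) = q j := by
        intro j γ'
        simp only [hq, map_div₀, hdfix]
      have hqj2 : q j2 = 1 := by simp only [hq]; exact div_self hdj2
      have hqrel : ∀ z, ∑ j ∈ s, q j * w j z = 0 := by
        intro z
        have : ∑ j ∈ s, q j * w j z = (∑ j ∈ s, d j * w j z) / d j2 := by
          rw [Finset.sum_div]
          refine Finset.sum_congr rfl fun j _ => ?_
          simp only [hq]; ring
        rw [this, hdrel z, zero_div]
      -- eliminate `w j2`
      have hw2 : ∀ z, w j2 z = - ∑ j ∈ s.erase j2, q j * w j z := by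
        intro z
        have := hqrel z
        rw [← Finset.add_sum_erase s _ hj2, hqj2, one_mul] at this
        exact eq_neg_of_add_eq_zero_left this
      set a' : ι → K := fun j => if j ∈ s then a j - a j2 * q j else 0 with ha'
      have ha'A : ∀ j, a' j ∈ A := by
        intro j
        by_cases hj : j ∈ s
        · simp only [ha', if_pos hj]
          exact sub_mem (ha j) (mul_mem (ha j2) (hqA j hj))
        · simp only [ha', if_neg hj]; exact A.zero_mem
      have hfa' : ∀ z, f z = ∑ j ∈ s.erase j2, a' j * w j z := by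
        intro z
        rw [hfa z, ← Finset.add_sum_erase s _ hj2, hw2 z, mul_neg, Finset.mul_sum, neg_add_eq_sub,
          ← Finset.sum_sub_distrib]
        refine Finset.sum_congr rfl fun j hj => ?_
        simp only [ha', if_pos (Finset.mem_erase.mp hj).2]
        ring
      obtain ⟨b, hbA, hbfix, hbf⟩ := IH (s.erase j2) (Finset.erase_ssubset hj2) a' ha'A hfa'
      refine ⟨fun j => if j = j2 then 0 else b j, ?_, ?_, ?_⟩
      · intro j
        by_cases hj : j = j2
        · simp only [if_pos hj]; exact A.zero_mem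
        · simp only [if_neg hj]; exact hbA j
      · intro j γ'
        by_cases hj : j = j2
        · simp only [if_pos hj, map_zero]
        · simp only [if_neg hj]; exact hbfix j γ'
      · intro z
        rw [← Finset.add_sum_erase s _ hj2]
        simp only [if_true, zero_mul, zero_add]
        rw [hbf z]
        refine Finset.sum_congr rfl fun j hj => ?_
        simp only [if_neg (Finset.mem_erase.mp hj).1]

end Descent

/-- (DESC) Pure algebra.  `Γ` a group acting on a field `K` by ring automorphisms (`ρ`) and on a set `Z`,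
`A` a `Γ`-stable valuation subring.  A `Γ`-equivariant function `Z → K` which is an `A`-linear combination
of `Γ`-equivariant functions `w_1, …, w_n` is an `A^Γ`-linear combination of them. -/
theorem descent_equivariant {K : Type*} [Field K] (A : ValuationSubring K) {Γ : Type*} [Group Γ]
    (ρ : Γ →* (K ≃+* K)) (hA : ∀ γ a, a ∈ A → ρ γ a ∈ A) {Z : Type*} [MulAction Γ Z]
    {n : ℕ} (w : Fin n → Z → K) (hw : ∀ j γ z, w j (γ • z) = ρ γ (w j z))
    (f : Z → K) (hf : ∀ γ z, f (γ • z) = ρ γ (f z)) (a : Fin n → K) (ha : ∀ j, a j ∈ A)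
    (hfa : ∀ z, f z = ∑ j, a j * w j z) :
    ∃ b : Fin n → K, (∀ j, b j ∈ A) ∧ (∀ j γ, ρ γ (b j) = b j) ∧ ∀ z, f z = ∑ j, b j * w j z := by
  have _ := hA
  exact h5715_descent_core A (fun γ => ρ γ) (fun γ z => γ • z)
    (fun γ z => ⟨γ⁻¹ • z, smul_inv_smul γ z⟩) w hw f hf Finset.univ a ha hfa


/-! ### The lattice -/

section Lattice

set_option linter.unusedSectionVars false

variable {K F k Fb : Type*} [Field K] [Field F] [Algebra K F] [Field k] [Field Fb] [Algebra k Fb]
variable {O : ValuationSubring F} {red : O →+* Fb} {hO : IsConstRed K k O red}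
variable [Infinite k] [Nonempty (Place K F)] [Nonempty (Place k Fb)]
  [HasPrincipalDivisors K F] [HasPrincipalDivisors k Fb]
variable {g : ℕ} {r : Place K F → Place k Fb} {ϖ : K}

open Classical in
/-- Indicator (on `M`) of the coset `y + Γ₀` of the kernel of reduction. -/
noncomputable def h5715_e (r : Place K F → Place k Fb) (M : Submodule ℤ (Pic0 K F))
    (y : Pic0 K F) : M → K :=
  fun x => if InKer r ((x : Pic0 K F) - y) then 1 else 0

open Classical in
/-- The `j`-th chart coordinate of `x - y` on the coset `y + Γ₀`, extended by zero. -/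
noncomputable def h5715_T (c : Chart red r g) (M : Submodule ℤ (Pic0 K F)) (y : Pic0 K F)
    (j : Fin g) : M → K :=
  fun x => if InKer r ((x : Pic0 K F) - y) then c.t ((x : Pic0 K F) - y) j else 0

/-- Equivariance of a function `M → K` for the subgroup `I`. -/
def h5715_Eqv (I : Subgroup (SemilinearAut K F)) (M : Submodule ℤ (Pic0 K F)) (f : M → K) : Prop :=
  ∀ σ ∈ I, ∀ (x : M) (hx : σ • (x : Pic0 K F) ∈ M),
    f ⟨σ • (x : Pic0 K F), hx⟩ = SemilinearAut.baseAut σ (f x)

/-- The generating functions: indicators and coordinates attached to inertia-fixed classes. -/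
def h5715_gens (c : Chart red r g) (I : Subgroup (SemilinearAut K F))
    (M : Submodule ℤ (Pic0 K F)) : Set (M → K) :=
  {f | ∃ y : Pic0 K F, (∀ σ ∈ I, σ • y = y) ∧
    (f = h5715_e r M y ∨ ∃ j, f = h5715_T c M y j)}

/-- The lattice: equivariant elements of the `A`-algebra generated by the generating functions. -/
def h5715_N (c : Chart red r g) (I : Subgroup (SemilinearAut K F))
    (M : Submodule ℤ (Pic0 K F)) : Set (M → K) :=
  {f | f ∈ Algebra.adjoin (constRing K O) (h5715_gens c I M) ∧ h5715_Eqv I M f}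

theorem h5715_inKer_sub (H : Setup hO g r ϖ) {u v : Pic0 K F} (hu : InKer r u) (hv : InKer r v) :
    InKer r (u - v) := by
  rw [sub_eq_add_neg]
  exact hu.add H (hv.neg H)

theorem h5715_inKer_smul_iff (H : Setup hO g r ϖ) {I : Subgroup (SemilinearAut K F)}
    (hI : InertiaLike red I) {σ : SemilinearAut K F} (hσ : σ ∈ I) {x y : Pic0 K F}
    (hy : ∀ σ ∈ I, σ • y = y) : InKer r (σ • x - y) ↔ InKer r (x - y) := by
  have h1 : σ • x - y = σ • (x - y) := by rw [smul_sub, hy σ hσ]
  constructor
  · intro h
    rw [h1] at h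
    have := InKer.smul H hI (I.inv_mem hσ) h
    rwa [inv_smul_smul] at this
  · intro h
    rw [h1]
    exact InKer.smul H hI hσ h

theorem h5715_eqv_e (H : Setup hO g r ϖ) {I : Subgroup (SemilinearAut K F)}
    (hI : InertiaLike red I) (M : Submodule ℤ (Pic0 K F)) {y : Pic0 K F}
    (hy : ∀ σ ∈ I, σ • y = y) : h5715_Eqv I M (h5715_e r M y) := by
  intro σ hσ x hx
  simp only [h5715_e]
  by_cases h : InKer r ((x : Pic0 K F) - y)
  · rw [if_pos h, if_pos ((h5715_inKer_smul_iff H hI hσ hy).mpr h), map_one]
  · rw [if_neg h, if_neg (fun h' => h ((h5715_inKer_smul_iff H hI hσ hy).mp h')), map_zero]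

theorem h5715_eqv_T (H : Setup hO g r ϖ) {I : Subgroup (SemilinearAut K F)}
    (hI : InertiaLike red I) (c : Chart red r g) (hc : c.IsFixed I)
    (M : Submodule ℤ (Pic0 K F)) {y : Pic0 K F}
    (hy : ∀ σ ∈ I, σ • y = y) (j : Fin g) : h5715_Eqv I M (h5715_T c M y j) := by
  intro σ hσ x hx
  simp only [h5715_T]
  by_cases h : InKer r ((x : Pic0 K F) - y)
  · rw [if_pos h, if_pos ((h5715_inKer_smul_iff H hI hσ hy).mpr h)]
    have h1 : σ • (x : Pic0 K F) - y = σ • ((x : Pic0 K F) - y) := by rw [smul_sub, hy σ hσ]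
    rw [h1]
    exact Chart.t_smul H hI c hc hσ h j
  · rw [if_neg h, if_neg (fun h' => h ((h5715_inKer_smul_iff H hI hσ hy).mp h')), map_zero]

theorem h5715_eqv_one (I : Subgroup (SemilinearAut K F)) (M : Submodule ℤ (Pic0 K F)) :
    h5715_Eqv I M (1 : M → K) := by
  intro σ _ x hx
  simp

theorem h5715_eqv_mul {I : Subgroup (SemilinearAut K F)} {M : Submodule ℤ (Pic0 K F)}
    {f f' : M → K} (hf : h5715_Eqv I M f) (hf' : h5715_Eqv I M f') : h5715_Eqv I M (f * f') := by
  intro σ hσ x hx
  simp only [Pi.mul_apply, map_mul, hf σ hσ x hx, hf' σ hσ x hx]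

theorem h5715_eqv_add {I : Subgroup (SemilinearAut K F)} {M : Submodule ℤ (Pic0 K F)}
    {f f' : M → K} (hf : h5715_Eqv I M f) (hf' : h5715_Eqv I M f') : h5715_Eqv I M (f + f') := by
  intro σ hσ x hx
  simp only [Pi.add_apply, map_add, hf σ hσ x hx, hf' σ hσ x hx]

theorem h5715_gens_eqv (H : Setup hO g r ϖ) {I : Subgroup (SemilinearAut K F)}
    (hI : InertiaLike red I) (c : Chart red r g) (hc : c.IsFixed I)
    (M : Submodule ℤ (Pic0 K F)) {f : M → K} (hf : f ∈ h5715_gens c I M) : h5715_Eqv I M f := by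
  obtain ⟨y, hy, rfl | ⟨j, rfl⟩⟩ := hf
  · exact h5715_eqv_e H hI M hy
  · exact h5715_eqv_T H hI c hc M hy j

theorem h5715_gens_mem_N (H : Setup hO g r ϖ) {I : Subgroup (SemilinearAut K F)}
    (hI : InertiaLike red I) (c : Chart red r g) (hc : c.IsFixed I)
    (M : Submodule ℤ (Pic0 K F)) {f : M → K} (hf : f ∈ h5715_gens c I M) : f ∈ h5715_N c I M :=
  ⟨Algebra.subset_adjoin hf, h5715_gens_eqv H hI c hc M hf⟩

theorem h5715_e_mem_N (H : Setup hO g r ϖ) {I : Subgroup (SemilinearAut K F)}
    (hI : InertiaLike red I) (c : Chart red r g) (hc : c.IsFixed I)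
    (M : Submodule ℤ (Pic0 K F)) {y : Pic0 K F} (hy : ∀ σ ∈ I, σ • y = y) :
    h5715_e r M y ∈ h5715_N c I M :=
  h5715_gens_mem_N H hI c hc M ⟨y, hy, Or.inl rfl⟩

theorem h5715_T_mem_N (H : Setup hO g r ϖ) {I : Subgroup (SemilinearAut K F)}
    (hI : InertiaLike red I) (c : Chart red r g) (hc : c.IsFixed I)
    (M : Submodule ℤ (Pic0 K F)) {y : Pic0 K F} (hy : ∀ σ ∈ I, σ • y = y) (j : Fin g) :
    h5715_T c M y j ∈ h5715_N c I M :=
  h5715_gens_mem_N H hI c hc M ⟨y, hy, Or.inr ⟨j, rfl⟩⟩

theorem h5715_one_mem_N (c : Chart red r g) (I : Subgroup (SemilinearAut K F))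
    (M : Submodule ℤ (Pic0 K F)) : (1 : M → K) ∈ h5715_N c I M :=
  ⟨Subalgebra.one_mem _, h5715_eqv_one I M⟩

theorem h5715_mul_mem_N {c : Chart red r g} {I : Subgroup (SemilinearAut K F)}
    {M : Submodule ℤ (Pic0 K F)} {f f' : M → K} (hf : f ∈ h5715_N c I M)
    (hf' : f' ∈ h5715_N c I M) : f * f' ∈ h5715_N c I M :=
  ⟨Subalgebra.mul_mem _ hf.1 hf'.1, h5715_eqv_mul hf.2 hf'.2⟩

/-- All elements of the generated algebra are `A`-valued. -/
theorem h5715_adjoin_integral (H : Setup hO g r ϖ) (c : Chart red r g)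
    (I : Subgroup (SemilinearAut K F)) (M : Submodule ℤ (Pic0 K F)) {f : M → K}
    (hf : f ∈ Algebra.adjoin (constRing K O) (h5715_gens c I M)) (x : M) :
    f x ∈ constRing K O := by
  induction hf using Algebra.adjoin_induction with
  | mem f hf =>
    obtain ⟨y, _, rfl | ⟨j, rfl⟩⟩ := hf
    · simp only [h5715_e]
      split_ifs
      · exact (constRing K O).one_mem
      · exact (constRing K O).zero_mem
    · simp only [h5715_T]
      split_ifs with h
      · exact ValuationSubring.nonunits_subset (Chart.t_mem_nonunits H c h j)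
      · exact (constRing K O).zero_mem
  | algebraMap a => exact a.2
  | add f f' _ _ hf hf' => exact add_mem hf hf'
  | mul f f' _ _ hf hf' => exact mul_mem hf hf'


/-! #### Spanning -/

theorem h5715_span_mul {c : Chart red r g} {I : Subgroup (SemilinearAut K F)}
    {M : Submodule ℤ (Pic0 K F)} {f f' : M → K}
    (hf : f ∈ Submodule.span K (h5715_N c I M)) (hf' : f' ∈ Submodule.span K (h5715_N c I M)) :
    f * f' ∈ Submodule.span K (h5715_N c I M) := by
  have h := Submodule.mul_mem_mul hf hf'
  rw [Submodule.span_mul_span] at h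
  refine Submodule.span_mono ?_ h
  rintro _ ⟨a, ha, b, hb, rfl⟩
  exact h5715_mul_mem_N ha hb

/-- Two distinct points of `M` are separated by an element of the `K`-span of the lattice. -/
theorem h5715_exists_sep (H : Setup hO g r ϖ) {I : Subgroup (SemilinearAut K F)}
    (hI : InertiaLike red I) (hfc : FixedCoords red r I) (c : Chart red r g) (hc : c.IsFixed I)
    (M : Submodule ℤ (Pic0 K F)) {x x' : M} (hne : x ≠ x') :
    ∃ h ∈ Submodule.span K (h5715_N c I M), h x = 1 ∧ h x' = 0 := by
  obtain ⟨y, hy, hxy⟩ := exists_fixed_lift H hI hfc (x : Pic0 K F)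
  by_cases h' : InKer r ((x' : Pic0 K F) - y)
  · have hj : ∃ j, c.t ((x : Pic0 K F) - y) j ≠ c.t ((x' : Pic0 K F) - y) j := by
      by_contra hcon
      have hall : ∀ j, c.t ((x : Pic0 K F) - y) j = c.t ((x' : Pic0 K F) - y) j := by
        intro j
        by_contra hj
        exact hcon ⟨j, hj⟩
      have := Chart.t_injective H c hxy h' (funext hall)
      exact hne (Subtype.ext (sub_left_injective this))
    obtain ⟨j, hj⟩ := hj
    refine ⟨(c.t ((x : Pic0 K F) - y) j - c.t ((x' : Pic0 K F) - y) j)⁻¹ •
      (h5715_T c M y j - c.t ((x' : Pic0 K F) - y) j • (1 : M → K)), ?_, ?_, ?_⟩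
    · refine Submodule.smul_mem _ _ (Submodule.sub_mem _ ?_ (Submodule.smul_mem _ _ ?_))
      · exact Submodule.subset_span (h5715_T_mem_N H hI c hc M hy j)
      · exact Submodule.subset_span (h5715_one_mem_N c I M)
    · simp only [Pi.smul_apply, Pi.sub_apply, Pi.one_apply, smul_eq_mul, mul_one, h5715_T,
        if_pos hxy]
      exact inv_mul_cancel₀ (sub_ne_zero.mpr hj)
    · simp only [Pi.smul_apply, Pi.sub_apply, Pi.one_apply, smul_eq_mul, mul_one, h5715_T,
        if_pos h', sub_self, mul_zero]
  · refine ⟨h5715_e r M y, Submodule.subset_span (h5715_e_mem_N H hI c hc M hy), ?_, ?_⟩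
    · simp only [h5715_e, if_pos hxy]
    · simp only [h5715_e, if_neg h']

theorem h5715_span_top (H : Setup hO g r ϖ) {I : Subgroup (SemilinearAut K F)}
    (hI : InertiaLike red I) (hfc : FixedCoords red r I) (c : Chart red r g) (hc : c.IsFixed I)
    (M : Submodule ℤ (Pic0 K F)) [Finite M] : Submodule.span K (h5715_N c I M) = ⊤ := by
  classical
  have : Fintype M := Fintype.ofFinite M
  rw [eq_top_iff]
  intro f _
  have hδ : ∀ x : M, (Pi.single x (1 : K) : M → K) ∈ Submodule.span K (h5715_N c I M) := by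
    intro x
    have hex : ∀ x' : M, ∃ h ∈ Submodule.span K (h5715_N c I M), x ≠ x' → (h x = 1 ∧ h x' = 0) := by
      intro x'
      by_cases hne : x = x'
      · exact ⟨0, Submodule.zero_mem _, fun h => absurd hne h⟩
      · obtain ⟨h, hh, h1, h0⟩ := h5715_exists_sep H hI hfc c hc M hne
        exact ⟨h, hh, fun _ => ⟨h1, h0⟩⟩
    choose h hmem h10 using hex
    have hprod : (Pi.single x (1 : K) : M → K) = ∏ x' ∈ Finset.univ.erase x, h x' := by
      funext z
      rw [Finset.prod_apply, Pi.single_apply]
      by_cases hz : z = x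
      · subst hz
        rw [if_pos rfl]
        symm
        apply Finset.prod_eq_one
        intro x' hx'
        exact (h10 x' (Finset.ne_of_mem_erase hx').symm).1
      · rw [if_neg hz]
        symm
        exact Finset.prod_eq_zero (Finset.mem_erase.mpr ⟨hz, Finset.mem_univ z⟩)
          (h10 z (Ne.symm hz)).2
    rw [hprod]
    exact Finset.prod_induction _ (· ∈ Submodule.span K (h5715_N c I M))
      (fun a b ha hb => h5715_span_mul ha hb)
      (Submodule.subset_span (h5715_one_mem_N c I M)) (fun x' _ => hmem x')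
  have hf : f = ∑ x, f x • (Pi.single x (1 : K) : M → K) := by
    funext z
    simp [Finset.sum_apply, Pi.single_apply]
  rw [hf]
  exact Submodule.sum_mem _ fun x _ => Submodule.smul_mem _ _ (hδ x)

/-! #### Comultiplication -/

/-- Pure tensors of lattice elements. -/
def h5715_W (c : Chart red r g) (I : Subgroup (SemilinearAut K F))
    (M : Submodule ℤ (Pic0 K F)) : Set (M × M → K) :=
  {w | ∃ m1 ∈ h5715_N c I M, ∃ m2 ∈ h5715_N c I M, w = fun p => m1 p.1 * m2 p.2}

/-- The `A`-span of the pure tensors. -/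
def h5715_S (c : Chart red r g) (I : Subgroup (SemilinearAut K F))
    (M : Submodule ℤ (Pic0 K F)) : Submodule (constRing K O) (M × M → K) :=
  Submodule.span (constRing K O) (h5715_W c I M)

theorem h5715_tensor_mem {c : Chart red r g} {I : Subgroup (SemilinearAut K F)}
    {M : Submodule ℤ (Pic0 K F)} {m1 m2 : M → K} (h1 : m1 ∈ h5715_N c I M)
    (h2 : m2 ∈ h5715_N c I M) : (fun p : M × M => m1 p.1 * m2 p.2) ∈ h5715_S c I M :=
  Submodule.subset_span ⟨m1, h1, m2, h2, rfl⟩

theorem h5715_S_mul {c : Chart red r g} {I : Subgroup (SemilinearAut K F)}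
    {M : Submodule ℤ (Pic0 K F)} {w w' : M × M → K} (hw : w ∈ h5715_S c I M)
    (hw' : w' ∈ h5715_S c I M) : w * w' ∈ h5715_S c I M := by
  have h := Submodule.mul_mem_mul hw hw'
  rw [h5715_S, Submodule.span_mul_span] at h
  refine Submodule.span_mono ?_ h
  rintro _ ⟨a, ⟨m1, hm1, m2, hm2, rfl⟩, b, ⟨m1', hm1', m2', hm2', rfl⟩, rfl⟩
  refine ⟨m1 * m1', h5715_mul_mem_N hm1 hm1', m2 * m2', h5715_mul_mem_N hm2 hm2', ?_⟩
  funext p
  simp only [Pi.mul_apply]
  ring

theorem h5715_piece_e (H : Setup hO g r ϖ) {I : Subgroup (SemilinearAut K F)}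
    (hI : InertiaLike red I) (c : Chart red r g) (hc : c.IsFixed I)
    (M : Submodule ℤ (Pic0 K F)) {y1 y2 : Pic0 K F} (y : Pic0 K F)
    (hy1 : ∀ σ ∈ I, σ • y1 = y1) (hy2 : ∀ σ ∈ I, σ • y2 = y2) :
    (fun p : M × M => h5715_e r M y1 p.1 * h5715_e r M y2 p.2 * h5715_e r M y (p.1 + p.2))
      ∈ h5715_S c I M := by
  by_cases h : InKer r (y1 + y2 - y)
  · have hfun : (fun p : M × M =>
        h5715_e r M y1 p.1 * h5715_e r M y2 p.2 * h5715_e r M y (p.1 + p.2))
        = fun p => h5715_e r M y1 p.1 * h5715_e r M y2 p.2 := by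
      funext p
      simp only [h5715_e]
      by_cases h1 : InKer r ((p.1 : Pic0 K F) - y1)
      · by_cases h2 : InKer r ((p.2 : Pic0 K F) - y2)
        · have h3 : InKer r (((p.1 + p.2 : M) : Pic0 K F) - y) := by
            have := (h1.add H h2).add H h
            have e : ((p.1 + p.2 : M) : Pic0 K F) - y
                = (p.1 : Pic0 K F) - y1 + ((p.2 : Pic0 K F) - y2) + (y1 + y2 - y) := by
              rw [Submodule.coe_add]; abel
            rw [e]; exact this
          rw [if_pos h1, if_pos h2, if_pos h3, mul_one]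
        · rw [if_neg h2]; ring
      · rw [if_neg h1]; ring
    rw [hfun]
    exact h5715_tensor_mem (h5715_e_mem_N H hI c hc M hy1) (h5715_e_mem_N H hI c hc M hy2)
  · have hfun : (fun p : M × M =>
        h5715_e r M y1 p.1 * h5715_e r M y2 p.2 * h5715_e r M y (p.1 + p.2)) = 0 := by
      funext p
      simp only [h5715_e, Pi.zero_apply]
      by_cases h1 : InKer r ((p.1 : Pic0 K F) - y1)
      · by_cases h2 : InKer r ((p.2 : Pic0 K F) - y2)
        · have h3 : ¬ InKer r (((p.1 + p.2 : M) : Pic0 K F) - y) := by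
            intro h3
            apply h
            have := h5715_inKer_sub H (h5715_inKer_sub H h3 h1) h2
            have e : y1 + y2 - y = ((p.1 + p.2 : M) : Pic0 K F) - y - ((p.1 : Pic0 K F) - y1)
                - ((p.2 : Pic0 K F) - y2) := by
              rw [Submodule.coe_add]; abel
            rw [e]; exact this
          rw [if_neg h3]; ring
        · rw [if_neg h2]; ring
      · rw [if_neg h1]; ring
    rw [hfun]
    exact Submodule.zero_mem _

theorem h5715_piece_T (H : Setup hO g r ϖ) {I : Subgroup (SemilinearAut K F)}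
    (hI : InertiaLike red I) (c : Chart red r g) (hc : c.IsFixed I)
    (M : Submodule ℤ (Pic0 K F)) [Finite M] {y1 y2 y : Pic0 K F}
    (hy1 : ∀ σ ∈ I, σ • y1 = y1) (hy2 : ∀ σ ∈ I, σ • y2 = y2) (hy : ∀ σ ∈ I, σ • y = y)
    (j : Fin g) :
    (fun p : M × M => h5715_e r M y1 p.1 * h5715_e r M y2 p.2 * h5715_T c M y j (p.1 + p.2))
      ∈ h5715_S c I M := by
  classical
  by_cases h : InKer r (y1 + y2 - y)
  · -- the two cosets as finite types
    let u : {x : M // InKer r ((x : Pic0 K F) - y1)} → Pic0 K F := fun s => (s.1 : Pic0 K F) - y1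
    let u' : {x : M // InKer r ((x : Pic0 K F) - y2)} → Pic0 K F :=
      fun s => (s.1 : Pic0 K F) - (y - y1)
    have hu : ∀ s, InKer r (u s) := fun s => s.2
    have hu'0 : ∀ x : Pic0 K F, InKer r (x - y2) → InKer r (x - (y - y1)) := by
      intro x hx
      have := hx.add H h
      have e : x - (y - y1) = x - y2 + (y1 + y2 - y) := by abel
      rw [e]; exact this
    have hu' : ∀ s, InKer r (u' s) := fun s => hu'0 _ s.2
    have hyy1 : ∀ σ ∈ I, σ • (y - y1) = y - y1 := by
      intro σ hσ
      rw [smul_sub, hy σ hσ, hy1 σ hσ]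
    have key := add_analytic H c u u' hu hu' j
    -- extension by zero
    let ext : ({x : M // InKer r ((x : Pic0 K F) - y1)} × {x : M // InKer r ((x : Pic0 K F) - y2)}
        → K) → (M × M → K) :=
      fun h p => if hp : InKer r ((p.1 : Pic0 K F) - y1) ∧ InKer r ((p.2 : Pic0 K F) - y2) then
        h (⟨p.1, hp.1⟩, ⟨p.2, hp.2⟩) else 0
    have hext : ∀ h ∈ Algebra.adjoin (constRing K O)
        (Set.range (fun j' : Fin g => fun p :
          {x : M // InKer r ((x : Pic0 K F) - y1)} × {x : M // InKer r ((x : Pic0 K F) - y2)} =>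
            c.t (u p.1) j') ∪
          Set.range (fun j' : Fin g => fun p :
          {x : M // InKer r ((x : Pic0 K F) - y1)} × {x : M // InKer r ((x : Pic0 K F) - y2)} =>
            c.t (u' p.2) j')), ext h ∈ h5715_S c I M := by
      intro h hh
      induction hh using Algebra.adjoin_induction with
      | mem h hh =>
        rcases hh with ⟨j', rfl⟩ | ⟨j', rfl⟩
        · have hfun : ext (fun p => c.t (u p.1) j')
              = fun p : M × M => h5715_T c M y1 j' p.1 * h5715_e r M y2 p.2 := by
            funext p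
            simp only [ext, h5715_T, h5715_e, u]
            by_cases h1 : InKer r ((p.1 : Pic0 K F) - y1)
            · by_cases h2 : InKer r ((p.2 : Pic0 K F) - y2)
              · rw [dif_pos ⟨h1, h2⟩, if_pos h1, if_pos h2, mul_one]
              · rw [dif_neg (fun hp => h2 hp.2), if_neg h2, mul_zero]
            · rw [dif_neg (fun hp => h1 hp.1), if_neg h1, zero_mul]
          rw [hfun]
          exact h5715_tensor_mem (h5715_T_mem_N H hI c hc M hy1 j')
            (h5715_e_mem_N H hI c hc M hy2)
        · have hfun : ext (fun p => c.t (u' p.2) j')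
              = fun p : M × M => h5715_e r M y1 p.1 *
                  ((h5715_e r M y2 * h5715_T c M (y - y1) j') p.2) := by
            funext p
            simp only [ext, h5715_T, h5715_e, u', Pi.mul_apply]
            by_cases h1 : InKer r ((p.1 : Pic0 K F) - y1)
            · by_cases h2 : InKer r ((p.2 : Pic0 K F) - y2)
              · rw [dif_pos ⟨h1, h2⟩, if_pos h1, if_pos h2, if_pos (hu'0 _ h2), one_mul, one_mul]
              · rw [dif_neg (fun hp => h2 hp.2), if_neg h2, zero_mul, mul_zero]
            · rw [dif_neg (fun hp => h1 hp.1), if_neg h1, zero_mul]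
          rw [hfun]
          exact h5715_tensor_mem (h5715_e_mem_N H hI c hc M hy1)
            (h5715_mul_mem_N (h5715_e_mem_N H hI c hc M hy2) (h5715_T_mem_N H hI c hc M hyy1 j'))
      | algebraMap a =>
        have hfun : ext (algebraMap (constRing K O) _ a)
            = a • (fun p : M × M => h5715_e r M y1 p.1 * h5715_e r M y2 p.2) := by
          funext p
          simp only [ext, h5715_e, Pi.smul_apply]
          by_cases h1 : InKer r ((p.1 : Pic0 K F) - y1)
          · by_cases h2 : InKer r ((p.2 : Pic0 K F) - y2)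
            · rw [dif_pos ⟨h1, h2⟩, if_pos h1, if_pos h2, mul_one, Algebra.smul_def, mul_one]
              rfl
            · rw [dif_neg (fun hp => h2 hp.2), if_neg h2, mul_zero, smul_zero]
          · rw [dif_neg (fun hp => h1 hp.1), if_neg h1, zero_mul, smul_zero]
        rw [hfun]
        exact Submodule.smul_mem _ _
          (h5715_tensor_mem (h5715_e_mem_N H hI c hc M hy1) (h5715_e_mem_N H hI c hc M hy2))
      | add h h' _ _ ih ih' =>
        have hfun : ext (h + h') = ext h + ext h' := by
          funext p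
          simp only [ext, Pi.add_apply]
          split_ifs
          · rfl
          · rw [add_zero]
        rw [hfun]
        exact Submodule.add_mem _ ih ih'
      | mul h h' _ _ ih ih' =>
        have hfun : ext (h * h') = ext h * ext h' := by
          funext p
          simp only [ext, Pi.mul_apply]
          split_ifs
          · rfl
          · rw [mul_zero]
        rw [hfun]
        exact h5715_S_mul ih ih'
    have hfun : (fun p : M × M =>
        h5715_e r M y1 p.1 * h5715_e r M y2 p.2 * h5715_T c M y j (p.1 + p.2))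
        = ext (fun p => c.t (u p.1 + u' p.2) j) := by
      funext p
      simp only [ext, h5715_T, h5715_e, u, u']
      by_cases h1 : InKer r ((p.1 : Pic0 K F) - y1)
      · by_cases h2 : InKer r ((p.2 : Pic0 K F) - y2)
        · have e : ((p.1 + p.2 : M) : Pic0 K F) - y
              = (p.1 : Pic0 K F) - y1 + ((p.2 : Pic0 K F) - (y - y1)) := by
            rw [Submodule.coe_add]; abel
          have h3 : InKer r (((p.1 + p.2 : M) : Pic0 K F) - y) := by
            rw [e]; exact h1.add H (hu'0 _ h2)
          rw [dif_pos ⟨h1, h2⟩, if_pos h1, if_pos h2, if_pos h3, one_mul, one_mul, e]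
        · rw [dif_neg (fun hp => h2 hp.2), if_neg h2, mul_zero, zero_mul]
      · rw [dif_neg (fun hp => h1 hp.1), if_neg h1, zero_mul, zero_mul]
    rw [hfun]
    exact hext _ key
  · have hfun : (fun p : M × M =>
        h5715_e r M y1 p.1 * h5715_e r M y2 p.2 * h5715_T c M y j (p.1 + p.2)) = 0 := by
      funext p
      simp only [h5715_e, h5715_T, Pi.zero_apply]
      by_cases h1 : InKer r ((p.1 : Pic0 K F) - y1)
      · by_cases h2 : InKer r ((p.2 : Pic0 K F) - y2)
        · have h3 : ¬ InKer r (((p.1 + p.2 : M) : Pic0 K F) - y) := by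
            intro h3
            apply h
            have := h5715_inKer_sub H (h5715_inKer_sub H h3 h1) h2
            have e : y1 + y2 - y = ((p.1 + p.2 : M) : Pic0 K F) - y - ((p.1 : Pic0 K F) - y1)
                - ((p.2 : Pic0 K F) - y2) := by
              rw [Submodule.coe_add]; abel
            rw [e]; exact this
          rw [if_neg h3, mul_zero]
        · rw [if_neg h2, mul_zero, zero_mul]
      · rw [if_neg h1, zero_mul, zero_mul]
    rw [hfun]
    exact Submodule.zero_mem _

theorem h5715_comul_gens (H : Setup hO g r ϖ) {I : Subgroup (SemilinearAut K F)}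
    (hI : InertiaLike red I) (hfc : FixedCoords red r I) (c : Chart red r g) (hc : c.IsFixed I)
    (M : Submodule ℤ (Pic0 K F)) [Finite M] {f : M → K} (hf : f ∈ h5715_gens c I M) :
    (fun p : M × M => f (p.1 + p.2)) ∈ h5715_S c I M := by
  classical
  let s : Setoid M := ⟨fun x x' => InKer r ((x : Pic0 K F) - x'),
    ⟨fun x => by rw [sub_self]; exact inKer_zero H,
     fun {x x'} h => by have := h.neg H; rwa [neg_sub] at this,
     fun {x x' x''} h h' => by have := h.add H h'; rwa [sub_add_sub_cancel] at this⟩⟩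
  have : Fintype (Quotient s) := Fintype.ofFinite _
  choose y0 hy0fix hy0ker using fun x : Pic0 K F => exists_fixed_lift H hI hfc x
  let Y : Quotient s → Pic0 K F := fun q => y0 ((q.out : M) : Pic0 K F)
  have hY : ∀ (q : Quotient s) (x : M), InKer r ((x : Pic0 K F) - Y q) ↔ Quotient.mk s x = q := by
    intro q x
    constructor
    · intro h
      have h1 : InKer r ((x : Pic0 K F) - ((q.out : M) : Pic0 K F)) := by
        have := h5715_inKer_sub H h (hy0ker ((q.out : M) : Pic0 K F))
        have e : (x : Pic0 K F) - ((q.out : M) : Pic0 K F)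
            = (x : Pic0 K F) - Y q - (((q.out : M) : Pic0 K F) - y0 ((q.out : M) : Pic0 K F)) := by
          simp only [Y]; abel
        rw [e]; exact this
      have h2 : Quotient.mk s x = Quotient.mk s q.out := Quotient.sound h1
      rw [h2, Quotient.out_eq]
    · rintro rfl
      have h1 : InKer r ((((Quotient.mk s x).out : M) : Pic0 K F) - (x : Pic0 K F)) :=
        Quotient.mk_out (s := s) x
      have := h5715_inKer_sub H (hy0ker (((Quotient.mk s x).out : M) : Pic0 K F)) h1
      have e : (x : Pic0 K F) - Y (Quotient.mk s x)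
          = (((Quotient.mk s x).out : M) : Pic0 K F) - y0 (((Quotient.mk s x).out : M) : Pic0 K F)
            - ((((Quotient.mk s x).out : M) : Pic0 K F) - (x : Pic0 K F)) := by
        simp only [Y]; abel
      rw [e]; exact this
  have hpart : ∀ x : M, ∑ q, h5715_e r M (Y q) x = 1 := by
    intro x
    simp only [h5715_e, hY]
    rw [Finset.sum_ite_eq]
    simp
  have hdecomp : (fun p : M × M => f (p.1 + p.2)) = ∑ q1, ∑ q2,
      (fun p : M × M => h5715_e r M (Y q1) p.1 * h5715_e r M (Y q2) p.2 * f (p.1 + p.2)) := by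
    funext p
    simp only [Finset.sum_apply]
    have h1 : ∀ q1, ∑ q2, h5715_e r M (Y q1) p.1 * h5715_e r M (Y q2) p.2 * f (p.1 + p.2)
        = h5715_e r M (Y q1) p.1 * f (p.1 + p.2) := by
      intro q1
      rw [← Finset.sum_mul, ← Finset.mul_sum, hpart, mul_one]
    simp only [h1]
    rw [← Finset.sum_mul, hpart, one_mul]
  rw [hdecomp]
  refine Submodule.sum_mem _ fun q1 _ => Submodule.sum_mem _ fun q2 _ => ?_
  obtain ⟨y, hy, rfl | ⟨j, rfl⟩⟩ := hf
  · exact h5715_piece_e H hI c hc M y (hy0fix _) (hy0fix _)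
  · exact h5715_piece_T H hI c hc M (hy0fix _) (hy0fix _) hy j

theorem h5715_comul_adjoin (H : Setup hO g r ϖ) {I : Subgroup (SemilinearAut K F)}
    (hI : InertiaLike red I) (hfc : FixedCoords red r I) (c : Chart red r g) (hc : c.IsFixed I)
    (M : Submodule ℤ (Pic0 K F)) [Finite M] {f : M → K}
    (hf : f ∈ Algebra.adjoin (constRing K O) (h5715_gens c I M)) :
    (fun p : M × M => f (p.1 + p.2)) ∈ h5715_S c I M := by
  induction hf using Algebra.adjoin_induction with
  | mem f hf => exact h5715_comul_gens H hI hfc c hc M hf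
  | algebraMap a =>
    have hfun : (fun p : M × M => (algebraMap (constRing K O) (M → K) a) (p.1 + p.2))
        = a • (fun p : M × M => (1 : M → K) p.1 * (1 : M → K) p.2) := by
      funext p
      simp only [Pi.smul_apply, Pi.one_apply, mul_one, Algebra.smul_def]
      rfl
    rw [hfun]
    exact Submodule.smul_mem _ _
      (h5715_tensor_mem (h5715_one_mem_N c I M) (h5715_one_mem_N c I M))
  | add f f' _ _ ih ih' => exact Submodule.add_mem _ ih ih'
  | mul f f' _ _ ih ih' => exact h5715_S_mul ih ih'

/-- **Abstract geometric core.**  Under the hypotheses `Setup` (constant reduction with conservation,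
Riemann with the same constant on both fibres, lattice lemma, rank one), for an inertia-like group `I` with
inertia-fixed coordinates off a finite set, every finite `I`-stable subgroup `M` of `Pic0 K F` carries a
coalgebra lattice: a set `N` of `I`-equivariant, `A`-valued functions, stable under addition and under
`I`-fixed scalars of `A`, spanning all functions, and closed under comultiplication. -/
theorem exists_lattice (H : Setup hO g r ϖ) {I : Subgroup (SemilinearAut K F)}
    (hI : InertiaLike red I) (hfc : FixedCoords red r I)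
    (M : Submodule ℤ (Pic0 K F)) [Finite M] (hM : ∀ σ ∈ I, ∀ x ∈ M, σ • x ∈ M) :
    ∃ N : Set (M → K),
      (∀ f ∈ N, ∀ σ ∈ I, ∀ (x : M) (hx : σ • (x : Pic0 K F) ∈ M),
        f ⟨σ • (x : Pic0 K F), hx⟩ = SemilinearAut.baseAut σ (f x)) ∧
      (∀ f ∈ N, ∀ x, f x ∈ constRing K O) ∧
      (0 : M → K) ∈ N ∧
      (∀ f ∈ N, ∀ f' ∈ N, f + f' ∈ N) ∧
      (∀ a ∈ constRing K O, (∀ σ ∈ I, SemilinearAut.baseAut σ a = a) →
        ∀ f ∈ N, (fun x => a * f x) ∈ N) ∧
      Submodule.span K N = ⊤ ∧
      ∀ f ∈ N, ∃ (n : ℕ) (φ ψ : Fin n → M → K), (∀ j, φ j ∈ N) ∧ (∀ j, ψ j ∈ N) ∧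
        ∀ x y : M, f (x + y) = ∑ j, φ j x * ψ j y := by
  classical
  obtain ⟨c, hc, -, -⟩ := exists_fixed_chart H hI hfc ∅
  refine ⟨h5715_N c I M, fun f hf => hf.2, fun f hf x => h5715_adjoin_integral H c I M hf.1 x,
    ?_, ?_, ?_, h5715_span_top H hI hfc c hc M, ?_⟩
  · exact ⟨Subalgebra.zero_mem _, fun σ _ x hx => by simp⟩
  · exact fun f hf f' hf' => ⟨Subalgebra.add_mem _ hf.1 hf'.1, h5715_eqv_add hf.2 hf'.2⟩
  · intro a ha hfix f hf
    refine ⟨?_, ?_⟩
    · have hfun : (fun x => a * f x) = (⟨a, ha⟩ : constRing K O) • f := by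
        funext x
        rfl
      rw [hfun]
      exact Subalgebra.smul_mem _ hf.1 _
    · intro σ hσ x hx
      simp only
      rw [hf.2 σ hσ x hx, map_mul, hfix σ hσ]
  · intro f hf
    have hΔ := h5715_comul_adjoin H hI hfc c hc M hf.1
    rw [h5715_S, Submodule.mem_span_set'] at hΔ
    obtain ⟨n, a, wv, hsum⟩ := hΔ
    choose m1 hm1 m2 hm2 hw using fun i => (wv i).2
    obtain ⟨b, hbA, hbfix, hbf⟩ := h5715_descent_core (constRing K O)
      (Γ := ↥I) (Z := M × M) (ι := Fin n)
      (fun σ => SemilinearAut.baseAut (σ : SemilinearAut K F))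
      (fun σ p => (⟨(σ : SemilinearAut K F) • (p.1 : Pic0 K F), hM σ σ.2 _ p.1.2⟩,
        ⟨(σ : SemilinearAut K F) • (p.2 : Pic0 K F), hM σ σ.2 _ p.2.2⟩))
      (by
        intro σ p
        refine ⟨(⟨(σ : SemilinearAut K F)⁻¹ • (p.1 : Pic0 K F),
            hM _ (I.inv_mem σ.2) _ p.1.2⟩,
          ⟨(σ : SemilinearAut K F)⁻¹ • (p.2 : Pic0 K F), hM _ (I.inv_mem σ.2) _ p.2.2⟩), ?_⟩
        refine Prod.ext (Subtype.ext ?_) (Subtype.ext ?_)
        · exact smul_inv_smul _ _
        · exact smul_inv_smul _ _)
      (fun i p => m1 i p.1 * m2 i p.2)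
      (by
        intro i σ p
        simp only
        rw [(hm1 i).2 σ σ.2 p.1 _, (hm2 i).2 σ σ.2 p.2 _, map_mul])
      (fun p => f (p.1 + p.2))
      (by
        intro σ p
        simp only
        have e : (⟨(σ : SemilinearAut K F) • (p.1 : Pic0 K F), hM σ σ.2 _ p.1.2⟩ : M)
            + ⟨(σ : SemilinearAut K F) • (p.2 : Pic0 K F), hM σ σ.2 _ p.2.2⟩
            = ⟨(σ : SemilinearAut K F) • ((p.1 + p.2 : M) : Pic0 K F),
                hM σ σ.2 _ (p.1 + p.2).2⟩ := by
          apply Subtype.ext
          simp only [Submodule.coe_add, smul_add]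
        rw [e]
        exact hf.2 σ σ.2 (p.1 + p.2) _)
      Finset.univ (fun i => ((a i : constRing K O) : K)) (fun i => (a i).2)
      (by
        intro z
        have := congrFun hsum z
        rw [← this, Finset.sum_apply]
        refine Finset.sum_congr rfl fun i _ => ?_
        rw [Pi.smul_apply, hw i]
        rfl)
    refine ⟨n, fun i x => b i * m1 i x, m2, ?_, hm2, ?_⟩
    · intro i
      refine ⟨?_, ?_⟩
      · have hfun : (fun x => b i * m1 i x) = (⟨b i, hbA i⟩ : constRing K O) • m1 i := by
          funext x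
          rfl
        show (fun x => b i * m1 i x) ∈ _
        rw [hfun]
        exact Subalgebra.smul_mem _ (hm1 i).1 _
      · intro σ hσ x hx
        simp only
        rw [(hm1 i).2 σ hσ x hx, map_mul]
        congr 1
        exact (hbfix i ⟨σ, hσ⟩).symm
    · intro x y
      have := hbf (x, y)
      simp only at this
      rw [this]
      refine Finset.sum_congr rfl fun i _ => ?_
      ring

end Lattice

end Fermat.Agent.S19.Abs
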