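/-
S19, geometry core: BINDING of the abstract theorem `Abs.exists_lattice` to `X₀(p)` at `ℓ ∤ p`.
* `exists_modular_setup` (FROZEN STATEMENT, helper5516 skeleton; open): the Deuring data of the modular
  function field.  Sources: the RIN-Bind developments on the frozen S18 exports (Gauss valuation ring `O`,
  `red`, `IsConstRed`, Riemann with the same constant on both fibres, `hlat`, `r` from
  `RIN.exists_placeReduction`), rank one (`exists_pow_mul_inv_mem` of `Alg/HFour` and its twin), the
  coefficientwise action of the inertia group, and inertia-fixed coordinates from `thmT_fin`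
  (notes/S19_GC_abstract_helper5516.md, section 7).
* `exists_coalgLattice_jZero_core_of_abs`: the exact statement of `Geom/Core.lean`, PROVED here from
  `exists_modular_setup` and `Abs.exists_lattice`.
-/
import Fermat.Agent.S19.Abs.Formal
import Fermat.Agent.S19.Defs
import Fermat.Prelude.Def_ModularCurve_ReductionModL
import Fermat.Agent.S19.Bind6281.Main

set_option autoImplicit false

open ModularCurve AlgebraicCurve Fermat.Agent.RIN

namespace Fermat.Agent.S19.Abs

/-- The inertia group of `A`, acting coefficientwise on the function field of `X₀(p)` over `Qbar`. -/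
noncomputable def inertiaImage (p : ℕ) (A : ValuationSubring Qbar) :
    Subgroup (SemilinearAut Qbar (modularFunctionFieldBar p)) :=
  (A.inertiaSubgroupIn ℚ).map (arithmeticGalois (modularFunctionFieldFull p))

/-- BIND: the abstract hypotheses hold for `X₀(p)` at a valuation ring over `ℓ ∤ p`. -/
theorem exists_modular_setup (p : ℕ) [NeZero p] (ℓ : ℕ) [Fact ℓ.Prime] (hℓp : ¬ ℓ ∣ p) :
    ∃ A : ValuationSubring Qbar, A.LiesOverPrime ℓ ∧
      ∃ (O : ValuationSubring (modularFunctionFieldBar p))
        (red : O →+* modularFunctionFieldFullC (IsLocalRing.ResidueField A) p)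
        (hO : IsConstRed Qbar (IsLocalRing.ResidueField A) O red) (g : ℕ)
        (r : Place Qbar (modularFunctionFieldBar p) →
          Place (IsLocalRing.ResidueField A) (modularFunctionFieldFullC (IsLocalRing.ResidueField A) p)),
        Infinite (IsLocalRing.ResidueField A) ∧
        Nonempty (Place Qbar (modularFunctionFieldBar p)) ∧
        Nonempty (Place (IsLocalRing.ResidueField A)
          (modularFunctionFieldFullC (IsLocalRing.ResidueField A) p)) ∧
        HasPrincipalDivisors Qbar (modularFunctionFieldBar p) ∧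
        HasPrincipalDivisors (IsLocalRing.ResidueField A)
          (modularFunctionFieldFullC (IsLocalRing.ResidueField A) p) ∧
        Setup hO g r (ℓ : Qbar) ∧ constRing Qbar O = A ∧
        InertiaLike red (inertiaImage p A) ∧ FixedCoords red r (inertiaImage p A) := by
  obtain ⟨A, hA⟩ := Fermat.Agent.S13.exists_valuationSubring_over ℓ Fact.out
  obtain ⟨hO, g, r, hS, hc, hI, hF⟩ := Fermat.Agent.S19.Bind6281.modular_setup (N := p) hℓp hA
  exact ⟨A, hA, _, _, hO, g, r, Fermat.Agent.S37.RINB.infinite_residueField A,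
    Fermat.Agent.S37.RINB.nonempty_place_Fb p, Fermat.Agent.S37.RINB.nonempty_place_Ft hℓp hA,
    Fermat.Agent.S37.RINB.hasPrincipalDivisors_Fb p,
    Fermat.Agent.S37.RINB.hasPrincipalDivisors_Ft hℓp hA, hS, hc, hI, hF⟩

/-- The geometric core of S19 (exact statement of `Geom/Core.lean`) from the abstract theorem. -/
theorem exists_coalgLattice_jZero_core_of_abs
    (p : ℕ) [NeZero p] (ℓ : ℕ) [Fact ℓ.Prime] (hℓp : ¬ ℓ ∣ p) (k : ℕ)
    (hfin : Finite ↥(Submodule.torsionBy ℤ (JZero p) ((ℓ : ℤ) ^ k))) :
    ∃ A : ValuationSubring Qbar, A.LiesOverPrime ℓ ∧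
      ∃ N : Set (↥(Submodule.torsionBy ℤ (JZero p) ((ℓ : ℤ) ^ k)) → Qbar),
        CoalgLattice (Submodule.torsionBy ℤ (JZero p) ((ℓ : ℤ) ^ k)) A N := by
  obtain ⟨A, hA, O, red, hO, g, r, i1, i2, i3, i4, i5, H, hAO, hI, hfc⟩ :=
    exists_modular_setup p ℓ hℓp
  refine ⟨A, hA, ?_⟩
  have hM : ∀ σ ∈ inertiaImage p A, ∀ x ∈ Submodule.torsionBy ℤ (JZero p) ((ℓ : ℤ) ^ k),
      σ • x ∈ Submodule.torsionBy ℤ (JZero p) ((ℓ : ℤ) ^ k) := by
    intro σ _ x hx
    rw [Submodule.mem_torsionBy_iff] at hx ⊢
    rw [← SemilinearAut.smul_zsmul, hx, smul_zero]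
  obtain ⟨N, h1, h2, h3, h4, h5, h6, h7⟩ :=
    exists_lattice H hI hfc (Submodule.torsionBy ℤ (JZero p) ((ℓ : ℤ) ^ k)) hM
  have hmemI : ∀ σ ∈ A.inertiaSubgroupIn ℚ,
      arithmeticGalois (modularFunctionFieldFull p) σ ∈ inertiaImage p A :=
    fun σ hσ => Subgroup.mem_map_of_mem _ hσ
  refine ⟨N, ?_⟩
  refine
    { equivariant := ?_
      integral := ?_
      zero_mem := h3
      add_mem := h4
      smul_mem := ?_
      spanning := h6
      comul := h7 }
  · intro f hf σ hσ x hx
    exact h1 f hf _ (hmemI σ hσ) x hx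
  · intro f hf x
    have := h2 f hf x
    rw [hAO] at this
    exact this
  · intro a ha hfix f hf
    refine h5 a (by rw [hAO]; exact ha) ?_ f hf
    rintro _ ⟨σ, hσ, rfl⟩
    exact hfix σ hσ

end Fermat.Agent.S19.Abs
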