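/-
S19 Abs, piece CHART-A: points and coordinates of a class in a chart; existence of charts.
`exists_pts`: l(E0 + D_u) ≥ 1 (Riemann on F), ≤ l(r_*(E0 + D_u)) = l(ΣQ_i) = 1 (RT2); the effective divisor reduces to an effective divisor ~ ΣQ_i, i.e. to ΣQ_i (`eq_of_linEquiv_of_finrank_one`), so it is ΣP_i (`exists_points_of_mapDomain_eq_sumDiv`).
`exists_chart`: (G3) off T, (G4) to move ΣQ_i off T ∪ {Q_i}, pointwise lift (RT1), coordinates (RT5d).
FROZEN STATEMENTS (helper5516 skeleton of the abstract geometry core of S19).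
Proof sketches: origin/helper5516:notes/S19_GC_abstract_helper5516.md; protocol: notes/S19_ABS_BOARD_helper5516.md
-/
import Fermat.Agent.S19.Abs.RT
import Fermat.Agent.S19.Abs.SFG

set_option autoImplicit false

namespace Fermat.Agent.S19.Abs

open AlgebraicCurve Fermat.Agent.RIN

variable {K F k Fb : Type*} [Field K] [Field F] [Algebra K F] [Field k] [Field Fb] [Algebra k Fb]
variable {O : ValuationSubring F} {red : O →+* Fb} {hO : IsConstRed K k O red}
variable [Infinite k] [Nonempty (Place K F)] [Nonempty (Place k Fb)]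
  [HasPrincipalDivisors K F] [HasPrincipalDivisors k Fb]
variable {g : ℕ} {r : Place K F → Place k Fb} {ϖ : K}


/-! ### Private helpers (helper1993) -/

theorem h1993_infinite_K (hO : IsConstRed K k O red) : Infinite K := by
  classical
  have hex : ∀ c : k, ∃ a : K, ∃ ha : algebraMap K F a ∈ O, red ⟨_, ha⟩ = algebraMap k Fb c :=
    fun c => hO.const_surj c
  choose f hf hf' using hex
  refine Infinite.of_injective f ?_
  intro c c' hcc
  have h1 := hf' c
  have h2 := hf' c'
  have h3 : (⟨algebraMap K F (f c), hf c⟩ : O) = ⟨algebraMap K F (f c'), hf c'⟩ := by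
    apply Subtype.ext
    show algebraMap K F (f c) = algebraMap K F (f c')
    rw [hcc]
  rw [h3, h2] at h1
  exact ((algebraMap k Fb).injective h1).symm

theorem h1993_mapDomain_nonneg {α β : Type*} (f : α → β) (x : α →₀ ℤ) (hx : ∀ a, 0 ≤ x a) (b : β) :
    0 ≤ Finsupp.mapDomain f x b := by
  classical
  rw [Finsupp.mapDomain, Finsupp.sum_apply]
  apply Finset.sum_nonneg
  intro a _
  show 0 ≤ (Finsupp.single (f a) (x a)) b
  rw [Finsupp.single_apply]
  split_ifs
  · exact hx a
  · exact le_refl _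

open Classical in
theorem h1993_sumDiv_apply {K F : Type*} [Field K] [Field F] [Algebra K F] {n : ℕ}
    (P : Fin n → Place K F) (v : Place K F) :
    sumDiv P v = ((Finset.univ.filter (fun i => P i = v)).card : ℤ) := by
  unfold sumDiv
  rw [Finsupp.finsetSum_apply]
  simp only [Finsupp.single_apply]
  rw [Finset.card_filter]
  push_cast
  rfl

theorem h1993_sumDiv_nonneg {K F : Type*} [Field K] [Field F] [Algebra K F] {n : ℕ}
    (P : Fin n → Place K F) (v : Place K F) : 0 ≤ sumDiv P v := by
  rw [h1993_sumDiv_apply]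
  exact Int.natCast_nonneg _

theorem h1993_sumDiv_pos {K F : Type*} [Field K] [Field F] [Algebra K F] {n : ℕ}
    (P : Fin n → Place K F) (i : Fin n) : 0 < sumDiv P (P i) := by
  classical
  rw [h1993_sumDiv_apply]
  have : 0 < (Finset.univ.filter (fun j => P j = P i)).card :=
    Finset.card_pos.2 ⟨i, by simp⟩
  exact_mod_cast this

theorem h1993_exists_of_sumDiv_ne {K F : Type*} [Field K] [Field F] [Algebra K F] {n : ℕ}
    (P : Fin n → Place K F) (v : Place K F) (h : sumDiv P v ≠ 0) : ∃ i, P i = v := by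
  classical
  rw [h1993_sumDiv_apply] at h
  have h' : (Finset.univ.filter (fun i => P i = v)).card ≠ 0 := by
    intro h0
    apply h
    rw [h0]
    rfl
  obtain ⟨i, hi⟩ := Finset.card_pos.1 (Nat.pos_of_ne_zero h')
  exact ⟨i, (Finset.mem_filter.1 hi).2⟩

theorem h1993_mapDomain_sumDiv {K F k Fb : Type*} [Field K] [Field F] [Algebra K F] [Field k]
    [Field Fb] [Algebra k Fb] (r : Place K F → Place k Fb) {n : ℕ} (P : Fin n → Place K F) :
    Finsupp.mapDomain r (sumDiv P) = sumDiv (fun i => r (P i)) := by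
  unfold sumDiv
  rw [Finsupp.mapDomain_finsetSum]
  simp only [Finsupp.mapDomain_single]

theorem h1993_degree_sumDiv {K F : Type*} [Field K] [Field F] [Algebra K F]
    (hdeg : ∀ P : Place K F, P.deg = 1) {n : ℕ} (P : Fin n → Place K F) :
    Divisor.degree (sumDiv P) = n := by
  unfold sumDiv
  rw [map_sum]
  simp only [degree_single_one hdeg]
  simp

theorem h1993_principal_iff {K F : Type*} [Field K] [Field F] [Algebra K F] (D : Divisor K F) :
    D ∈ Divisor.principal (K := K) (F := F) ↔ LinEquiv D 0 := by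
  rw [Divisor.mem_principal]
  unfold Divisor.IsPrincipal LinEquiv
  simp only [Finsupp.coe_zero, Pi.zero_apply, sub_zero]

theorem h1993_linEquiv_of_sub_principal {K F : Type*} [Field K] [Field F] [Algebra K F]
    {D D' : Divisor K F} (h : D - D' ∈ Divisor.principal (K := K) (F := F)) : LinEquiv D D' := by
  obtain ⟨f, hf, hD⟩ := Divisor.mem_principal.1 h
  exact ⟨f, hf, fun P => by rw [← hD P, Finsupp.sub_apply]⟩

theorem h1993_mk_eq {K F : Type*} [Field K] [Field F] [Algebra K F]
    (D D' : Divisor.degZero (K := K) (F := F))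
    (h : (D' : Divisor K F) - D ∈ Divisor.principal (K := K) (F := F)) :
    Pic0.mk D' = Pic0.mk D := by
  unfold Pic0.mk
  rw [QuotientAddGroup.eq, AddSubgroup.mem_addSubgroupOf]
  have h2 := neg_mem h
  have h3 : ((-D' + D : Divisor.degZero (K := K) (F := F)) : Divisor K F)
      = -((D' : Divisor K F) - D) := by
    push_cast
    abel
  rw [h3]
  exact h2

theorem h1993_sub_principal_of_mk_eq {K F : Type*} [Field K] [Field F] [Algebra K F]
    (D D' : Divisor.degZero (K := K) (F := F)) (h : Pic0.mk D' = Pic0.mk D) :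
    (D : Divisor K F) - D' ∈ Divisor.principal (K := K) (F := F) := by
  unfold Pic0.mk at h
  rw [QuotientAddGroup.eq, AddSubgroup.mem_addSubgroupOf] at h
  have h3 : ((-D' + D : Divisor.degZero (K := K) (F := F)) : Divisor K F)
      = (D : Divisor K F) - D' := by
    push_cast
    abel
  rw [h3] at h
  exact h

/-- Riemann's theorem on the generic fibre (equality in large degree by semicontinuity). -/
theorem h1993_riemann_F (H : Setup hO g r ϖ) : Riemann K F g := by
  refine ⟨H.hyp.degF, H.hyp.RF, ?_⟩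
  obtain ⟨c, hc⟩ := H.hyp.RFb'
  refine ⟨c, fun D hD => ?_⟩
  have hdeg : Divisor.degree (Finsupp.mapDomain r D) = Divisor.degree D :=
    degree_mapDomain r (fun P => by rw [H.hyp.degF, H.hyp.degFb]) D
  have h1 := finrank_L_le_finrank_L_map H D
  have h2 := hc (Finsupp.mapDomain r D) (by rw [hdeg]; exact hD)
  rw [hdeg] at h2
  have h1' : (Module.finrank K (riemannRochSpace D) : ℤ)
      ≤ (Module.finrank k (riemannRochSpace (Finsupp.mapDomain r D)) : ℤ) := by
    exact_mod_cast h1
  linarith

theorem h1993_finrank_sumDiv (H : Setup hO g r ϖ) (c : Chart red r g) (P : Fin g → Place K F)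
    (hP : ∀ i, r (P i) = c.Q i) : Module.finrank K (riemannRochSpace (sumDiv P)) = 1 := by
  have h1 := finrank_L_le_finrank_L_map H (sumDiv P)
  have h2 : Finsupp.mapDomain r (sumDiv P) = sumDiv c.Q := by
    rw [h1993_mapDomain_sumDiv]
    congr 1
    funext i
    exact hP i
  rw [h2, finrank_L_sumDiv_of_nonspecial H.riemann c.nonspecial] at h1
  have h3 := H.hyp.RF (sumDiv P)
  rw [h1993_degree_sumDiv H.hyp.degF] at h3
  have h4 : (1 : ℤ) ≤ (Module.finrank K (riemannRochSpace (sumDiv P)) : ℤ) := by linarith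
  have h5 : 1 ≤ Module.finrank K (riemannRochSpace (sumDiv P)) := by exact_mod_cast h4
  omega

/-- Existence: for `u` in the kernel of reduction, `l(E0 + D_u) = 1` and the effective divisor in the class
reduces to `ΣQ_i`. -/
theorem Chart.exists_pts (H : Setup hO g r ϖ) (c : Chart red r g) {u : Pic0 K F} (hu : InKer r u) :
    ∃ P : Fin g → Place K F, c.Pts u P := by
  classical
  obtain ⟨D, rfl, hDprin⟩ := hu
  -- `L(E0 + D) ≠ 0`
  have hdeg : Divisor.degree (c.E0 + (D : Divisor K F)) = g := by
    rw [map_add, c.deg_E0, (Divisor.mem_degZero.1 D.2), add_zero]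
  have hRF := H.hyp.RF (c.E0 + (D : Divisor K F))
  rw [hdeg] at hRF
  have hpos : 0 < Module.finrank K (riemannRochSpace (c.E0 + (D : Divisor K F))) := by
    have : (0 : ℤ) < (Module.finrank K (riemannRochSpace (c.E0 + (D : Divisor K F))) : ℤ) := by
      linarith
    exact_mod_cast this
  obtain ⟨f, hfL, hf0⟩ : ∃ f : F, f ∈ riemannRochSpace (c.E0 + (D : Divisor K F)) ∧ f ≠ 0 := by
    by_contra hcon
    push Not at hcon
    have hsub : Subsingleton ↥(riemannRochSpace (c.E0 + (D : Divisor K F))) :=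
      ⟨fun a b => Subtype.ext (by rw [hcon a.1 a.2, hcon b.1 b.2])⟩
    have := Module.finrank_zero_of_subsingleton (R := K)
      (M := ↥(riemannRochSpace (c.E0 + (D : Divisor K F))))
    omega
  -- the effective divisor
  set X : Divisor K F := c.E0 + (D : Divisor K F) + divOf K f with hXdef
  have hX0 : ∀ P, 0 ≤ X P := by
    intro P
    have h1 := (mem_riemannRochSpace_iff.1 hfL) P
    rcases h1 with h1 | h1
    · exact absurd h1 hf0
    · rw [hXdef, Finsupp.add_apply, divOf_apply]
      linarith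
  have hdivprin : divOf K f ∈ Divisor.principal (K := K) (F := F) :=
    Divisor.mem_principal.2 ⟨f, hf0, fun v => divOf_apply f v⟩
  -- its reduction is linearly equivalent to `ΣQ_i`
  have hle : LinEquiv (Finsupp.mapDomain r X) (sumDiv c.Q) := by
    have e1 : LinEquiv (Finsupp.mapDomain r (D : Divisor K F)) 0 :=
      (h1993_principal_iff _).1 hDprin
    have e2 : LinEquiv (Finsupp.mapDomain r (divOf K f)) 0 :=
      (h1993_principal_iff _).1 (mapDomain_mem_principal H hdivprin)
    have e3 := (c.red_E0.add e1).add e2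
    rw [hXdef, Finsupp.mapDomain_add, Finsupp.mapDomain_add]
    simpa using e3
  have hl1 : Module.finrank k (riemannRochSpace (sumDiv c.Q)) = 1 :=
    finrank_L_sumDiv_of_nonspecial H.riemann c.nonspecial
  have hXeq : Finsupp.mapDomain r X = sumDiv c.Q :=
    eq_of_linEquiv_of_finrank_one H.riemann hl1 hle (LinEquiv.refl _)
      (h1993_mapDomain_nonneg r X hX0) (h1993_sumDiv_nonneg c.Q)
  obtain ⟨P, hP, hXP⟩ := exists_points_of_mapDomain_eq_sumDiv r c.Q c.Q_inj hX0 hXeq
  refine ⟨P, hP, ?_⟩
  have hdegD' : sumDiv P - c.E0 ∈ Divisor.degZero (K := K) (F := F) := by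
    rw [Divisor.mem_degZero, map_sub, h1993_degree_sumDiv H.hyp.degF, c.deg_E0, sub_self]
  refine ⟨⟨sumDiv P - c.E0, hdegD'⟩, ?_, rfl⟩
  apply h1993_mk_eq
  show sumDiv P - c.E0 - (D : Divisor K F) ∈ Divisor.principal (K := K) (F := F)
  have : sumDiv P - c.E0 - (D : Divisor K F) = divOf K f := by
    rw [← hXP, hXdef]
    abel
  rw [this]
  exact hdivprin

theorem Chart.Pts.unique (H : Setup hO g r ϖ) (c : Chart red r g) {u : Pic0 K F}
    {P P' : Fin g → Place K F} (h : c.Pts u P) (h' : c.Pts u P') : P = P' := by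
  classical
  have : Infinite K := h1993_infinite_K hO
  obtain ⟨hP, D, hD, hDeq⟩ := h
  obtain ⟨hP', D', hD', hD'eq⟩ := h'
  have hprin : (D : Divisor K F) - D' ∈ Divisor.principal (K := K) (F := F) :=
    h1993_sub_principal_of_mk_eq D D' (by rw [hD, hD'])
  have hle : LinEquiv (sumDiv P) (sumDiv P') := by
    apply h1993_linEquiv_of_sub_principal
    have : sumDiv P - sumDiv P' = (D : Divisor K F) - D' := by
      rw [hDeq, hD'eq]
      abel
    rw [this]
    exact hprin
  have hS : sumDiv P = sumDiv P' :=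
    eq_of_linEquiv_of_finrank_one (h1993_riemann_F H) (h1993_finrank_sumDiv H c P' hP') hle
      (LinEquiv.refl _) (h1993_sumDiv_nonneg P) (h1993_sumDiv_nonneg P')
  funext i
  have h1 : sumDiv P' (P i) ≠ 0 := by
    rw [← hS]
    exact (h1993_sumDiv_pos P i).ne'
  obtain ⟨j, hj⟩ := h1993_exists_of_sumDiv_ne P' (P i) h1
  have h2 : c.Q j = c.Q i := by
    rw [← hP' j, hj, hP i]
  have h3 : j = i := c.Q_inj h2
  rw [← hj, h3]

theorem Chart.t_eq (H : Setup hO g r ϖ) (c : Chart red r g) {u : Pic0 K F}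
    {P : Fin g → Place K F} (h : c.Pts u P) (i : Fin g) : c.t u i = evalAt (P i) (c.τ i) := by
  have hex : ∃ P : Fin g → Place K F, c.Pts u P := ⟨P, h⟩
  have hch : hex.choose = P := Chart.Pts.unique H c hex.choose_spec h
  unfold Chart.t
  rw [dif_pos hex, hch]

theorem Chart.t_mem_nonunits (H : Setup hO g r ϖ) (c : Chart red r g) {u : Pic0 K F}
    (hu : InKer r u) (i : Fin g) : c.t u i ∈ (constRing K O).nonunits := by
  obtain ⟨P, hP⟩ := Chart.exists_pts H c hu
  rw [Chart.t_eq H c hP i]
  exact (c.coord i).evalAt_mem_nonunits H (hP.1 i)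

/-- The coordinates are injective on the kernel of reduction. -/
theorem Chart.t_injective (H : Setup hO g r ϖ) (c : Chart red r g) {u v : Pic0 K F}
    (hu : InKer r u) (hv : InKer r v) (h : c.t u = c.t v) : u = v := by
  obtain ⟨P, hP⟩ := Chart.exists_pts H c hu
  obtain ⟨P', hP'⟩ := Chart.exists_pts H c hv
  have hPP : P = P' := by
    funext i
    have h1 : evalAt (P i) (c.τ i) = evalAt (P' i) (c.τ i) := by
      rw [← Chart.t_eq H c hP i, ← Chart.t_eq H c hP' i, h]
    have hρ : evalAt (P i) (c.τ i) ∈ (constRing K O).nonunits :=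
      (c.coord i).evalAt_mem_nonunits H (hP.1 i)
    obtain ⟨P₀, -, huniq⟩ := (c.coord i).existsUnique H _ hρ
    rw [huniq (P i) ⟨hP.1 i, rfl⟩, huniq (P' i) ⟨hP'.1 i, h1.symm⟩]
  obtain ⟨-, D, hD, hDeq⟩ := hP
  obtain ⟨-, D', hD', hD'eq⟩ := hP'
  have hDD : D = D' := Subtype.ext (by rw [hDeq, hD'eq, hPP])
  rw [← hD, ← hD', hDD]

/-- Charts exist off any finite set of places of the special fibre. -/
theorem exists_chart (H : Setup hO g r ϖ) (T : Finset (Place k Fb)) :
    ∃ c : Chart red r g, (∀ i, c.Q i ∉ T) ∧ ∀ P, c.E0 P ≠ 0 → r P ∉ T := by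
  classical
  have R : Riemann k Fb g := H.riemann
  obtain ⟨Q, hQinj, hQT, hQns⟩ := exists_nonspecial R T
  obtain ⟨D', hD'eq, hD'T⟩ := exists_move R (sumDiv Q) (T ∪ Finset.univ.image Q)
  have hsurj : Function.Surjective r := r_surjective H
  set lift : Place k Fb → Place K F := Function.surjInv hsurj with hlift
  have hrl : ∀ Q', r (lift Q') = Q' := fun Q' => Function.surjInv_eq hsurj Q'
  set E0 : Divisor K F := Finsupp.mapDomain lift D' with hE0
  have hrE0 : Finsupp.mapDomain r E0 = D' := by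
    rw [hE0, ← Finsupp.mapDomain_comp]
    have : r ∘ lift = id := funext hrl
    rw [this, Finsupp.mapDomain_id]
  have hsupp : ∀ P, E0 P ≠ 0 → r P ∉ T ∪ Finset.univ.image Q := by
    intro P hP hmem
    have hP' : P ∈ E0.support := Finsupp.mem_support_iff.2 hP
    have hP'' := Finsupp.mapDomain_support hP'
    obtain ⟨Q', hQ', rfl⟩ := Finset.mem_image.1 hP''
    rw [hrl] at hmem
    exact (Finsupp.mem_support_iff.1 hQ') (hD'T Q' hmem)
  have hτ : ∀ i, ∃ τ : F, IsCoord red r (Q i) τ := fun i => exists_isCoord H (Q i)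
  choose τ hτ' using hτ
  refine ⟨⟨Q, hQinj, hQns, E0, ?_, ?_, ?_, τ, hτ'⟩, hQT, ?_⟩
  · have h1 : Divisor.degree (Finsupp.mapDomain r E0) = Divisor.degree E0 :=
      degree_mapDomain r (fun P => by rw [H.hyp.degF, H.hyp.degFb]) E0
    rw [← h1, hrE0, hD'eq.degree_eq, h1993_degree_sumDiv H.hyp.degFb]
  · rw [hrE0]
    exact hD'eq
  · intro P hP i hi
    apply hsupp P hP
    rw [hi]
    exact Finset.mem_union_right _ (Finset.mem_image_of_mem Q (Finset.mem_univ i))
  · intro P hP hmem
    exact hsupp P hP (Finset.mem_union_left _ hmem)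

end Fermat.Agent.S19.Abs
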