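/-
S19 Abs, piece CHART-B: inertia.  `r_smul` from `conserves_unique` (r ∘ σ satisfies conservation);
fixed places = points τ = 0 of discs with fixed coordinate; fixed charts and fixed lifts by lifting divisors of the special fibre (moved off T₀ by (G4)) pointwise to fixed places.
FROZEN STATEMENTS (helper5516 skeleton of the abstract geometry core of S19).
Proof sketches: origin/helper5516:notes/S19_GC_abstract_helper5516.md; protocol: notes/S19_ABS_BOARD_helper5516.md
Proofs: helper4136 (helper lemmas carry the prefix `h4136_`).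
-/
import Fermat.Agent.S19.Abs.ChartA

set_option autoImplicit false

namespace Fermat.Agent.S19.Abs

open AlgebraicCurve Fermat.Agent.RIN

variable {K F k Fb : Type*} [Field K] [Field F] [Algebra K F] [Field k] [Field Fb] [Algebra k Fb]
variable {O : ValuationSubring F} {red : O →+* Fb} {hO : IsConstRed K k O red}
variable [Infinite k] [Nonempty (Place K F)] [Nonempty (Place k Fb)]
  [HasPrincipalDivisors K F] [HasPrincipalDivisors k Fb]
variable {g : ℕ} {r : Place K F → Place k Fb} {ϖ : K}
variable {I : Subgroup (SemilinearAut K F)}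

/-! ### Helper lemmas -/

/-- A nonzero element lies in the maximal ideal of a valuation subring iff its inverse is not in the
subring. -/
theorem h4136_mem_nonunits_iff {L : Type*} [Field L] (B : ValuationSubring L) {x : L}
    (hx : x ≠ 0) : x ∈ B.nonunits ↔ x⁻¹ ∉ B := by
  rw [ValuationSubring.mem_nonunits_iff, ← B.valuation_le_one_iff, map_inv₀, not_le]
  have h0 : B.valuation x ≠ 0 := (B.valuation.ne_zero_iff).2 hx
  constructor
  · intro h
    exact (one_lt_inv₀ (zero_lt_iff.2 h0)).2 h
  · intro h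
    exact (one_lt_inv₀ (zero_lt_iff.2 h0)).1 h

/-- A semilinear automorphism maps the maximal ideal of a place onto that of the translated place. -/
theorem h4136_smul_mem_nonunits (σ : SemilinearAut K F) (P : Place K F) {x : F}
    (hx : x ∈ P.toValuationSubring.nonunits) : σ • x ∈ (σ • P).toValuationSubring.nonunits := by
  by_cases h0 : x = 0
  · subst h0
    rw [smul_zero]
    exact (ValuationSubring.nonunits _).zero_mem
  · have hσ0 : σ • x ≠ 0 := by
      intro h
      apply h0
      have := congrArg (fun y => σ⁻¹ • y) h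
      simpa using this
    rw [h4136_mem_nonunits_iff _ h0] at hx
    rw [h4136_mem_nonunits_iff _ hσ0, SemilinearAut.smul_toValuationSubring,
      ValuationSubring.mem_pointwise_smul_iff_inv_smul_mem]
    intro h
    apply hx
    have e : σ⁻¹ • (σ • x)⁻¹ = x⁻¹ := by
      rw [← smul_inv'' , inv_smul_smul]
    rwa [e] at h

/-- Values are transported by semilinear automorphisms. -/
theorem h4136_hasValue_smul (σ : SemilinearAut K F) {P : Place K F} {f : F} {c : K}
    (h : HasValue P f c) : HasValue (σ • P) (σ • f) (SemilinearAut.baseAut σ c) := by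
  have h1 := h4136_smul_mem_nonunits σ P h
  rw [smul_sub, SemilinearAut.smul_algebraMap] at h1
  exact h1

theorem h4136_smul_sumDiv (σ : SemilinearAut K F) {n : ℕ} (P : Fin n → Place K F) :
    σ • sumDiv P = sumDiv (fun i => σ • P i) := by
  unfold sumDiv
  rw [Finset.smul_sum]
  exact Finset.sum_congr rfl fun i _ => SemilinearAut.smul_single σ (P i) 1

theorem h4136_degree_sumDiv {k' E : Type*} [Field k'] [Field E] [Algebra k' E]
    (hdeg : ∀ Q : Place k' E, Q.deg = 1) {n : ℕ} (Q : Fin n → Place k' E) :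
    Divisor.degree (sumDiv Q) = n := by
  unfold sumDiv
  rw [map_sum]
  simp [Divisor.degree_single, hdeg]

/-- A divisor on the special fibre that is principal up to sign. -/
theorem h4136_sub_mem_principal_of_linEquiv {k' E : Type*} [Field k'] [Field E] [Algebra k' E]
    {D D' : Divisor k' E} (h : LinEquiv D' D) :
    D - D' ∈ Divisor.principal (K := k') (F := E) := by
  obtain ⟨f, hf, hD⟩ := h
  refine ⟨f⁻¹, inv_ne_zero hf, fun v => ?_⟩
  rw [Finsupp.sub_apply, Place.ord_inv, ← hD v]
  ring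

/-! ### The frozen statements -/

/-- Inertia preserves the valuation ring of constants. -/
theorem baseAut_mem_constRing (hI : InertiaLike red I) {σ : SemilinearAut K F} (hσ : σ ∈ I) {a : K}
    (ha : a ∈ constRing K O) : SemilinearAut.baseAut σ a ∈ constRing K O := by
  obtain ⟨h, -⟩ := hI σ hσ (algebraMap K F a) ha
  rw [SemilinearAut.smul_algebraMap] at h
  exact h

/-- Inertia preserves residue discs. -/
theorem r_smul (H : Setup hO g r ϖ) (hI : InertiaLike red I) {σ : SemilinearAut K F} (hσ : σ ∈ I)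
    (P : Place K F) : r (σ • P) = r P := by
  have hcons : Conserves red (fun P => r (σ • P)) := by
    intro y hy hne D hD Q
    obtain ⟨hσy, hred⟩ := hI σ hσ y hy
    have hD' : ∀ P, (σ • D) P = P.ord (σ • y) := by
      intro P
      rw [SemilinearAut.divisor_smul_apply, hD]
      have := SemilinearAut.ord_smul σ (σ⁻¹ • P) y
      rw [smul_inv_smul] at this
      exact this.symm
    have h1 := H.cons (σ • y) hσy (by rw [hred]; exact hne) (σ • D) hD' Q
    rw [hred] at h1
    rw [← h1, SemilinearAut.divisor_smul_def, ← Finsupp.mapDomain_comp]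
    rfl
  exact congrFun (conserves_unique H _ hcons) P

theorem InKer.smul (H : Setup hO g r ϖ) (hI : InertiaLike red I) {σ : SemilinearAut K F}
    (hσ : σ ∈ I) {u : Pic0 K F} (hu : InKer r u) : InKer r (σ • u) := by
  obtain ⟨D, rfl, hD⟩ := hu
  refine ⟨SemilinearAut.degZeroSMulHom σ D, (SemilinearAut.pic0_smul_mk σ D).symm, ?_⟩
  rw [SemilinearAut.coe_degZeroSMulHom, SemilinearAut.divisor_smul_def, ← Finsupp.mapDomain_comp]
  have e : (r ∘ fun P => σ • P) = r := funext fun P => r_smul H hI hσ P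
  rw [e]
  exact hD

/-- Values are equivariant. -/
theorem evalAt_smul (σ : SemilinearAut K F) {P : Place K F} (hP : P.deg = 1) {f : F}
    (hf : f ∈ P.toValuationSubring) :
    evalAt (σ • P) (σ • f) = SemilinearAut.baseAut σ (evalAt P f) :=
  (h4136_hasValue_smul σ (hasValue_evalAt hP hf)).evalAt_eq

/-- The coordinates of an inertia-fixed chart are equivariant. -/
theorem Chart.t_smul (H : Setup hO g r ϖ) (hI : InertiaLike red I) (c : Chart red r g)
    (hc : c.IsFixed I) {σ : SemilinearAut K F} (hσ : σ ∈ I) {u : Pic0 K F} (hu : InKer r u)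
    (i : Fin g) : c.t (σ • u) i = SemilinearAut.baseAut σ (c.t u i) := by
  obtain ⟨P, hP⟩ := c.exists_pts H hu
  have hP' : c.Pts (σ • u) (fun i => σ • P i) := by
    obtain ⟨hr, D, hDu, hD⟩ := hP
    refine ⟨fun i => ?_, SemilinearAut.degZeroSMulHom σ D, ?_, ?_⟩
    · rw [r_smul H hI hσ]
      exact hr i
    · rw [← hDu]
      exact (SemilinearAut.pic0_smul_mk σ D).symm
    · rw [SemilinearAut.coe_degZeroSMulHom, hD, smul_sub, h4136_smul_sumDiv, hc.1 σ hσ]
  rw [c.t_eq H hP' i, c.t_eq H hP i]
  have h1 := evalAt_smul σ (H.hyp.degF (P i)) ((c.coord i).reg (P i) (hP.1 i))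
  rw [hc.2 σ hσ i] at h1
  exact h1

/-- Inertia-fixed lifts of places (the point `τ = 0` of a disc with fixed coordinate `τ`). -/
theorem exists_fixed_place (H : Setup hO g r ϖ) (hI : InertiaLike red I) {Q : Place k Fb} {τ : F}
    (hτ : IsCoord red r Q τ) (hfix : ∀ σ ∈ I, σ • τ = τ) :
    ∃ P : Place K F, r P = Q ∧ ∀ σ ∈ I, σ • P = P := by
  obtain ⟨P, ⟨hPQ, hP0⟩, huniq⟩ :=
    hτ.existsUnique H 0 ((ValuationSubring.nonunits _).zero_mem)
  refine ⟨P, hPQ, fun σ hσ => huniq _ ⟨?_, ?_⟩⟩
  · rw [r_smul H hI hσ]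
    exact hPQ
  · have h1 := evalAt_smul σ (H.hyp.degF P) (hτ.reg P hPQ)
    rw [hfix σ hσ, hP0, map_zero] at h1
    exact h1

/-- Fixed lifts of the places off a finite set. -/
theorem h4136_exists_lift (H : Setup hO g r ϖ) (hI : InertiaLike red I)
    (hfc : FixedCoords red r I) :
    ∃ (T₀ : Finset (Place k Fb)) (lift : Place k Fb → Place K F),
      (∀ Q ∉ T₀, ∃ τ : F, IsCoord red r Q τ ∧ ∀ σ ∈ I, σ • τ = τ) ∧
      ∀ Q ∉ T₀, r (lift Q) = Q ∧ ∀ σ ∈ I, σ • lift Q = lift Q := by
  classical
  obtain ⟨T₀, hT₀⟩ := hfc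
  have hex : ∀ Q : Place k Fb, ∃ P : Place K F, Q ∉ T₀ → (r P = Q ∧ ∀ σ ∈ I, σ • P = P) := by
    intro Q
    by_cases hQ : Q ∈ T₀
    · exact ⟨Classical.arbitrary _, fun h => absurd hQ h⟩
    · obtain ⟨τ, hτ, hfix⟩ := hT₀ Q hQ
      obtain ⟨P, hP⟩ := exists_fixed_place H hI hτ hfix
      exact ⟨P, fun _ => hP⟩
  choose lift hlift using hex
  exact ⟨T₀, lift, hT₀, fun Q hQ => hlift Q hQ⟩

/-- Every divisor on the special fibre is, up to linear equivalence, the reduction of an
inertia-fixed divisor whose support avoids the discs of a given finite set. -/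
theorem h4136_exists_fixed_divisor (H : Setup hO g r ϖ) (hI : InertiaLike red I)
    (hfc : FixedCoords red r I) (T : Finset (Place k Fb)) (Db : Divisor k Fb) :
    ∃ E : Divisor K F, (∀ σ ∈ I, σ • E = E) ∧ LinEquiv (Finsupp.mapDomain r E) Db ∧
      (∀ P, E P ≠ 0 → r P ∉ T) ∧ Divisor.degree E = Divisor.degree Db := by
  classical
  obtain ⟨T₀, lift, -, hlift⟩ := h4136_exists_lift H hI hfc
  obtain ⟨D', hD', hD'T⟩ := exists_move H.riemann Db (T ∪ T₀)
  have hsupp : ∀ Q ∈ D'.support, Q ∉ T ∧ Q ∉ T₀ := by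
    intro Q hQ
    rw [Finsupp.mem_support_iff] at hQ
    have : Q ∉ T ∪ T₀ := fun h => hQ (hD'T Q h)
    rw [Finset.mem_union, not_or] at this
    exact this
  have hrE : Finsupp.mapDomain r (Finsupp.mapDomain lift D') = D' := by
    rw [← Finsupp.mapDomain_comp]
    have := Finsupp.mapDomain_congr (v := D') (f := r ∘ lift) (g := id)
      (fun Q hQ => (hlift Q (hsupp Q hQ).2).1)
    rw [this, Finsupp.mapDomain_id]
  refine ⟨Finsupp.mapDomain lift D', ?_, ?_, ?_, ?_⟩
  · intro σ hσ
    rw [SemilinearAut.divisor_smul_def, ← Finsupp.mapDomain_comp]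
    exact Finsupp.mapDomain_congr (fun Q hQ => (hlift Q (hsupp Q hQ).2).2 σ hσ)
  · rw [hrE]
    exact hD'
  · intro P hP
    have hmem : P ∈ (Finsupp.mapDomain lift D').support := Finsupp.mem_support_iff.mpr hP
    have := Finsupp.mapDomain_support hmem
    rw [Finset.mem_image] at this
    obtain ⟨Q, hQ, rfl⟩ := this
    rw [(hlift Q (hsupp Q hQ).2).1]
    exact (hsupp Q hQ).1
  · rw [degree_mapDomain lift (fun Q => by rw [H.hyp.degF, H.hyp.degFb]) D']
    exact hD'.degree_eq

/-- Inertia-fixed charts exist off any finite set. -/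
theorem exists_fixed_chart (H : Setup hO g r ϖ) (hI : InertiaLike red I)
    (hfc : FixedCoords red r I) (T : Finset (Place k Fb)) :
    ∃ c : Chart red r g, c.IsFixed I ∧ (∀ i, c.Q i ∉ T) ∧ ∀ P, c.E0 P ≠ 0 → r P ∉ T := by
  classical
  obtain ⟨T₀, -, hT₀, -⟩ := h4136_exists_lift H hI hfc
  obtain ⟨Q, hQinj, hQT, hns⟩ := exists_nonspecial H.riemann (T ∪ T₀)
  have hQT' : ∀ i, Q i ∉ T ∧ Q i ∉ T₀ := by
    intro i
    have := hQT i
    rw [Finset.mem_union, not_or] at this
    exact this
  choose τ hτ hτfix using fun i => hT₀ (Q i) (hQT' i).2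
  obtain ⟨E0, hE0fix, hE0red, hE0supp, hE0deg⟩ :=
    h4136_exists_fixed_divisor H hI hfc (T ∪ Finset.univ.image Q) (sumDiv Q)
  have hE0supp' : ∀ P, E0 P ≠ 0 → r P ∉ T ∧ ∀ i, r P ≠ Q i := by
    intro P hP
    have := hE0supp P hP
    rw [Finset.mem_union, not_or] at this
    refine ⟨this.1, fun i h => this.2 ?_⟩
    rw [Finset.mem_image]
    exact ⟨i, Finset.mem_univ i, h.symm⟩
  refine ⟨{ Q := Q
            Q_inj := hQinj
            nonspecial := hns
            E0 := E0
            deg_E0 := by rw [hE0deg, h4136_degree_sumDiv H.hyp.degFb]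
            red_E0 := hE0red
            supp_E0 := fun P hP => (hE0supp' P hP).2
            τ := τ
            coord := hτ }, ⟨hE0fix, fun σ hσ i => hτfix i σ hσ⟩, fun i => (hQT' i).1,
    fun P hP => (hE0supp' P hP).1⟩

/-- Every class is congruent, modulo the kernel of reduction, to an inertia-fixed class. -/
theorem exists_fixed_lift (H : Setup hO g r ϖ) (hI : InertiaLike red I)
    (hfc : FixedCoords red r I) (x : Pic0 K F) :
    ∃ y : Pic0 K F, (∀ σ ∈ I, σ • y = y) ∧ InKer r (x - y) := by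
  classical
  obtain ⟨D, rfl⟩ := Pic0.mk_surjective x
  obtain ⟨E, hEfix, hEred, -, hEdeg⟩ :=
    h4136_exists_fixed_divisor H hI hfc ∅ (Finsupp.mapDomain r (D : Divisor K F))
  have hE0 : E ∈ Divisor.degZero (K := K) (F := F) := by
    rw [Divisor.mem_degZero, hEdeg,
      degree_mapDomain r (fun P => by rw [H.hyp.degF, H.hyp.degFb]) (D : Divisor K F)]
    exact D.2
  refine ⟨Pic0.mk ⟨E, hE0⟩, fun σ hσ => ?_, D - ⟨E, hE0⟩, rfl, ?_⟩
  · rw [SemilinearAut.pic0_smul_mk]
    exact congrArg Pic0.mk (Subtype.ext (hEfix σ hσ))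
  · rw [AddSubgroupClass.coe_sub, Finsupp.mapDomain_sub]
    exact h4136_sub_mem_principal_of_linEquiv hEred

end Fermat.Agent.S19.Abs
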